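import Fermat.Agent.GreenTao.TupleProgressions
import Fermat.Agent.Root.SummaryChen
import Mathlib.Analysis.SpecialFunctions.Pow.Asymptotics

/-!
# Progressions of primes `p` with `p + h` almost prime

Chen's theorem gives `≫ x / (log x) ^ 2` primes `p ≤ x` with `p + h` a product of at most two
primes, all at least `x ^ (1/8)`: the theorem on rough tuples applies to the shifts `0`, `h`.
-/

set_option autoImplicit false

namespace FA.GreenTao

open Finset Function Filter
open scoped ArithmeticFunction.Omega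

/-- Many progressions of primes `p` with `p + h` a `P₂`. -/
theorem exists_many_almost_twin {h : ℕ} (hh : Even h) (hh0 : 0 < h) {k : ℕ} (hk : 2 ≤ k) :
    ∃ c : ℝ, 0 < c ∧ ∀ᶠ x : ℕ in atTop, c * (x : ℝ) ^ 2 / Real.log x ^ (2 * k) ≤
      #((Icc 1 x ×ˢ Icc 1 x).filter fun p => ∀ j < k, p.1 + j * p.2 ≤ x ∧
        (p.1 + j * p.2).Prime ∧ Ω (p.1 + j * p.2 + h) ≤ 2 ∧ x ≤ (p.1 + j * p.2) ^ 8) := by
  classical
  obtain ⟨η, hη, hev⟩ := FA.Chen.Summary.prime_shift_two_count hh hh0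
  set hs : Fin 2 → ℕ := fun i => if i = 0 then 0 else h with hhs
  have hinj : Injective hs := by
    intro a b
    fin_cases a <;> fin_cases b <;> simp [hhs, hh0.ne', hh0.ne]
  obtain ⟨c, hc, x₀, hmain⟩ := exists_progressions_rough hk hinj 8 (half_pos hη)
  have hlog : ∀ᶠ x : ℕ in atTop,
      (Real.sqrt x + 1) * Real.log x ^ 2 ≤ η / 2 * x := by
    have ht := ((isLittleO_log_rpow_atTop (show (0 : ℝ) < 1 / 8 by norm_num)).bound
      one_pos).natCast_atTop
    filter_upwards [ht, eventually_ge_atTop 2,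
      (tendsto_natCast_atTop_atTop (R := ℝ)).eventually
        (eventually_ge_atTop ((4 / η) ^ 4))] with x hx h2 hxη
    have hx2 : (1 : ℝ) ≤ x := by exact_mod_cast (show 1 ≤ x by omega)
    rw [Real.norm_of_nonneg (Real.log_nonneg hx2), Real.norm_of_nonneg (by positivity),
      one_mul] at hx
    set y := (x : ℝ) ^ (1 / 8 : ℝ) with hy
    have hy1 : 1 ≤ y := Real.one_le_rpow hx2 (by norm_num)
    have hy8 : y ^ 8 = x := by
      rw [hy, ← Real.rpow_natCast, ← Real.rpow_mul (by linarith)]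
      norm_num
    have hy4 : Real.sqrt x = y ^ 4 := by
      rw [← hy8, show y ^ 8 = (y ^ 4) ^ 2 by ring, Real.sqrt_sq (by positivity)]
    have h1 : (4 / η) ^ 4 ≤ (y ^ 2) ^ 4 := by rw [← pow_mul]; exact hxη.trans_eq hy8.symm
    have h2' : 4 / η ≤ y ^ 2 :=
      (pow_le_pow_iff_left₀ (by positivity) (by positivity) (by norm_num)).1 h1
    rw [div_le_iff₀ hη] at h2'
    calc (Real.sqrt x + 1) * Real.log x ^ 2 ≤ (2 * y ^ 4) * y ^ 2 := by
          rw [hy4]
          gcongr
          linarith [one_le_pow₀ (M₀ := ℝ) hy1 (n := 4)]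
      _ = 4 * (y ^ 6 / 2) := by ring
      _ ≤ y ^ 2 * η * (y ^ 6 / 2) := by gcongr
      _ = η / 2 * x := by rw [← hy8]; ring
  refine ⟨c, hc, ?_⟩
  filter_upwards [hev, hlog, eventually_ge_atTop (max x₀ 2)] with x hx hxl hx0
  set S := (Icc 1 x).filter fun p => p.Prime ∧ Ω (p + h) ≤ 2 ∧
    (∀ q ∈ (p + h).primeFactors, x ≤ q ^ 8) ∧ x ≤ p ^ 8 with hS
  have hx2 : 2 ≤ x := le_of_max_le_right hx0
  have hlx : 0 < Real.log x := Real.log_pos (by exact_mod_cast (show 1 < x by omega))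
  have hcard : η / 2 * x / Real.log x ^ 2 ≤ #S := by
    have h1 : ((Icc 1 x).filter fun p => p.Prime ∧ Ω (p + h) ≤ 2 ∧
        ∀ q ∈ (p + h).primeFactors, x ≤ q ^ 8) ⊆ S ∪ range (Nat.sqrt x + 1) := by
      intro p hp
      simp only [hS, mem_union, mem_filter, mem_range, mem_Icc] at hp ⊢
      by_cases hpx : x ≤ p ^ 8
      · exact Or.inl ⟨hp.1, hp.2.1, hp.2.2.1, hp.2.2.2, hpx⟩
      · refine Or.inr (Nat.lt_succ_iff.2 (Nat.le_sqrt'.2 ?_))
        exact (Nat.pow_le_pow_right hp.1.1 (by norm_num : 2 ≤ 8)).trans (by omega)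
    have h2 : η * x / Real.log x ^ 2 ≤ #S + ((Nat.sqrt x : ℕ) + 1) :=
      hx.trans (by exact_mod_cast (card_le_card h1).trans ((card_union_le _ _).trans
        (by rw [card_range])))
    have h3 : Real.sqrt x + 1 ≤ η / 2 * x / Real.log x ^ 2 := (le_div_iff₀ (by positivity)).2 hxl
    have h4 : η * x / Real.log x ^ 2 = η / 2 * x / Real.log x ^ 2 + η / 2 * x / Real.log x ^ 2 := by
      ring
    linarith [Real.nat_sqrt_le_real_sqrt (a := x)]
  have h0 := hmain x (le_of_max_le_left hx0) S (filter_subset _ _) (fun n hn i q hq hd => ?_) hcard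
  · rw [mul_comm k 2] at h0
    refine h0.trans (Nat.cast_le.2 (card_le_card fun p hp => ?_))
    simp only [progressionPairs, mem_filter] at hp ⊢
    refine ⟨hp.1, fun j hj => ?_⟩
    have h1 := hp.2 j hj
    simp only [hS, mem_filter, mem_Icc] at h1
    exact ⟨h1.1.2, h1.2.1, h1.2.2.1, h1.2.2.2.2⟩
  · simp only [hS, mem_filter] at hn
    fin_cases i
    · rw [(Nat.prime_dvd_prime_iff_eq hq hn.2.1).1 (by simpa [hhs] using hd)]
      exact hn.2.2.2.2
    · exact hn.2.2.2.1 q (Nat.mem_primeFactors.2 ⟨hq, by simpa [hhs] using hd, by omega⟩)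

/-- Arbitrarily large progressions of primes `p` with `p + h` a `P₂`. -/
theorem exists_almost_twin_progression {h : ℕ} (hh : Even h) (hh0 : 0 < h) (k m : ℕ) :
    ∃ a d : ℕ, m < a ∧ 0 < d ∧ ∀ j < k, (a + j * d).Prime ∧ Ω (a + j * d + h) ≤ 2 := by
  obtain ⟨c, hc, hev⟩ := exists_many_almost_twin hh hh0 (k := max k 2) (le_max_right _ _)
  obtain ⟨x, hx, hxm⟩ := (hev.and (eventually_ge_atTop ((m + 1) ^ 8 + 2))).exists
  have hpos : (0 : ℝ) < c * (x : ℝ) ^ 2 / Real.log x ^ (2 * max k 2) := by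
    have h2 : 0 < Real.log x := Real.log_pos (by exact_mod_cast (show 1 < x by omega))
    have h3 : (0 : ℝ) < x := by exact_mod_cast (show 0 < x by omega)
    positivity
  obtain ⟨p, hp⟩ := card_pos.1 (Nat.cast_pos.1 (hpos.trans_le hx))
  simp only [mem_filter, mem_product, mem_Icc] at hp
  refine ⟨p.1, p.2, ?_, hp.1.2.1, fun j hj => ?_⟩
  · have h1 := (hp.2 0 (by omega)).2.2.2
    simp only [zero_mul, add_zero] at h1
    by_contra hle
    have := Nat.pow_le_pow_left (show p.1 ≤ m by omega) 8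
    have := Nat.pow_lt_pow_left (show m < m + 1 by omega) (show 8 ≠ 0 by norm_num)
    omega
  · exact ⟨(hp.2 j (by omega)).2.1, (hp.2 j (by omega)).2.2.1⟩

end FA.GreenTao
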