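import Mathlib.Algebra.BigOperators.Expect
import Mathlib.Algebra.Order.BigOperators.Expect
import Mathlib.Data.Fintype.BigOperators
import Mathlib.Data.Fintype.Pi
import Mathlib.Logic.Equiv.Prod
import Mathlib.Analysis.Real.Sqrt
import Mathlib.Tactic.Linarith
import Mathlib.Tactic.Positivity

/-!
# Averages over finite product spaces

Functions not depending on a coordinate, averaging over one coordinate, and the Cauchy–Schwarz
inequality that doubles a coordinate.
-/

set_option autoImplicit false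

namespace FA.GreenTao

open Finset Function
open scoped BigOperators

variable {ι X : Type*} [DecidableEq ι]

/-- `F` does not depend on the coordinate `p`. -/
def IndepOf {M : Type*} (p : ι) (F : (ι → X) → M) : Prop := ∀ x a, F (update x p a) = F x

lemma IndepOf.congr {M : Type*} {p : ι} {F : (ι → X) → M} (h : IndepOf p F) {x y : ι → X}
    (hxy : ∀ i, i ≠ p → x i = y i) : F x = F y := by
  rw [← h x (y p)]
  congr 1
  funext i
  rcases eq_or_ne i p with rfl | hi
  · simp
  · simp [hi, hxy i hi]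

variable [Fintype ι] [Fintype X] [Nonempty X]

lemma expect_update (p : ι) (F : (ι → X) → ℝ) :
    𝔼 x, F x = 𝔼 x, 𝔼 a, F (update x p a) := by
  have h1 : 𝔼 x, F x = 𝔼 x : ι → X, 𝔼 _a : X, F x := by simp
  rw [h1, ← expect_product', ← expect_product']
  refine (Fintype.expect_equiv
    (Function.Involutive.toPerm (fun q : (ι → X) × X => (update q.1 p q.2, q.1 p)) ?_) _ _ ?_).symm
  · rintro ⟨x, a⟩
    simp
  · rintro ⟨x, a⟩
    simp [Function.Involutive.toPerm]

lemma abs_expect_le_of_update (p : ι) (F : (ι → X) → ℝ) {ε : ℝ}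
    (h : ∀ a, |𝔼 x, F (update x p a)| ≤ ε) : |𝔼 x, F x| ≤ ε := by
  rw [expect_update p, expect_comm]
  exact (abs_expect_le _ _).trans (expect_le univ_nonempty fun a _ => h a)

/-- Cauchy–Schwarz, doubling the coordinate `p` into the coordinate `q`. -/
lemma sq_expect_mul_le {p q : ι} (hpq : p ≠ q) {V W R : (ι → X) → ℝ} (hVp : IndepOf p V)
    (hWp : IndepOf p W) (hWq : IndepOf q W) (hRq : IndepOf q R) (hVW : ∀ x, |V x| ≤ W x) :
    (𝔼 x, V x * R x) ^ 2 ≤ (𝔼 x, W x) * 𝔼 x, W x * (R x * R (update x p (x q))) := by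
  have hW0 : ∀ x, 0 ≤ W x := fun x => (abs_nonneg _).trans (hVW x)
  set ψ : (ι → X) → ℝ := fun x => 𝔼 a, R (update x p a) with hψ
  have h1 : 𝔼 x, V x * R x = 𝔼 x, V x * ψ x := by
    rw [expect_update p]
    refine expect_congr rfl fun x _ => ?_
    simp only [hψ, hVp x, mul_expect]
  have h2 : |𝔼 x, V x * ψ x| ≤ 𝔼 x, W x * |ψ x| := by
    refine (abs_expect_le _ _).trans (expect_le_expect fun x _ => ?_)
    rw [abs_mul]
    exact mul_le_mul_of_nonneg_right (hVW x) (abs_nonneg _)
  have h3 : (𝔼 x, W x * |ψ x|) ^ 2 ≤ (𝔼 x, W x) * 𝔼 x, W x * ψ x ^ 2 := by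
    have h := expect_mul_sq_le_sq_mul_sq (univ : Finset (ι → X)) (fun x => Real.sqrt (W x))
      (fun x => Real.sqrt (W x) * |ψ x|)
    have e1 : ∀ x, Real.sqrt (W x) * (Real.sqrt (W x) * |ψ x|) = W x * |ψ x| := fun x => by
      rw [← mul_assoc, Real.mul_self_sqrt (hW0 x)]
    simp only [e1, mul_pow, Real.sq_sqrt (hW0 _), sq_abs] at h
    exact h
  have h4 : 𝔼 x, W x * ψ x ^ 2 = 𝔼 x, W x * (R x * R (update x p (x q))) := by
    conv_rhs => rw [expect_update q, expect_update p]
    refine expect_congr rfl fun x _ => ?_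
    rw [sq, hψ, expect_mul_expect, mul_expect]
    refine expect_congr rfl fun a _ => ?_
    rw [mul_expect]
    refine expect_congr rfl fun b _ => ?_
    have e : R (update (update (update x p a) q b) p b) = R (update x p b) := by
      rw [update_comm hpq.symm, update_idem, hRq]
    rw [hWq, hWp, hRq, update_self, e]
  calc (𝔼 x, V x * R x) ^ 2 ≤ (𝔼 x, W x * |ψ x|) ^ 2 := by
        rw [h1]
        exact sq_le_sq' (abs_le.1 h2).1 (abs_le.1 h2).2
    _ ≤ _ := h3
    _ = _ := by rw [h4]

end FA.GreenTao
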