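import Fermat.Agent.GreenTao.Average
import Mathlib.Algebra.Field.ZMod
import Mathlib.Algebra.Order.Ring.Pow
import Mathlib.Data.Int.GCD
import Mathlib.Data.Nat.GCD.BigOperators
import Mathlib.Logic.Equiv.Fin.Basic
import Mathlib.Tactic.FieldSimp
import Mathlib.Tactic.LinearCombination
import Mathlib.Tactic.Ring

/-!
# Divisibility of affine forms on boxes

The proportion of points of a box at which affine forms have prescribed prime divisors is the
product of the local densities up to (dimension) × (modulus) / (side). Two forms that are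
independent modulo `p` vanish together with density `p⁻²`.
-/

set_option autoImplicit false

namespace FA.GreenTao

open Finset Function
open scoped BigOperators

variable {ι J : Type*} [Fintype ι] [DecidableEq ι]

/-- The value of the `j`th affine form. -/
def affineForm (a : J → ι → ℤ) (c : J → ℤ) (j : J) (z : ι → ℤ) : ℤ := (∑ i, a j i * z i) + c j

/-- The integer point of a box point. -/
def boxPt {L : ℕ} (z : ι → Fin L) : ι → ℤ := fun i => ((z i : ℕ) : ℤ)

/-- The indicator that `p` divides all forms in `s`. -/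
noncomputable def hit (a : J → ι → ℤ) (c : J → ℤ) (p : ℕ) (s : Finset J) (z : ι → ℤ) : ℝ :=
  open scoped Classical in if ∀ j ∈ s, (p : ℤ) ∣ affineForm a c j z then 1 else 0

/-- The local density at `p`. -/
noncomputable def hitDensity (a : J → ι → ℤ) (c : J → ℤ) (p : ℕ) (s : Finset J) : ℝ :=
  𝔼 z : ι → Fin p, hit a c p s (boxPt z)

/-- `F` only depends on the point modulo `M`. -/
def IsPeriodic (M : ℕ) (F : (ι → ℤ) → ℝ) : Prop :=
  ∀ z z', (∀ i, (M : ℤ) ∣ z i - z' i) → F z = F z'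

omit [DecidableEq ι] in
lemma isPeriodic_hit (a : J → ι → ℤ) (c : J → ℤ) (p : ℕ) (s : Finset J) :
    IsPeriodic p (hit a c p s) := by
  intro z z' h
  have hj : ∀ j, (p : ℤ) ∣ affineForm a c j z ↔ (p : ℤ) ∣ affineForm a c j z' := fun j => by
    refine dvd_iff_dvd_of_dvd_sub ?_
    have : affineForm a c j z - affineForm a c j z' = ∑ i, a j i * (z i - z' i) := by
      simp only [affineForm, mul_sub, sum_sub_distrib]
      ring
    rw [this]
    exact dvd_sum fun i _ => (h i).mul_left _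
  simp only [hit, hj]

omit [Fintype ι] [DecidableEq ι] in
lemma IsPeriodic.mono {M M' : ℕ} {F : (ι → ℤ) → ℝ} (h : IsPeriodic M F) (hdvd : M ∣ M') :
    IsPeriodic M' F :=
  fun z z' hz => h z z' fun i => (Int.natCast_dvd_natCast.2 hdvd).trans (hz i)

omit [Fintype ι] [DecidableEq ι] in
lemma IsPeriodic.prod {M : ℕ} {κ : Type*} (S : Finset κ) {F : κ → (ι → ℤ) → ℝ}
    (h : ∀ k ∈ S, IsPeriodic M (F k)) : IsPeriodic M fun z => ∏ k ∈ S, F k z :=
  fun z z' hz => prod_congr rfl fun k hk => h k hk z z' hz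

lemma hit_mem_unit (a : J → ι → ℤ) (c : J → ℤ) (p : ℕ) (s : Finset J) (z : ι → ℤ) :
    0 ≤ hit a c p s z ∧ hit a c p s z ≤ 1 := by
  unfold hit
  split_ifs <;> norm_num

lemma expect_blocks (q M : ℕ) (F : (ι → ℤ) → ℝ) :
    𝔼 z : ι → Fin (q * M), F (boxPt z) =
      𝔼 u : ι → Fin q, 𝔼 r : ι → Fin M,
        F fun i => ((r i : ℕ) : ℤ) + (M : ℤ) * ((u i : ℕ) : ℤ) := by
  rw [← expect_product', univ_product_univ]
  refine (Fintype.expect_equiv ((Equiv.arrowProdEquivProdArrow ι (fun _ => Fin q)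
    (fun _ => Fin M)).symm.trans (Equiv.piCongrRight fun _ => finProdFinEquiv))
      _ _ fun x => ?_).symm
  refine congrArg F (funext fun i => ?_)
  simp [boxPt, finProdFinEquiv, Equiv.arrowProdEquivProdArrow]

lemma expect_periodic_blocks {q M : ℕ} [NeZero q] {F : (ι → ℤ) → ℝ} (h : IsPeriodic M F) :
    𝔼 z : ι → Fin (q * M), F (boxPt z) = 𝔼 r : ι → Fin M, F (boxPt r) := by
  rw [expect_blocks]
  have : ∀ u : ι → Fin q, (𝔼 r : ι → Fin M,
      F fun i => ((r i : ℕ) : ℤ) + (M : ℤ) * ((u i : ℕ) : ℤ)) = 𝔼 r : ι → Fin M, F (boxPt r) :=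
    fun u => expect_congr rfl fun r _ => h _ _ fun i => by simp [boxPt]
  simp only [this, Fintype.expect_const]

lemma expect_crt {p M : ℕ} [NeZero p] (hpM : Nat.Coprime p M) {F Q : (ι → ℤ) → ℝ}
    (hF : IsPeriodic p F) (hQ : IsPeriodic M Q) :
    𝔼 z : ι → Fin (p * M), F (boxPt z) * Q (boxPt z) =
      (𝔼 u : ι → Fin p, F (boxPt u)) * 𝔼 r : ι → Fin M, Q (boxPt r) := by
  rw [expect_blocks p M fun z => F z * Q z, expect_comm, mul_expect]
  refine expect_congr rfl fun r _ => ?_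
  rw [expect_mul]
  let φ : (ι → Fin p) → (ι → Fin p) := fun u i =>
    ⟨((r i : ℕ) + M * (u i : ℕ)) % p, Nat.mod_lt _ (NeZero.pos p)⟩
  have hφ : Bijective φ := by
    refine Finite.injective_iff_bijective.1 fun u u' h => funext fun i => ?_
    have h1 : ((r i : ℕ) + M * (u i : ℕ)) ≡ (r i : ℕ) + M * (u' i : ℕ) [MOD p] :=
      congrArg Fin.val (congrFun h i)
    exact Fin.ext (((Nat.ModEq.add_left_cancel' _ h1).cancel_left_of_coprime
      hpM).eq_of_lt_of_lt (u i).2 (u' i).2)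
  refine Fintype.expect_bijective φ hφ _ _ fun u => ?_
  have h1 : F (fun i => ((r i : ℕ) : ℤ) + (M : ℤ) * ((u i : ℕ) : ℤ)) = F (boxPt (φ u)) := by
    refine hF _ _ fun i => ?_
    simp only [boxPt, φ, Int.natCast_emod, Nat.cast_add, Nat.cast_mul]
    exact Int.dvd_self_sub_emod
  have h2 : Q (fun i => ((r i : ℕ) : ℤ) + (M : ℤ) * ((u i : ℕ) : ℤ)) = Q (boxPt r) :=
    hQ _ _ fun i => by simp [boxPt]
  rw [h1, h2]

lemma expect_prod_hit (a : J → ι → ℤ) (c : J → ℤ) (s : ℕ → Finset J) {S : Finset ℕ}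
    (hS : ∀ p ∈ S, p.Prime) :
    𝔼 z : ι → Fin (∏ p ∈ S, p), ∏ p ∈ S, hit a c p (s p) (boxPt z) =
      ∏ p ∈ S, hitDensity a c p (s p) := by
  induction S using Finset.induction with
  | empty => simp
  | @insert p S hp ih =>
    have hS' : ∀ q ∈ S, q.Prime := fun q hq => hS q (mem_insert_of_mem hq)
    have hprime := hS p (mem_insert_self _ _)
    have : NeZero p := ⟨hprime.ne_zero⟩
    have hcop : Nat.Coprime p (∏ q ∈ S, q) := Nat.Coprime.prod_right fun q hq =>
      (Nat.coprime_primes hprime (hS' q hq)).2 fun e => hp (e ▸ hq)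
    have hQ : IsPeriodic (∏ q ∈ S, q) fun z => ∏ q ∈ S, hit a c q (s q) z :=
      IsPeriodic.prod S fun q hq => (isPeriodic_hit a c q (s q)).mono (dvd_prod_of_mem _ hq)
    rw [prod_insert hp, prod_insert hp, hitDensity, ← ih hS',
      ← expect_crt hcop (isPeriodic_hit a c p (s p)) hQ]
    exact expect_congr rfl fun z _ => prod_insert hp

/-- Averages of periodic functions over boxes. -/
lemma abs_expect_box_sub_le {M L : ℕ} [NeZero M] [NeZero L] {F : (ι → ℤ) → ℝ}
    (hF : IsPeriodic M F) (h01 : ∀ z, 0 ≤ F z ∧ F z ≤ 1) :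
    |(𝔼 z : ι → Fin L, F (boxPt z)) - 𝔼 r : ι → Fin M, F (boxPt r)| ≤
      Fintype.card ι * M / L := by
  set ρ := 𝔼 r : ι → Fin M, F (boxPt r) with hρ
  have hρ01 : 0 ≤ ρ ∧ ρ ≤ 1 :=
    ⟨expect_nonneg fun r _ => (h01 _).1, expect_le univ_nonempty fun r _ => (h01 _).2⟩
  have hL : (0 : ℝ) < L := by exact_mod_cast NeZero.pos L
  rcases isEmpty_or_nonempty ι with hι | hι
  · have : ∀ z z' : ι → ℤ, z = z' := fun z z' => funext fun i => isEmptyElim i
    rw [hρ]
    simp [this _ (fun _ => 0)]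
  have hE : 0 ≤ 𝔼 z : ι → Fin L, F (boxPt z) ∧ 𝔼 z : ι → Fin L, F (boxPt z) ≤ 1 :=
    ⟨expect_nonneg fun z _ => (h01 _).1, expect_le univ_nonempty fun z _ => (h01 _).2⟩
  have ht : (1 : ℝ) ≤ Fintype.card ι := by exact_mod_cast Fintype.card_pos
  by_cases hq : L / M = 0
  · have hlt : (L : ℝ) ≤ M := by
      exact_mod_cast ((Nat.div_eq_zero_iff_lt (NeZero.pos M)).1 hq).le
    rw [abs_le]
    have h1 : 1 ≤ (Fintype.card ι : ℝ) * M / L := by
      rw [le_div_iff₀ hL]
      nlinarith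
    constructor <;> linarith [hE.1, hE.2, hρ01.1, hρ01.2]
  have : NeZero (L / M) := ⟨hq⟩
  set L' := L / M * M with hL'
  have hle : L' ≤ L := Nat.div_mul_le_self L M
  have hLM : (L : ℝ) - L' ≤ M := by
    have h1 : L' + L % M = L := by rw [hL', mul_comm]; exact Nat.div_add_mod L M
    have h2 : ((L % M : ℕ) : ℝ) ≤ M := by exact_mod_cast (Nat.mod_lt L (NeZero.pos M)).le
    have h3 : (L' : ℝ) + ((L % M : ℕ) : ℝ) = L := by exact_mod_cast h1
    linarith
  let emb : (ι → Fin L') ↪ (ι → Fin L) :=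
    ⟨fun z i => Fin.castLE hle (z i), fun z z' h => funext fun i =>
      Fin.castLE_injective hle (congrFun h i)⟩
  have hsum' : ∑ z : ι → Fin L', F (boxPt z) = (L' : ℝ) ^ Fintype.card ι * ρ := by
    rw [← Fintype.card_mul_expect, hρ, ← expect_periodic_blocks (q := L / M) hF, Fintype.card_fun,
      Fintype.card_fin, Nat.cast_pow]
  have hsplit : ∑ z : ι → Fin L, F (boxPt z) = (L' : ℝ) ^ Fintype.card ι * ρ +
      ∑ z ∈ (univ.map emb)ᶜ, F (boxPt z) := by
    rw [← hsum', ← sum_add_sum_compl (univ.map emb), sum_map]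
    rfl
  have hrest : ∑ z ∈ (univ.map emb)ᶜ, F (boxPt z) ≤
      (L : ℝ) ^ Fintype.card ι - (L' : ℝ) ^ Fintype.card ι := by
    refine (sum_le_card_nsmul _ _ 1 fun z _ => (h01 _).2).trans ?_
    rw [nsmul_one, card_compl, Nat.cast_sub (card_le_univ _), card_map]
    simp
  have hrest0 : 0 ≤ ∑ z ∈ (univ.map emb)ᶜ, F (boxPt z) := sum_nonneg fun z _ => (h01 _).1
  have hpow : (L : ℝ) ^ Fintype.card ι - (L' : ℝ) ^ Fintype.card ι ≤
      (L : ℝ) ^ Fintype.card ι * (Fintype.card ι * M / L) := by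
    have hb := one_add_mul_le_pow (a := (L' : ℝ) / L - 1)
      (by linarith [div_nonneg (Nat.cast_nonneg L') hL.le]) (Fintype.card ι)
    rw [add_sub_cancel, div_pow, le_div_iff₀ (by positivity)] at hb
    have h1 : (Fintype.card ι : ℝ) * (1 - L' / L) ≤ Fintype.card ι * M / L := by
      rw [mul_div_assoc, one_sub_div hL.ne']
      gcongr
    nlinarith [pow_pos hL (Fintype.card ι)]
  rw [Fintype.expect_eq_sum_div_card, hsplit, Fintype.card_fun, Fintype.card_fin, Nat.cast_pow]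
  have hpos : (0 : ℝ) < (L : ℝ) ^ Fintype.card ι := by positivity
  rw [div_sub' hpos.ne', abs_div, abs_of_pos hpos, div_le_iff₀ hpos, abs_le]
  have hdiff : 0 ≤ (L : ℝ) ^ Fintype.card ι - (L' : ℝ) ^ Fintype.card ι :=
    sub_nonneg.2 (by gcongr)
  constructor <;> nlinarith [hρ01.1, hρ01.2]

omit [DecidableEq ι] in
lemma hitDensity_empty (a : J → ι → ℤ) (c : J → ℤ) (p : ℕ) [NeZero p] [DecidableEq ι] :
    hitDensity a c p (∅ : Finset J) = 1 := by
  simp [hitDensity, hit]

lemma affineForm_update (a : J → ι → ℤ) (c : J → ℤ) (j : J) (z : ι → ℤ) (i : ι) (b : ℤ) :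
    affineForm a c j (update z i b) = affineForm a c j z + a j i * (b - z i) := by
  have h : ∀ l, a j l * update z i b l = a j l * z l + if l = i then a j i * (b - z i) else 0 := by
    intro l
    rcases eq_or_ne l i with rfl | hl
    · simp only [update_self, if_true]; ring
    · simp [hl]
  simp only [affineForm, h, sum_add_distrib, sum_ite_eq', mem_univ, if_true]
  ring

lemma boxPt_update {L : ℕ} (z : ι → Fin L) (i : ι) (b : Fin L) :
    boxPt (update z i b) = update (boxPt z) i ((b : ℕ) : ℤ) := by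
  funext l
  rcases eq_or_ne l i with rfl | hl
  · simp [boxPt]
  · simp [boxPt, hl]

lemma hitDensity_singleton (a : J → ι → ℤ) (c : J → ℤ) {p : ℕ} (hp : p.Prime) {j : J} {i₀ : ι}
    (h : ¬(p : ℤ) ∣ a j i₀) : hitDensity a c p {j} = (p : ℝ)⁻¹ := by
  classical
  have : Fact p.Prime := ⟨hp⟩
  rw [hitDensity, expect_update i₀]
  refine (expect_congr rfl fun z _ => ?_).trans (Fintype.expect_const _)
  set g : Fin p → ZMod p := fun b =>
    ((affineForm a c j (boxPt (update z i₀ b)) : ℤ) : ZMod p) with hg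
  have hgb : Bijective g := by
    refine (Fintype.bijective_iff_injective_and_card g).2 ⟨fun b b' e => ?_, by simp⟩
    simp only [hg, boxPt_update, affineForm_update, Int.cast_add, Int.cast_mul, Int.cast_sub,
      add_right_inj, mul_eq_mul_left_iff, sub_left_inj, Int.cast_natCast] at e
    rcases e with e | e
    · exact Fin.ext (((ZMod.natCast_eq_natCast_iff _ _ _).1 e).eq_of_lt_of_lt b.2 b'.2)
    · exact absurd ((ZMod.intCast_zmod_eq_zero_iff_dvd _ _).1 e) h
  rw [Fintype.expect_bijective g hgb _ (fun x => if x = 0 then 1 else 0) fun b => ?_]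
  · simp [Fintype.expect_eq_sum_div_card]
  · simp [hit, hg, ZMod.intCast_zmod_eq_zero_iff_dvd]

lemma hitDensity_pair (a : J → ι → ℤ) (c : J → ℤ) {p : ℕ} (hp : p.Prime) [DecidableEq J]
    {j j' : J} {i₁ i₂ : ι} (h : ¬(p : ℤ) ∣ a j i₁ * a j' i₂ - a j i₂ * a j' i₁) :
    hitDensity a c p {j, j'} = (p : ℝ)⁻¹ ^ 2 := by
  classical
  have : Fact p.Prime := ⟨hp⟩
  have hne : i₁ ≠ i₂ := by
    rintro rfl
    exact h ⟨0, by ring⟩
  have hdet : (a j i₁ : ZMod p) * a j' i₂ - a j i₂ * a j' i₁ ≠ 0 := fun e => h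
    ((ZMod.intCast_zmod_eq_zero_iff_dvd _ _).1 (by exact_mod_cast e))
  rw [hitDensity, expect_update i₁, expect_comm, expect_congr rfl fun b _ => expect_update i₂ _,
    expect_comm]
  refine (expect_congr rfl fun z _ => ?_).trans (Fintype.expect_const _)
  rw [← expect_product', univ_product_univ]
  set g : Fin p × Fin p → ZMod p × ZMod p := fun q =>
    (((affineForm a c j (boxPt (update (update z i₂ q.2) i₁ q.1)) : ℤ) : ZMod p),
      ((affineForm a c j' (boxPt (update (update z i₂ q.2) i₁ q.1)) : ℤ) : ZMod p)) with hg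
  have hgb : Bijective g := by
    refine (Fintype.bijective_iff_injective_and_card g).2 ⟨?_, by simp⟩
    rintro ⟨b, d⟩ ⟨b', d'⟩ e
    simp only [hg, boxPt_update, affineForm_update, update_of_ne hne, Prod.mk.injEq, Int.cast_add,
      Int.cast_mul, Int.cast_sub, Int.cast_natCast] at e
    obtain ⟨e1, e2⟩ := e
    have h1 : ((a j i₁ : ZMod p) * a j' i₂ - a j i₂ * a j' i₁) *
        (((b : ℕ) : ZMod p) - ((b' : ℕ) : ZMod p)) = 0 := by
      linear_combination (a j' i₂ : ZMod p) * e1 - (a j i₂ : ZMod p) * e2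
    have h2 : ((a j i₁ : ZMod p) * a j' i₂ - a j i₂ * a j' i₁) *
        (((d : ℕ) : ZMod p) - ((d' : ℕ) : ZMod p)) = 0 := by
      linear_combination (a j i₁ : ZMod p) * e2 - (a j' i₁ : ZMod p) * e1
    rw [mul_eq_zero, or_iff_right hdet, sub_eq_zero, ZMod.natCast_eq_natCast_iff] at h1 h2
    exact Prod.ext (Fin.ext (h1.eq_of_lt_of_lt b.2 b'.2)) (Fin.ext (h2.eq_of_lt_of_lt d.2 d'.2))
  rw [Fintype.expect_bijective g hgb _ (fun x => if x = 0 then 1 else 0) fun q => ?_]
  · simp [Fintype.expect_eq_sum_div_card, sq]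
  · simp [hit, hg, ZMod.intCast_zmod_eq_zero_iff_dvd, Prod.ext_iff]

/-- The local densities are close to independent ones. -/
lemma abs_hitDensity_sub_le (a : J → ι → ℤ) (c : J → ℤ) {p : ℕ} (hp : p.Prime)
    (hsingle : ∀ j, ∃ i, ¬(p : ℤ) ∣ a j i)
    (hpair : ∀ j j', j ≠ j' → (∃ i i', ¬(p : ℤ) ∣ a j i * a j' i' - a j i' * a j' i) ∨
      (a j = a j' ∧ ¬(p : ℤ) ∣ c j - c j'))
    (s : Finset J) : |hitDensity a c p s - (p : ℝ)⁻¹ ^ #s| ≤ 1 / (p : ℝ) ^ 2 := by
  classical
  have : NeZero p := ⟨hp.ne_zero⟩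
  rcases Nat.lt_trichotomy #s 1 with hs | hs | hs
  · rw [card_eq_zero.1 (by omega : #s = 0)]
    simp [hitDensity_empty]
  · obtain ⟨j, rfl⟩ := card_eq_one.1 hs
    obtain ⟨i, hi⟩ := hsingle j
    simp [hitDensity_singleton a c hp hi]
  obtain ⟨j, hj, j', hj', hne⟩ := one_lt_card.1 hs
  have h1 : hitDensity a c p s ≤ (p : ℝ)⁻¹ ^ 2 := by
    rcases hpair j j' hne with ⟨i, i', hii⟩ | ⟨hjj, hcc⟩
    · rw [← hitDensity_pair a c hp hii]
      refine expect_le_expect fun z _ => ?_
      unfold hit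
      split_ifs with h h' <;> try norm_num
      exact h' fun l hl => h l (by
        simp only [mem_insert, mem_singleton] at hl
        rcases hl with rfl | rfl <;> assumption)
    · refine (expect_le univ_nonempty fun z _ => ?_).trans (by positivity : (0 : ℝ) ≤ _)
      unfold hit
      split_ifs with h
      · refine absurd ?_ hcc
        have := Int.dvd_sub (h j hj) (h j' hj')
        simpa [affineForm, hjj] using this
      · rfl
  have h0 : 0 ≤ hitDensity a c p s := expect_nonneg fun z _ => (hit_mem_unit a c p s _).1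
  have h2 : (p : ℝ)⁻¹ ^ #s ≤ (p : ℝ)⁻¹ ^ 2 :=
    pow_le_pow_of_le_one (by positivity) (inv_le_one_of_one_le₀ (by exact_mod_cast hp.one_le)) hs
  have h3 : (0 : ℝ) ≤ (p : ℝ)⁻¹ ^ #s := by positivity
  rw [one_div, ← inv_pow, abs_le]
  constructor <;> linarith

end FA.GreenTao
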