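import Fermat.Agent.GreenTao.Pintz

/-!
# Consecutive primes in admissible tuples

Maynard's theorem for admissible tuples with the primes consecutive, and its corollaries: the
differences that occur infinitely often between consecutive primes have bounded gaps (Pintz),
consecutive primes in one class (Shiu), monotone runs of gaps (Erdős and Turán; Banks, Freiberg
and Turnage-Butterbaugh).
-/

set_option autoImplicit false

noncomputable section

namespace FA.GreenTao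

open Finset Function FA.BoundedGaps
open scoped Nat

theorem exists_admissible_infinite (m : ℕ) : ∃ K : ℕ, ∀ h : Fin K → ℕ, Injective h →
    Admissible h → {n : ℕ | m < #(univ.filter fun i => (n + h i).Prime) ∧
      ∀ t ≤ univ.sup h, (n + t).Prime → ∃ i, h i = t}.Infinite := by
  classical
  obtain ⟨K, hmain⟩ := exists_admissible_progressions m
  refine ⟨K, fun h hinj hadm => ?_⟩
  obtain ⟨A, hAh, hA, hp⟩ := hmain h hinj hadm 1 0 one_pos (fun i => Nat.coprime_one_right _)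
    (univ.sup h) (fun i => le_sup (mem_univ i))
  refine Set.infinite_of_forall_exists_gt fun N => ?_
  obtain ⟨u, d, hu, -, hj⟩ := hp 1 N
  obtain ⟨-, hiff⟩ := hj 0 one_pos
  simp only [zero_mul, add_zero] at hiff
  refine ⟨u, ⟨hA.trans_le ?_, fun t ht htp => ?_⟩, hu⟩
  · refine (card_le_card (t := (univ.filter fun i => (u + h i).Prime).image h) fun t ht => ?_).trans
      card_image_le
    obtain ⟨i, -, rfl⟩ := mem_image.1 (hAh ht)
    exact mem_image_of_mem h (mem_filter.2 ⟨mem_univ i, (hiff _ (le_sup (mem_univ i))).2 ht⟩)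
  · obtain ⟨i, -, hi⟩ := mem_image.1 (hAh ((hiff t ht).1 htp))
    exact ⟨i, hi⟩

theorem exists_nth_pattern {m : ℕ} {e : Fin (m + 1) → ℕ} {q a : ℕ}
    (hp : ∀ l N : ℕ, ∃ u d : ℕ, N < u ∧ 0 < d ∧ ∀ j < l, u + j * d ≡ a [MOD q] ∧
      ∃ r, ∀ i : Fin (m + 1), Nat.nth Nat.Prime (r + i) = u + j * d + e i) (R : ℕ) :
    ∃ r u : ℕ, R < r ∧ u ≡ a [MOD q] ∧
      ∀ i : Fin (m + 1), Nat.nth Nat.Prime (r + i) = u + e i := by
  obtain ⟨u, d, hu, -, hj⟩ := hp 1 (Nat.nth Nat.Prime R)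
  obtain ⟨ha, r, hr⟩ := hj 0 one_pos
  simp only [zero_mul, add_zero] at ha hr
  refine ⟨r, u, ?_, ha, hr⟩
  have h0 := hr 0
  rw [Fin.val_zero, add_zero] at h0
  refine (Nat.nth_lt_nth Nat.infinite_setOfPred_prime).1 ?_
  show Nat.nth Nat.Prime R < Nat.nth Nat.Prime r
  omega

/-- **Pintz: the differences infinitely often between consecutive primes have bounded gaps.** -/
theorem exists_syndetic_gaps : ∃ C : ℕ, ∀ x : ℕ, ∃ d, x ≤ d ∧ d ≤ x + C ∧
    {r : ℕ | Nat.nth Nat.Prime (r + 1) = Nat.nth Nat.Prime r + d}.Infinite := by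
  obtain ⟨K, hmain⟩ := exists_consecutive_pattern 1
  by_contra hcon
  push Not at hcon
  choose x hx using hcon
  obtain ⟨Q, hQ⟩ : ∃ Q, Q = K ! := ⟨_, rfl⟩
  have hQ0 : 0 < Q := hQ ▸ Nat.factorial_pos K
  obtain ⟨g, hg⟩ : ∃ g : ℕ → ℕ,
      g = fun n => Nat.rec 0 (fun _ y => Q * ((x (y + Q) + y) / Q + 1)) n := ⟨_, rfl⟩
  have hstep : ∀ n, g (n + 1) = Q * ((x (g n + Q) + g n) / Q + 1) := fun n => by rw [hg]
  have hdvd : ∀ n, Q ∣ g n := fun n => by
    cases n with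
    | zero => simp [hg]
    | succ n => exact hstep n ▸ dvd_mul_right _ _
  have hbd : ∀ n, x (g n + Q) + g n < g (n + 1) ∧ g (n + 1) ≤ x (g n + Q) + g n + Q := fun n => by
    have h1 := Nat.div_add_mod (x (g n + Q) + g n) Q
    have h2 := Nat.mod_lt (x (g n + Q) + g n) hQ0
    rw [hstep, mul_add, mul_one]
    omega
  have hmono : StrictMono g := strictMono_nat_of_lt_succ fun n => by
    have := (hbd n).1
    omega
  obtain ⟨e, he, hmem, hp⟩ := hmain (fun i : Fin K => g i)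
    (hmono.injective.comp Fin.val_injective) (admissible_of_factorial_dvd fun i => hQ ▸ hdvd i)
    1 0 one_pos (fun i => Nat.coprime_one_right _)
  obtain ⟨i, hi⟩ := hmem 0
  obtain ⟨j, hj⟩ := hmem 1
  have he01 : g i < g j := by
    rw [hi, hj]
    exact he (show (0 : Fin 2) < 1 by decide)
  have hij : (i : ℕ) < j := hmono.lt_iff_lt.1 he01
  obtain ⟨n, hn⟩ : ∃ n, (j : ℕ) = n + 1 := ⟨(j : ℕ) - 1, by omega⟩
  have h1 : g i ≤ g n := hmono.monotone (by omega)
  obtain ⟨h2, h3⟩ := hbd n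
  rw [hn] at hj
  refine (Set.infinite_of_forall_exists_gt fun R => ?_)
    (hx (g n + Q) (e 1 - e 0) (by omega) (by omega))
  obtain ⟨r, u, hR, -, hr⟩ := exists_nth_pattern hp R
  have r0 := hr 0
  have r1 := hr 1
  rw [Fin.val_zero, add_zero] at r0
  rw [Fin.val_one] at r1
  exact ⟨r, by rw [Set.mem_ofPred_eq, r0, r1]; omega, hR⟩

/-- **Shiu's theorem.** -/
theorem exists_consecutive_mod {q a : ℕ} (hq : 0 < q) (ha : a.Coprime q) (m : ℕ) :
    {r : ℕ | ∀ i ≤ m, Nat.nth Nat.Prime (r + i) ≡ a [MOD q]}.Infinite := by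
  obtain ⟨K, hmain⟩ := exists_consecutive_pattern m
  obtain ⟨e, -, hmem, hp⟩ := hmain (fun i : Fin K => K ! * (q * i))
    (fun i j h => Fin.ext (Nat.eq_of_mul_eq_mul_left hq
      (Nat.eq_of_mul_eq_mul_left (Nat.factorial_pos K) h)))
    (admissible_of_factorial_dvd fun i => dvd_mul_right _ _) q a hq
    (fun i => by
      rw [← mul_assoc, mul_comm (K !), mul_assoc, Nat.coprime_add_mul_left_left]
      exact ha)
  refine Set.infinite_of_forall_exists_gt fun R => ?_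
  obtain ⟨r, u, hR, hu, hr⟩ := exists_nth_pattern hp R
  refine ⟨r, fun i hi => ?_, hR⟩
  obtain ⟨w, hw⟩ := hmem ⟨i, Nat.lt_succ_of_le hi⟩
  rw [show r + i = r + ((⟨i, Nat.lt_succ_of_le hi⟩ : Fin (m + 1)) : ℕ) from rfl, hr, ← hw]
  have h0 : K ! * (q * (w : ℕ)) ≡ 0 [MOD q] :=
    Nat.modEq_zero_iff_dvd.2 (dvd_mul_of_dvd_right (dvd_mul_right q _) _)
  simpa using hu.add h0

/-- Runs of gaps compared by a relation that the tuple forces. -/
theorem exists_gap_runs (rel : ℕ → ℕ → Prop) (m : ℕ)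
    (H : ∀ K : ℕ, ∃ h : Fin K → ℕ, Injective h ∧ (∀ i, K ! ∣ h i) ∧
      ∀ u v w, h u < h v → h v < h w → rel (h v - h u) (h w - h v)) :
    {r : ℕ | ∀ i < m, rel (Nat.nth Nat.Prime (r + i + 1) - Nat.nth Nat.Prime (r + i))
      (Nat.nth Nat.Prime (r + i + 2) - Nat.nth Nat.Prime (r + i + 1))}.Infinite := by
  obtain ⟨K, hmain⟩ := exists_consecutive_pattern (m + 1)
  obtain ⟨h, hinj, hdvd, hrel⟩ := H K
  obtain ⟨e, he, hmem, hp⟩ := hmain h hinj (admissible_of_factorial_dvd hdvd) 1 0 one_pos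
    (fun i => Nat.coprime_one_right _)
  refine Set.infinite_of_forall_exists_gt fun R => ?_
  obtain ⟨r, u, hR, -, hr⟩ := exists_nth_pattern hp R
  refine ⟨r, fun i hi => ?_, hR⟩
  obtain ⟨x, hx⟩ := hmem ⟨i, by omega⟩
  obtain ⟨y, hy⟩ := hmem ⟨i + 1, by omega⟩
  obtain ⟨z, hz⟩ := hmem ⟨i + 2, by omega⟩
  have r0 : Nat.nth Nat.Prime (r + i) = u + h x := hx ▸ hr ⟨i, by omega⟩
  have r1 : Nat.nth Nat.Prime (r + i + 1) = u + h y := hy ▸ hr ⟨i + 1, by omega⟩
  have r2 : Nat.nth Nat.Prime (r + i + 2) = u + h z := hz ▸ hr ⟨i + 2, by omega⟩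
  have hxy : h x < h y := by rw [hx, hy]; exact he (Fin.mk_lt_mk.2 (by omega))
  have hyz : h y < h z := by rw [hy, hz]; exact he (Fin.mk_lt_mk.2 (by omega))
  have := hrel x y z hxy hyz
  rwa [r0, r1, r2, Nat.add_sub_add_left, Nat.add_sub_add_left]

/-- **Arbitrarily long increasing runs of prime gaps.** -/
theorem exists_increasing_gaps (m : ℕ) : {r : ℕ | ∀ i < m,
    Nat.nth Nat.Prime (r + i + 1) - Nat.nth Nat.Prime (r + i) <
      Nat.nth Nat.Prime (r + i + 2) - Nat.nth Nat.Prime (r + i + 1)}.Infinite := by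
  refine exists_gap_runs (· < ·) m fun K => ?_
  have hK := Nat.factorial_pos K
  refine ⟨fun i => K ! * 2 ^ (i : ℕ), fun i j h => Fin.ext (Nat.pow_right_injective le_rfl
    (Nat.eq_of_mul_eq_mul_left hK h)), fun i => dvd_mul_right _ _, fun u v w h1 h2 => ?_⟩
  have h3 : (v : ℕ) < w :=
    (Nat.pow_lt_pow_iff_right (by norm_num)).1 (Nat.lt_of_mul_lt_mul_left h2)
  have h4 : K ! * (2 * 2 ^ (v : ℕ)) ≤ K ! * 2 ^ (w : ℕ) := Nat.mul_le_mul_left _ (by
    rw [← pow_succ']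
    exact Nat.pow_le_pow_right two_pos h3)
  have h5 : 0 < K ! * 2 ^ (u : ℕ) := Nat.mul_pos hK (by positivity)
  rw [mul_left_comm] at h4
  dsimp only at h1 h2 ⊢
  omega

/-- **Arbitrarily long decreasing runs of prime gaps.** -/
theorem exists_decreasing_gaps (m : ℕ) : {r : ℕ | ∀ i < m,
    Nat.nth Nat.Prime (r + i + 2) - Nat.nth Nat.Prime (r + i + 1) <
      Nat.nth Nat.Prime (r + i + 1) - Nat.nth Nat.Prime (r + i)}.Infinite := by
  refine exists_gap_runs (fun x y => y < x) m fun K => ?_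
  have hK := Nat.factorial_pos K
  have hle : ∀ i : ℕ, K ! * 2 ^ (K - i) ≤ K ! * 2 ^ K := fun i =>
    Nat.mul_le_mul_left _ (Nat.pow_le_pow_right two_pos (Nat.sub_le _ _))
  refine ⟨fun i => K ! * 2 ^ K - K ! * 2 ^ (K - (i : ℕ)), fun i j h => Fin.ext ?_,
    fun i => Nat.dvd_sub (dvd_mul_right _ _) (dvd_mul_right _ _), fun u v w h1 h2 => ?_⟩
  · have h1 := hle i
    have h2 := hle j
    have h3 : K ! * 2 ^ (K - (i : ℕ)) = K ! * 2 ^ (K - (j : ℕ)) := by
      dsimp only at h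
      omega
    have h4 := Nat.pow_right_injective (le_refl 2) (Nat.eq_of_mul_eq_mul_left hK h3)
    have := i.2
    have := j.2
    omega
  dsimp only at h1 h2 ⊢
  have l1 := hle u
  have l2 := hle v
  have l3 := hle w
  have h3 : K - (v : ℕ) < K - (u : ℕ) := (Nat.pow_lt_pow_iff_right (by norm_num : 1 < 2)).1
    (Nat.lt_of_mul_lt_mul_left (show K ! * 2 ^ (K - (v : ℕ)) < K ! * 2 ^ (K - (u : ℕ)) by omega))
  have h4 : K ! * (2 * 2 ^ (K - (v : ℕ))) ≤ K ! * 2 ^ (K - (u : ℕ)) := Nat.mul_le_mul_left _ (by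
    rw [← pow_succ']
    exact Nat.pow_le_pow_right two_pos h3)
  have h5 : 0 < K ! * 2 ^ (K - (w : ℕ)) := Nat.mul_pos hK (by positivity)
  rw [mul_left_comm] at h4
  omega

end FA.GreenTao
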