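import Fermat.Agent.GreenTao.Forms
import Mathlib.Tactic.FieldSimp

/-!
# The relative counting lemma

If `0 ≤ g j ≤ ν j`, `0 ≤ h j ≤ 1`, each pair `g j`, `h j` is close in the cut norm and `ν`
satisfies the linear forms condition, then `∏ j, g j` and `∏ j, h j` have nearly the same
average. The proof is an induction on the set of indices with a nontrivial majorant.
-/

set_option autoImplicit false

namespace FA.GreenTao

open Finset Function
open scoped BigOperators

variable {k : ℕ} {X : Type*} [Fintype X] [Nonempty X]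

/-- Closeness in the cut norm at the index `j`. -/
def CutClose (ε : ℝ) (j : Fin k) (g h : (Fin k → X) → ℝ) : Prop :=
  ∀ u : Fin k → (Fin k → X) → ℝ, (∀ i, i ≠ j → ∀ x, 0 ≤ u i x ∧ u i x ≤ 1) →
    (∀ i, i ≠ j → IndepOf i (u i)) → (∀ i, i ≠ j → IndepOf j (u i)) →
    |𝔼 x, (g x - h x) * ∏ i ∈ univ.erase j, u i x| ≤ ε

omit [Fintype X] [Nonempty X] in
lemma indepOf_update_comp {M : Type*} {i j : Fin k} (hij : i ≠ j) {F : (Fin k → X) → M}
    (hF : IndepOf i F) (a : X) : IndepOf i fun x => F (update x j a) := fun x b => by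
  exact (congrArg F (update_comm hij b a x)).trans (hF _ b)

lemma CutClose.apply {ε : ℝ} {j : Fin k} {g h : (Fin k → X) → ℝ} (hc : CutClose ε j g h)
    (hg : IndepOf j g) (hh : IndepOf j h) {F : Fin k → (Fin k → X) → ℝ}
    (hF : ∀ i, i ≠ j → ∀ x, 0 ≤ F i x ∧ F i x ≤ 1) (hFi : ∀ i, i ≠ j → IndepOf i (F i)) :
    |𝔼 x, (g x - h x) * ∏ i ∈ univ.erase j, F i x| ≤ ε := by
  refine abs_expect_le_of_update j _ fun a => ?_
  have := hc (fun i x => F i (update x j a)) (fun i hi x => hF i hi _)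
    (fun i hi => indepOf_update_comp hi (hFi i hi) a) (fun i _ x b => by simp only [update_idem])
  simpa only [hg _ a, hh _ a] using this

lemma CutClose.mono {ε ε' : ℝ} {j : Fin k} {g h : (Fin k → X) → ℝ} (hc : CutClose ε j g h)
    (hle : ε ≤ ε') : CutClose ε' j g h :=
  fun u h1 h2 h3 => (hc u h1 h2 h3).trans hle

lemma LinearFormsCond.mono {η η' : ℝ} {ν : Fin k → (Fin k → X) → ℝ}
    (h : LinearFormsCond η ν) (hle : η ≤ η') : LinearFormsCond η' ν :=
  fun e => (h e).trans hle

lemma LinearFormsCond.update_one {η : ℝ} {ν : Fin k → (Fin k → X) → ℝ}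
    (h : LinearFormsCond η ν) (j₀ : Fin k) :
    LinearFormsCond η (update ν j₀ fun _ => 1) := fun e => by
  refine le_of_eq_of_le (congrArg (fun t => |t - 1|) ?_) (h (update e j₀ fun _ => false))
  refine expect_congr rfl fun x _ => prod_congr rfl fun j _ => prod_congr rfl fun ω _ => ?_
  rcases eq_or_ne j j₀ with rfl | hj
  · simp
  · simp [update_of_ne hj]

/-- The average over a coordinate of the product of the other factors. -/
noncomputable def marg (j₀ : Fin k) (F : Fin k → (Fin k → X) → ℝ) (x : Fin k → X) : ℝ :=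
  𝔼 a, ∏ i ∈ univ.erase j₀, F i (update x j₀ a)

omit [Nonempty X] in
lemma indepOf_marg (j₀ : Fin k) (F : Fin k → (Fin k → X) → ℝ) : IndepOf j₀ (marg j₀ F) :=
  fun x a => by simp only [marg, update_idem]

omit [Nonempty X] in
lemma marg_nonneg {j₀ : Fin k} {F : Fin k → (Fin k → X) → ℝ} (hF : ∀ i x, 0 ≤ F i x)
    (x : Fin k → X) : 0 ≤ marg j₀ F x :=
  expect_nonneg fun a _ => prod_nonneg fun i _ => hF i _

omit [Nonempty X] in
lemma marg_mono {j₀ : Fin k} {F G : Fin k → (Fin k → X) → ℝ} (hF : ∀ i x, 0 ≤ F i x)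
    (h : ∀ i x, F i x ≤ G i x) (x : Fin k → X) : marg j₀ F x ≤ marg j₀ G x :=
  expect_le_expect fun a _ => prod_le_prod (fun i _ => hF i _) fun i _ => h i _

lemma expect_mul_marg {j₀ : Fin k} {A : (Fin k → X) → ℝ} (hA : IndepOf j₀ A)
    (F : Fin k → (Fin k → X) → ℝ) :
    𝔼 x, A x * marg j₀ F x = 𝔼 x, A x * ∏ i ∈ univ.erase j₀, F i x := by
  rw [expect_update j₀ fun x => A x * ∏ i ∈ univ.erase j₀, F i x]
  simp only [marg, mul_expect, hA _ _]

lemma expect_prod_eq (j₀ : Fin k) {F : Fin k → (Fin k → X) → ℝ} (hF : IndepOf j₀ (F j₀)) :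
    𝔼 x, ∏ i, F i x = 𝔼 x, F j₀ x * marg j₀ F x := by
  rw [expect_mul_marg hF]
  exact expect_congr rfl fun x _ => (mul_prod_erase univ (fun i => F i x) (mem_univ j₀)).symm

lemma expect_pt (ω : Fin k → Bool) (F : (Fin k → X) → ℝ) :
    𝔼 z : Fin k × Bool → X, F (pt z ω) = 𝔼 y, F y := by
  let e : (Fin k × Bool → X) ≃ (Fin k → X) × (Fin k → X) :=
    { toFun := fun z => (pt z ω, pt z fun i => !ω i)
      invFun := fun q p => if p.2 = ω p.1 then q.1 p.1 else q.2 p.1
      left_inv := fun z => funext fun p => by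
        obtain ⟨i, b⟩ := p
        cases b <;> cases h : ω i <;> simp [pt, h]
      right_inv := fun q => by
        refine Prod.ext (funext fun i => ?_) (funext fun i => ?_) <;> simp [pt] }
  rw [Fintype.expect_equiv e (fun z => F (pt z ω)) (fun q => F q.1) fun _ => rfl,
    ← univ_product_univ, expect_product]
  simp

lemma pt_update₂_false (z : Fin k × Bool → X) (j₀ : Fin k) (a b : X) :
    pt (update (update z (j₀, false) a) (j₀, true) b) (fun _ => false) =
      update (pt z fun _ => false) j₀ a := by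
  funext l
  rcases eq_or_ne l j₀ with rfl | hl
  · simp [pt]
  · simp [pt, hl]

lemma pt_update₂_true (z : Fin k × Bool → X) (j₀ : Fin k) (a b : X) :
    pt (update (update z (j₀, false) a) (j₀, true) b) (update (fun _ => false) j₀ true) =
      update (pt z fun _ => false) j₀ b := by
  funext l
  rcases eq_or_ne l j₀ with rfl | hl
  · simp [pt]
  · simp [pt, hl]

lemma expect_double (j₀ : Fin k) {A : (Fin k → X) → ℝ} (hA : IndepOf j₀ A)
    (F G : (Fin k → X) → ℝ) :
    𝔼 x, A x * (𝔼 a, F (update x j₀ a)) * (𝔼 b, G (update x j₀ b)) =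
      𝔼 z : Fin k × Bool → X, A (pt z fun _ => false) * F (pt z fun _ => false) *
        G (pt z (update (fun _ => false) j₀ true)) := by
  rw [expect_update (j₀, true) fun z : Fin k × Bool → X => A (pt z fun _ => false) *
      F (pt z fun _ => false) * G (pt z (update (fun _ => false) j₀ true)),
    expect_update (j₀, false) fun z : Fin k × Bool → X => 𝔼 b, A (pt (update z (j₀, true) b)
      fun _ => false) * F (pt (update z (j₀, true) b) fun _ => false) *
        G (pt (update z (j₀, true) b) (update (fun _ => false) j₀ true))]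
  simp only [pt_update₂_false, pt_update₂_true, hA _ _]
  rw [← expect_pt (fun _ : Fin k => false)
    fun x => A x * (𝔼 a, F (update x j₀ a)) * (𝔼 b, G (update x j₀ b))]
  refine expect_congr rfl fun z _ => ?_
  rw [mul_expect, expect_comm]
  refine expect_congr rfl fun a _ => ?_
  rw [mul_expect, expect_mul]

lemma choices_empty : choices (∅ : Finset (Fin k)) = {fun _ => false} := by
  ext ω
  simp [mem_choices, funext_iff]

lemma prod_choices_singleton {M : Type*} [CommMonoid M] (j₀ : Fin k)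
    (f : (Fin k → Bool) → M) :
    ∏ ω ∈ choices ({j₀} : Finset (Fin k)), f ω =
      f (fun _ => false) * f (update (fun _ => false) j₀ true) := by
  rw [← insert_empty, prod_choices_insert (notMem_empty _), choices_empty, prod_singleton,
    prod_singleton]

lemma csAvg_empty {ν : Fin k → (Fin k → X) → ℝ} {j₀ : Fin k} (hν : IndepOf j₀ (ν j₀))
    (fl : Fin k → Bool → Bool) (p : Fin k → Bool → (Fin k → X) → ℝ) :
    csAvg ν fl p j₀ ∅ = 𝔼 x, (ν j₀ x - 1) * marg j₀ (fun i => p i false) x *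
      marg j₀ (fun i => p i true) x := by
  simp only [marg]
  rw [expect_double j₀ (fun x a => by simp only [hν x a])
    (fun x => ∏ i ∈ univ.erase j₀, p i false x)
    fun x => ∏ i ∈ univ.erase j₀, p i true x]
  refine expect_congr rfl fun z _ => ?_
  rw [choices_empty, prod_singleton, prod_empty, mul_one, sdiff_empty, insert_empty]
  simp only [prod_choices_singleton, prod_mul_distrib, update_self]
  ring

lemma abs_expect_le_sqrt (f : (Fin k → X) → ℝ) :
    𝔼 x, |f x| ≤ Real.sqrt (𝔼 x, f x ^ 2) := by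
  refine Real.le_sqrt_of_sq_le ?_
  have := expect_mul_sq_le_sq_mul_sq (univ : Finset (Fin k → X)) (fun x => |f x|) fun _ => 1
  simpa using this

lemma sq_expect_weight_le {V W : (Fin k → X) → ℝ} (hVW : ∀ x, |V x| ≤ W x)
    (d : (Fin k → X) → ℝ) :
    (𝔼 x, V x * d x) ^ 2 ≤ (𝔼 x, W x) * 𝔼 x, W x * d x ^ 2 := by
  have hW : ∀ x, 0 ≤ W x := fun x => (abs_nonneg _).trans (hVW x)
  have h2 : |𝔼 x, V x * d x| ≤ 𝔼 x, W x * |d x| :=
    (abs_expect_le _ _).trans (expect_le_expect fun x _ => by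
      rw [abs_mul]
      exact mul_le_mul_of_nonneg_right (hVW x) (abs_nonneg _))
  have h := expect_mul_sq_le_sq_mul_sq (univ : Finset (Fin k → X)) (fun x => Real.sqrt (W x))
    (fun x => Real.sqrt (W x) * |d x|)
  have e1 : ∀ x, Real.sqrt (W x) * (Real.sqrt (W x) * |d x|) = W x * |d x| := fun x => by
    rw [← mul_assoc, Real.mul_self_sqrt (hW x)]
  simp only [e1, mul_pow, Real.sq_sqrt (hW _), sq_abs] at h
  exact (sq_le_sq' (abs_le.1 h2).1 (abs_le.1 h2).2).trans h

/-- The telescoping bound, when every majorant is one. -/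
lemma abs_prod_sub_le_of_dense {ε : ℝ} {g h : Fin k → (Fin k → X) → ℝ}
    (hg : ∀ j x, 0 ≤ g j x ∧ g j x ≤ 1) (hh : ∀ j x, 0 ≤ h j x ∧ h j x ≤ 1)
    (hgi : ∀ j, IndepOf j (g j)) (hhi : ∀ j, IndepOf j (h j))
    (hc : ∀ j, CutClose ε j (g j) (h j)) :
    |(𝔼 x, ∏ j, g j x) - 𝔼 x, ∏ j, h j x| ≤ k * ε := by
  suffices key : ∀ T : Finset (Fin k),
      |(𝔼 x, ∏ j, if j ∈ T then g j x else h j x) - 𝔼 x, ∏ j, h j x| ≤ #T * ε by
    simpa using key univ
  intro T
  induction T using Finset.induction with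
  | empty => simp
  | @insert a T ha ih =>
    have hmain : (𝔼 x, ∏ j, if j ∈ insert a T then g j x else h j x) -
        (𝔼 x, ∏ j, if j ∈ T then g j x else h j x) =
        𝔼 x, (g a x - h a x) * ∏ j ∈ univ.erase a, if j ∈ T then g j x else h j x := by
      rw [← expect_sub_distrib]
      refine expect_congr rfl fun x _ => ?_
      rw [← mul_prod_erase univ _ (mem_univ a), ← mul_prod_erase univ _ (mem_univ a), sub_mul]
      simp only [mem_insert_self, if_true, if_neg ha]
      congr 1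
      congr 1
      exact prod_congr rfl fun j hj => by simp [ne_of_mem_erase hj]
    have hb := (hc a).apply (hgi a) (hhi a) (F := fun j x => if j ∈ T then g j x else h j x)
      (fun j _ x => by split_ifs <;> [exact hg j x; exact hh j x])
      (fun j _ x b => by split_ifs <;> [exact hgi j x b; exact hhi j x b])
    rw [← hmain] at hb
    rw [card_insert_of_notMem ha, Nat.cast_succ, add_mul, one_mul]
    linarith [abs_sub_le (𝔼 x, ∏ j, if j ∈ insert a T then g j x else h j x)
      (𝔼 x, ∏ j, if j ∈ T then g j x else h j x) (𝔼 x, ∏ j, h j x)]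

lemma expect_majorant_le {η : ℝ} {ν : Fin k → (Fin k → X) → ℝ} (h : LinearFormsCond η ν)
    (j₀ : Fin k) : 𝔼 x, ν j₀ x ≤ 1 + η := by
  have := (abs_le.1 (h.apply {j₀} (fun _ => {fun _ => false}) (fun _ _ => true)
    (fun _ _ ω hω => by rw [mem_singleton] at hω; subst hω; rfl))).2
  simp only [prod_singleton, if_true, expect_pt] at this
  linarith

lemma expect_sq_marg_sub_one_le {η : ℝ} {ν : Fin k → (Fin k → X) → ℝ}
    (h : LinearFormsCond η ν) (j₀ : Fin k) :
    𝔼 x, (marg j₀ ν x - 1) ^ 2 ≤ 3 * η := by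
  have h1 : |𝔼 x, marg j₀ ν x - 1| ≤ η := by
    have := h.apply (univ.erase j₀) (fun _ => {fun _ => false}) (fun _ _ => true)
      (fun _ _ ω hω => by rw [mem_singleton] at hω; subst hω; rfl)
    simp only [prod_singleton, if_true] at this
    rw [expect_pt (fun _ => false) fun y => ∏ j ∈ univ.erase j₀, ν j y] at this
    have e := expect_mul_marg (A := fun _ => 1) (fun _ _ => rfl) ν (j₀ := j₀)
    simp only [one_mul] at e
    rwa [e]
  have h2 : |𝔼 x, marg j₀ ν x * marg j₀ ν x - 1| ≤ η := by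
    have := h.apply (univ.erase j₀) (fun _ => choices {j₀}) (fun _ _ => true)
      (fun j hj ω hω => mem_choices.1 hω j (by simpa using ne_of_mem_erase hj))
    simp only [prod_choices_singleton, if_true, prod_mul_distrib] at this
    have e := expect_double j₀ (A := fun _ => 1) (fun _ _ => rfl)
      (fun x => ∏ i ∈ univ.erase j₀, ν i x) fun x => ∏ i ∈ univ.erase j₀, ν i x
    simp only [one_mul] at e
    simp only [marg]
    rwa [e]
  have e : 𝔼 x, (marg j₀ ν x - 1) ^ 2 =
      (𝔼 x, marg j₀ ν x * marg j₀ ν x) - 2 * (𝔼 x, marg j₀ ν x) + 1 := by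
    rw [mul_expect, ← expect_sub_distrib]
    conv_rhs => rw [← expect_const (univ_nonempty (α := Fin k → X)) (1 : ℝ), ← expect_add_distrib]
    exact expect_congr rfl fun x _ => by ring
  rw [e]
  linarith [abs_le.1 h1, abs_le.1 h2]

/-- **The relative counting lemma.** -/
theorem exists_counting_bound (k : ℕ) : ∀ ε' : ℝ, 0 < ε' → ∃ ε η : ℝ, 0 < ε ∧ 0 < η ∧
    ∀ (X : Type) [Fintype X] [Nonempty X] (ν g h : Fin k → (Fin k → X) → ℝ),
      (∀ j, IndepOf j (ν j)) → LinearFormsCond η ν →
      (∀ j, IndepOf j (g j)) → (∀ j, IndepOf j (h j)) →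
      (∀ j x, 0 ≤ g j x ∧ g j x ≤ ν j x) → (∀ j x, 0 ≤ h j x ∧ h j x ≤ 1) →
      (∀ j, CutClose ε j (g j) (h j)) →
      |(𝔼 x, ∏ j, g j x) - 𝔼 x, ∏ j, h j x| ≤ ε' := by
  suffices key : ∀ S : Finset (Fin k), ∀ ε' : ℝ, 0 < ε' → ∃ ε η : ℝ, 0 < ε ∧ 0 < η ∧
      ∀ (X : Type) [Fintype X] [Nonempty X] (ν g h : Fin k → (Fin k → X) → ℝ),
      (∀ j, IndepOf j (ν j)) → LinearFormsCond η ν →
      (∀ j, IndepOf j (g j)) → (∀ j, IndepOf j (h j)) →
      (∀ j x, 0 ≤ g j x ∧ g j x ≤ ν j x) → (∀ j x, 0 ≤ h j x ∧ h j x ≤ 1) →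
      (∀ j, CutClose ε j (g j) (h j)) → (∀ j, j ∉ S → ∀ x, ν j x = 1) →
      |(𝔼 x, ∏ j, g j x) - 𝔼 x, ∏ j, h j x| ≤ ε' by
    intro ε' hε'
    obtain ⟨ε, η, hε, hη, H⟩ := key univ ε' hε'
    exact ⟨ε, η, hε, hη, fun X _ _ ν g h a b c d e f i =>
      H X ν g h a b c d e f i fun j hj => absurd (mem_univ j) hj⟩
  intro S
  induction S using Finset.strongInduction with
  | H S IH =>
  intro ε' hε'
  rcases S.eq_empty_or_nonempty with rfl | ⟨j₀, hj₀⟩
  · refine ⟨ε' / (k + 1), 1, by positivity, one_pos, fun X _ _ ν g h _ _ hgi hhi hg hh hc hS => ?_⟩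
    refine (abs_prod_sub_le_of_dense (fun j x => ⟨(hg j x).1, ?_⟩) hh hgi hhi hc).trans ?_
    · exact (hg j x).2.trans_eq (hS j (notMem_empty _) x)
    · rw [mul_div, div_le_iff₀ (by positivity)]
      nlinarith
  set t := ε' ^ 2 / 8 with ht
  have ht0 : 0 < t := by positivity
  obtain ⟨θη, hθη, hforms⟩ := exists_forms_bound k (t / 16) (by positivity)
  obtain ⟨ε₁, η₁, hε₁, hη₁, hIH⟩ := IH (S.erase j₀) (erase_ssubset hj₀) (t / 8) (by positivity)
  set η := min (min θη η₁) (min 1 (min (t / 12) (t ^ 2 / 192))) with hη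
  have hη0 : 0 < η := by positivity
  have hηθ : η ≤ θη := (min_le_left _ _).trans (min_le_left _ _)
  have hηI : η ≤ η₁ := (min_le_left _ _).trans (min_le_right _ _)
  have hη1 : η ≤ 1 := (min_le_right _ _).trans (min_le_left _ _)
  have hηt : η ≤ t / 12 := (min_le_right _ _).trans ((min_le_right _ _).trans (min_le_left _ _))
  have hηt2 : η ≤ t ^ 2 / 192 :=
    (min_le_right _ _).trans ((min_le_right _ _).trans (min_le_right _ _))
  refine ⟨min ε₁ (ε' / 2), η, by positivity, hη0,
    fun X _ _ ν g h hνi hlf hgi hhi hg hh hc hS => ?_⟩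
  have hg0 : ∀ i x, 0 ≤ g i x := fun i x => (hg i x).1
  have hν0 : ∀ i x, 0 ≤ ν i x := fun i x => (hg i x).1.trans (hg i x).2
  set d : (Fin k → X) → ℝ := fun x => marg j₀ g x - marg j₀ h x with hd
  -- the mixed averages against `ν j₀ - 1`
  have hmix : ∀ fl : Fin k → Bool → Bool, ∀ p : Fin k → Bool → (Fin k → X) → ℝ,
      (∀ i c, IndepOf i (p i c)) → (∀ i c y, |p i c y| ≤ majorant ν fl i c y) →
      |𝔼 x, (ν j₀ x - 1) * marg j₀ (fun i => p i false) x * marg j₀ (fun i => p i true) x| ≤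
        t / 16 := by
    intro fl p hpi hp
    rw [← csAvg_empty (hνi j₀) fl]
    exact hforms X ν hνi (hlf.mono hηθ) fl p j₀ (fun i c _ => hpi i c) fun i c _ => hp i c
  have hgν : ∀ i y, |g i y| ≤ ν i y := fun i y => by rw [abs_of_nonneg (hg0 i y)]; exact (hg i y).2
  have hh1 : ∀ i y, |h i y| ≤ 1 := fun i y => by rw [abs_of_nonneg (hh i y).1]; exact (hh i y).2
  have hgg := hmix (fun _ _ => true) (fun i _ => g i) (fun i _ => hgi i)
    (fun i _ y => by simpa [majorant] using hgν i y)
  have hgh := hmix (fun _ c => !c) (fun i c => if c then h i else g i)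
    (fun i c => by cases c <;> simp [hgi i, hhi i])
    (fun i c y => by cases c <;> simp [majorant, hgν i y, hh1 i y])
  have hhh := hmix (fun _ _ => false) (fun i _ => h i) (fun i _ => hhi i)
    (fun i _ y => by simpa [majorant] using hh1 i y)
  simp only [Bool.false_eq_true, if_false, if_true] at hgh
  have hA : 𝔼 x, (ν j₀ x - 1) * d x ^ 2 ≤ t / 4 := by
    have e : 𝔼 x, (ν j₀ x - 1) * d x ^ 2 =
        (𝔼 x, (ν j₀ x - 1) * marg j₀ g x * marg j₀ g x) -
          2 * (𝔼 x, (ν j₀ x - 1) * marg j₀ g x * marg j₀ h x) +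
          𝔼 x, (ν j₀ x - 1) * marg j₀ h x * marg j₀ h x := by
      rw [mul_expect, ← expect_sub_distrib, ← expect_add_distrib]
      exact expect_congr rfl fun x _ => by rw [hd]; ring
    rw [e]
    linarith [abs_le.1 hgg, abs_le.1 hgh, abs_le.1 hhh]
  -- the dense part
  set c : (Fin k → X) → ℝ := fun x => min (marg j₀ g x) 1 with hcdef
  have hmh : ∀ x, 0 ≤ marg j₀ h x ∧ marg j₀ h x ≤ 1 := fun x =>
    ⟨marg_nonneg (fun i y => (hh i y).1) x, (expect_le univ_nonempty fun a _ =>
      prod_le_one (fun i _ => (hh i _).1) fun i _ => (hh i _).2)⟩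
  have hc01 : ∀ x, 0 ≤ c x ∧ c x ≤ 1 := fun x =>
    ⟨le_min (marg_nonneg hg0 x) zero_le_one, min_le_right _ _⟩
  have hdense : ∀ q : (Fin k → X) → ℝ, (∀ x, 0 ≤ q x ∧ q x ≤ 1) → IndepOf j₀ q →
      |𝔼 x, d x * q x| ≤ t / 8 := by
    intro q hq hqi
    have hq' := hIH X (update ν j₀ fun _ => 1) (update g j₀ q) (update h j₀ q)
      (fun j => by
        rcases eq_or_ne j j₀ with rfl | hj
        · simp [IndepOf]
        · rw [update_of_ne hj]; exact hνi j)
      ((hlf.mono hηI).update_one j₀)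
      (fun j => by
        rcases eq_or_ne j j₀ with rfl | hj
        · rw [update_self]; exact hqi
        · rw [update_of_ne hj]; exact hgi j)
      (fun j => by
        rcases eq_or_ne j j₀ with rfl | hj
        · rw [update_self]; exact hqi
        · rw [update_of_ne hj]; exact hhi j)
      (fun j x => by
        rcases eq_or_ne j j₀ with rfl | hj
        · simp only [update_self]; exact hq x
        · simp only [update_of_ne hj]; exact hg j x)
      (fun j x => by
        rcases eq_or_ne j j₀ with rfl | hj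
        · simp only [update_self]; exact hq x
        · simp only [update_of_ne hj]; exact hh j x)
      (fun j => by
        rcases eq_or_ne j j₀ with rfl | hj
        · intro u _ _ _
          simp [hε₁.le]
        · simp only [update_of_ne hj]; exact (hc j).mono (min_le_left _ _))
      (fun j hj x => by
        rcases eq_or_ne j j₀ with rfl | hj'
        · simp
        · rw [update_of_ne hj']; exact hS j (fun hh => hj (mem_erase.2 ⟨hj', hh⟩)) x)
    have e : ∀ F : Fin k → (Fin k → X) → ℝ,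
        𝔼 x, ∏ j, (update F j₀ q) j x = 𝔼 x, marg j₀ F x * q x := fun F => by
      rw [expect_prod_eq j₀ (by rw [update_self]; exact hqi)]
      refine expect_congr rfl fun x _ => ?_
      rw [update_self, mul_comm]
      congr 1
      exact expect_congr rfl fun a _ => prod_congr rfl fun i hi => by
        rw [update_of_ne (ne_of_mem_erase hi)]
    rw [e, e, ← expect_sub_distrib] at hq'
    simpa only [hd, sub_mul] using hq'
  have hs := expect_sq_marg_sub_one_le hlf j₀
  have hB : 𝔼 x, d x ^ 2 ≤ 3 * η + 2 * Real.sqrt (3 * η) + t / 4 := by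
    have hpt : ∀ x, d x ^ 2 ≤ ((marg j₀ ν x - 1) ^ 2 + 2 * |marg j₀ ν x - 1|) +
        (d x * c x - d x * marg j₀ h x) := fun x => by
      have h1 : |d x| ≤ marg j₀ ν x + 1 := by
        have := marg_mono hg0 (fun i y => (hg i y).2) (j₀ := j₀) x
        have := marg_nonneg hg0 (j₀ := j₀) x
        have := hmh x
        simp only [hd, abs_le]
        constructor <;> linarith
      have h2 : |marg j₀ g x - c x| ≤ |marg j₀ ν x - 1| := by
        rcases le_total (marg j₀ g x) 1 with hle | hle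
        · simp [hcdef, min_eq_left hle]
        · have := marg_mono hg0 (fun i y => (hg i y).2) (j₀ := j₀) x
          simp only [hcdef, min_eq_right hle]
          rw [abs_of_nonneg (by linarith), abs_of_nonneg (by linarith)]
          linarith
      have h3 : d x * (marg j₀ g x - c x) ≤ (marg j₀ ν x + 1) * |marg j₀ ν x - 1| := by
        refine (le_abs_self _).trans ?_
        rw [abs_mul]
        exact mul_le_mul h1 h2 (abs_nonneg _) ((abs_nonneg _).trans h1)
      have h4 : (marg j₀ ν x + 1) * |marg j₀ ν x - 1| ≤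
          (marg j₀ ν x - 1) ^ 2 + 2 * |marg j₀ ν x - 1| := by
        nlinarith [abs_nonneg (marg j₀ ν x - 1), sq_abs (marg j₀ ν x - 1),
          le_abs_self (marg j₀ ν x - 1)]
      have e : d x ^ 2 = d x * (marg j₀ g x - c x) + (d x * c x - d x * marg j₀ h x) := by
        rw [hd]; ring
      linarith
    refine (expect_le_expect fun x _ => hpt x).trans ?_
    rw [expect_add_distrib, expect_add_distrib, ← mul_expect, expect_sub_distrib]
    have hci : IndepOf j₀ c := fun x a => by simp only [hcdef, indepOf_marg j₀ g x a]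
    have := abs_le.1 (hdense c hc01 hci)
    have := abs_le.1 (hdense (marg j₀ h) hmh (indepOf_marg _ _))
    have := (abs_expect_le_sqrt fun x => marg j₀ ν x - 1).trans (Real.sqrt_le_sqrt hs)
    linarith
  have hsqrt : Real.sqrt (3 * η) ≤ t / 8 := by
    refine Real.sqrt_le_iff.2 ⟨by positivity, ?_⟩
    linarith [show (t / 8) ^ 2 = t ^ 2 / 64 by ring]
  have hfirst : |𝔼 x, g j₀ x * d x| ≤ ε' / 2 := by
    refine abs_le_of_sq_le_sq ?_ (by positivity)
    have hW : (𝔼 x, ν j₀ x * d x ^ 2) ≤ t := by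
      have e : 𝔼 x, ν j₀ x * d x ^ 2 = (𝔼 x, (ν j₀ x - 1) * d x ^ 2) + 𝔼 x, d x ^ 2 := by
        rw [← expect_add_distrib]
        exact expect_congr rfl fun x _ => by ring
      linarith
    calc (𝔼 x, g j₀ x * d x) ^ 2 ≤ (𝔼 x, ν j₀ x) * 𝔼 x, ν j₀ x * d x ^ 2 :=
          sq_expect_weight_le (hgν j₀) d
      _ ≤ 2 * t := mul_le_mul ((expect_majorant_le hlf j₀).trans (by linarith)) hW
          (expect_nonneg fun x _ => mul_nonneg (hν0 j₀ x) (sq_nonneg _)) zero_le_two
      _ = (ε' / 2) ^ 2 := by rw [ht]; ring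
  have hsecond : |𝔼 x, (g j₀ x - h j₀ x) * marg j₀ h x| ≤ ε' / 2 := by
    rw [expect_mul_marg (A := fun x => g j₀ x - h j₀ x)
      fun x a => by simp only [hgi j₀ x a, hhi j₀ x a]]
    exact ((hc j₀).apply (hgi j₀) (hhi j₀) (fun i _ => hh i) fun i _ => hhi i).trans
      (min_le_right _ _)
  have e : (𝔼 x, ∏ j, g j x) - 𝔼 x, ∏ j, h j x =
      (𝔼 x, g j₀ x * d x) + 𝔼 x, (g j₀ x - h j₀ x) * marg j₀ h x := by
    rw [expect_prod_eq j₀ (hgi j₀), expect_prod_eq j₀ (hhi j₀), ← expect_sub_distrib,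
      ← expect_add_distrib]
    exact expect_congr rfl fun x _ => by rw [hd]; ring
  rw [e]
  exact (abs_add_le _ _).trans (by linarith)

end FA.GreenTao
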