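import Fermat.Agent.GreenTao.Average
import Mathlib.Analysis.LocallyConvex.Separation
import Mathlib.Topology.ContinuousMap.Weierstrass
import Mathlib.Algebra.Polynomial.Eval.Defs
import Mathlib.Data.Fintype.EquivFin
import Mathlib.Tactic.FieldSimp
import Mathlib.Tactic.Ring

/-!
# The dense model theorem

If `ν` is close to one for the cut norm tests on `Fin (r + 1) → G`, then every `0 ≤ f ≤ ν` is
close in that norm to some `0 ≤ f' ≤ 1`. Products of test averages are averages of test averages,
so Hahn–Banach and the Weierstrass approximation theorem apply.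
-/

set_option autoImplicit false

namespace FA.GreenTao

open Finset Function
open scoped BigOperators

variable {r : ℕ} {G : Type} [AddCommGroup G] [Fintype G]

/-- The pairing of a function on `G` with a family of tests. -/
noncomputable def testPairing (h : G → ℝ) (u : Fin (r + 1) → (Fin (r + 1) → G) → ℝ) : ℝ :=
  𝔼 y : Fin (r + 1) → G, h (∑ i, y i) * ∏ i, u i y

/-- A family of cut norm tests. -/
def IsTestFamily (u : Fin (r + 1) → (Fin (r + 1) → G) → ℝ) : Prop :=
  ∀ i, (∀ y, 0 ≤ u i y ∧ u i y ≤ 1) ∧ IndepOf i (u i)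

/-- Boolean test families. -/
abbrev BoolTests (r : ℕ) (G : Type) :=
  {u : Fin (r + 1) → (Fin (r + 1) → G) → Bool // ∀ i, IndepOf i (u i)}

/-- The indicator family of a Boolean test family. -/
def BoolTests.real (u : BoolTests r G) (i : Fin (r + 1)) (y : Fin (r + 1) → G) : ℝ :=
  if u.1 i y then 1 else 0

/-- The point with coordinate sum `x` above `y`. -/
def shiftSum (x : G) (y : Fin (r + 1) → G) : Fin (r + 1) → G :=
  update y 0 (y 0 + (x - ∑ i, y i))

omit [Fintype G] in
lemma shiftSum_add (x x' : G) (y y' : Fin (r + 1) → G) :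
    shiftSum (x + x') (y + y') = shiftSum x y + shiftSum x' y' := by
  funext i
  rcases eq_or_ne i 0 with rfl | hi
  · simp only [shiftSum, update_self, Pi.add_apply, sum_add_distrib]
    abel
  · simp [shiftSum, hi]

omit [Fintype G] in
lemma sum_update_zero (y : Fin (r + 1) → G) (a : G) :
    ∑ i, update y 0 a i = a + ((∑ i, y i) - y 0) := by
  rw [← add_sum_erase univ _ (mem_univ 0), update_self]
  congr 1
  rw [← sum_erase_eq_sub (mem_univ 0)]
  exact sum_congr rfl fun i hi => update_of_ne (ne_of_mem_erase hi) _ _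

/-- The average of a test family over the points with a given coordinate sum. -/
noncomputable def fibreAvg (u : BoolTests r G) (x : G) : ℝ :=
  𝔼 y : Fin (r + 1) → G, ∏ i, u.real i (shiftSum x y)

lemma fibreAvg_nonneg (u : BoolTests r G) (x : G) : 0 ≤ fibreAvg u x :=
  expect_nonneg fun y _ => prod_nonneg fun i _ => by rw [BoolTests.real]; split_ifs <;> norm_num

lemma fibreAvg_le_one (u : BoolTests r G) (x : G) : fibreAvg u x ≤ 1 :=
  expect_le univ_nonempty fun y _ => prod_le_one
    (fun i _ => by rw [BoolTests.real]; split_ifs <;> norm_num)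
    (fun i _ => by rw [BoolTests.real]; split_ifs <;> norm_num)

lemma expect_mul_fibreAvg (h : G → ℝ) (u : BoolTests r G) :
    𝔼 x, h x * fibreAvg u x = testPairing h u.real := by
  rw [testPairing, expect_update 0]
  simp only [fibreAvg, mul_expect]
  rw [expect_comm]
  refine expect_congr rfl fun y _ => ?_
  refine Fintype.expect_equiv (Equiv.addLeft (y 0 - ∑ i, y i)) _ _ fun x => ?_
  have e : update y 0 ((y 0 - ∑ i, y i) + x) = shiftSum x y := by
    rw [shiftSum]; congr 1; abel
  simp only [Equiv.coe_addLeft, e, shiftSum, sum_update_zero]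
  congr 2
  abel

/-- The tests `u` and the translate of `v` by `t`. -/
def BoolTests.meet (u v : BoolTests r G) (t : Fin (r + 1) → G) : BoolTests r G :=
  ⟨fun i p => u.1 i p && v.1 i (p + shiftSum 0 t), fun i p a => by
    simp only [u.2 i p a]
    refine congrArg (fun z => u.1 i p && z) ?_
    rw [← v.2 i (p + shiftSum 0 t) (a + shiftSum 0 t i)]
    refine congrArg (v.1 i) (funext fun l => ?_)
    rcases eq_or_ne l i with rfl | hl
    · simp
    · simp [hl]⟩

lemma fibreAvg_mul (u v : BoolTests r G) (x : G) :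
    fibreAvg u x * fibreAvg v x = 𝔼 t, fibreAvg (u.meet v t) x := by
  simp only [fibreAvg]
  rw [expect_mul, expect_comm]
  refine expect_congr rfl fun y _ => ?_
  rw [mul_expect]
  refine (Fintype.expect_equiv (Equiv.addLeft y) _ _ fun t => ?_).symm
  have e : shiftSum x (y + t) = shiftSum x y + shiftSum 0 t := by
    rw [← shiftSum_add, add_zero]
  rw [Equiv.coe_addLeft, e, ← prod_mul_distrib]
  refine prod_congr rfl fun i _ => ?_
  simp only [BoolTests.real, BoolTests.meet]
  rcases Bool.eq_false_or_eq_true (u.1 i (shiftSum x y)) with h | h <;> simp [h]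

/-- The trivial test family. -/
def BoolTests.top : BoolTests r G := ⟨fun _ _ => true, fun _ _ _ => rfl⟩

lemma fibreAvg_top (x : G) : fibreAvg (BoolTests.top : BoolTests r G) x = 1 := by
  simp [fibreAvg, BoolTests.real, BoolTests.top]

section Combination

variable [Fintype (BoolTests r G)]

lemma abs_expect_mul_pow_le {h : G → ℝ} {η : ℝ}
    (hh : ∀ u : BoolTests r G, |testPairing h u.real| ≤ η) (c : BoolTests r G → ℝ) :
    ∀ (m : ℕ) (u : BoolTests r G),
      |𝔼 x, h x * fibreAvg u x * (∑ v, c v * fibreAvg v x) ^ m| ≤ (∑ v, |c v|) ^ m * η := by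
  intro m
  induction m with
  | zero => intro u; simpa [expect_mul_fibreAvg] using hh u
  | succ m ih =>
    intro u
    have e : ∀ x, h x * fibreAvg u x * (∑ v, c v * fibreAvg v x) ^ (m + 1) =
        ∑ v, c v * 𝔼 t, h x * fibreAvg (u.meet v t) x * (∑ w, c w * fibreAvg w x) ^ m :=
      fun x => by
        rw [pow_succ', ← mul_assoc, mul_sum, sum_mul]
        refine sum_congr rfl fun v _ => ?_
        rw [← expect_mul, ← mul_expect, ← fibreAvg_mul]
        ring
    simp only [e, expect_sum_comm, ← mul_expect]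
    refine (abs_sum_le_sum_abs _ _).trans ?_
    rw [pow_succ', mul_assoc, sum_mul]
    refine sum_le_sum fun v _ => ?_
    rw [abs_mul, expect_comm]
    exact mul_le_mul_of_nonneg_left ((abs_expect_le _ _).trans
      (expect_le univ_nonempty fun t _ => ih _)) (abs_nonneg _)

lemma abs_expect_mul_eval_le {h : G → ℝ} {η : ℝ}
    (hh : ∀ u : BoolTests r G, |testPairing h u.real| ≤ η) {c : BoolTests r G → ℝ}
    (hc : ∑ v, |c v| ≤ 1) (P : Polynomial ℝ) :
    |𝔼 x, h x * P.eval (∑ v, c v * fibreAvg v x)| ≤
      (∑ i ∈ range (P.natDegree + 1), |P.coeff i|) * η := by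
  have hη : 0 ≤ η := (abs_nonneg _).trans (hh BoolTests.top)
  simp only [Polynomial.eval_eq_sum_range, mul_sum, expect_sum_comm, sum_mul]
  refine (abs_sum_le_sum_abs _ _).trans (sum_le_sum fun i _ => ?_)
  have := abs_expect_mul_pow_le hh c i BoolTests.top
  simp only [fibreAvg_top, mul_one] at this
  simp only [mul_left_comm _ (P.coeff i), ← mul_expect, abs_mul]
  refine mul_le_mul_of_nonneg_left (this.trans ?_) (abs_nonneg _)
  exact mul_le_of_le_one_left hη (pow_le_one₀ (sum_nonneg fun v _ => abs_nonneg _) hc)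

end Combination

/-- Boolean tests suffice. -/
lemma abs_testPairing_le_of_bool {h : G → ℝ} {δ : ℝ}
    (hb : ∀ u : BoolTests r G, |testPairing h u.real| ≤ δ)
    {u : Fin (r + 1) → (Fin (r + 1) → G) → ℝ} (hu : IsTestFamily u) :
    |testPairing h u| ≤ δ := by
  classical
  suffices key : ∀ T : Finset (Fin (r + 1)), ∀ u : Fin (r + 1) → (Fin (r + 1) → G) → ℝ,
      IsTestFamily u → (∀ i, i ∉ T → ∀ y, u i y = 0 ∨ u i y = 1) → |testPairing h u| ≤ δ from
    key univ u hu fun i hi => absurd (mem_univ i) hi
  intro T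
  induction T using Finset.induction with
  | empty =>
    intro u hu h01
    have hb' := hb ⟨fun i y => decide (u i y = 1), fun i y a => by simp only [(hu i).2 y a]⟩
    have e : u = BoolTests.real (⟨fun i y => decide (u i y = 1),
        fun i y a => by simp only [(hu i).2 y a]⟩ : BoolTests r G) := by
      funext i y
      rcases h01 i (notMem_empty _) y with e | e <;> simp [BoolTests.real, e]
    rw [e]
    exact hb'
  | @insert a T ha ih =>
    intro u hu h01
    set m : (Fin (r + 1) → G) → ℝ := fun y =>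
      𝔼 b, h (∑ i, update y a b i) * ∏ i ∈ univ.erase a, u i (update y a b) with hm
    have hmi : IndepOf a m := fun y b => by simp only [hm, update_idem]
    have hlin : ∀ w : (Fin (r + 1) → G) → ℝ, IndepOf a w →
        testPairing h (update u a w) = 𝔼 y, w y * m y := fun w hw => by
      rw [testPairing, expect_update a]
      refine expect_congr rfl fun y _ => ?_
      simp only [hm, mul_expect]
      refine expect_congr rfl fun b _ => ?_
      rw [← mul_prod_erase univ _ (mem_univ a), update_self, hw]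
      have : ∀ i ∈ univ.erase a,
          update u a w i (update y a b) = u i (update y a b) := fun i hi => by
        rw [update_of_ne (ne_of_mem_erase hi)]
      rw [prod_congr rfl this]
      ring
    have hbd : ∀ w : (Fin (r + 1) → G) → ℝ, IndepOf a w → (∀ y, w y = 0 ∨ w y = 1) →
        |𝔼 y, w y * m y| ≤ δ := fun w hw hw01 => by
      rw [← hlin w hw]
      refine ih _ (fun i => ?_) fun i hi y => ?_
      · rcases eq_or_ne i a with rfl | hia
        · rw [update_self]
          exact ⟨fun y => by rcases hw01 y with e | e <;> rw [e] <;> norm_num, hw⟩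
        · rw [update_of_ne hia]; exact hu i
      · rcases eq_or_ne i a with rfl | hia
        · rw [update_self]; exact hw01 y
        · rw [update_of_ne hia]; exact h01 i (fun hh => (mem_insert.1 hh).elim hia hi) y
    have hu_eq : testPairing h u = 𝔼 y, u a y * m y := by
      rw [← hlin _ (hu a).2, update_eq_self]
    have h1 := hbd (fun y => if 0 < m y then 1 else 0) (fun y b => by simp only [hmi y b])
      fun y => by by_cases hy : 0 < m y <;> simp [hy]
    have h2 := hbd (fun y => if m y < 0 then 1 else 0) (fun y b => by simp only [hmi y b])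
      fun y => by by_cases hy : m y < 0 <;> simp [hy]
    rw [hu_eq, abs_le]
    refine ⟨(abs_le.1 h2).1.trans (expect_le_expect fun y _ => ?_),
      (expect_le_expect fun y _ => ?_).trans (abs_le.1 h1).2⟩
    · have := (hu a).1 y
      split_ifs <;> nlinarith
    · have := (hu a).1 y
      split_ifs <;> nlinarith

/-- **The dense model theorem.** -/
theorem exists_dense_model (r : ℕ) (δ : ℝ) (hδ : 0 < δ) : ∃ η : ℝ, 0 < η ∧
    ∀ (G : Type) [AddCommGroup G] [Fintype G] (ν f : G → ℝ), (∀ x, 0 ≤ f x ∧ f x ≤ ν x) →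
      (∀ u : Fin (r + 1) → (Fin (r + 1) → G) → ℝ, IsTestFamily u →
        |testPairing (fun x => ν x - 1) u| ≤ η) →
      ∃ f' : G → ℝ, (∀ x, 0 ≤ f' x ∧ f' x ≤ 1) ∧
        ∀ u : Fin (r + 1) → (Fin (r + 1) → G) → ℝ, IsTestFamily u →
          |testPairing (fun x => f x - f' x) u| ≤ δ := by
  classical
  obtain ⟨P, hP⟩ := exists_polynomial_near_of_continuousOn (-1 : ℝ) 1 (fun t => max t 0)
    ((continuous_id.max continuous_const).continuousOn) (δ / 8) (by positivity)
  set C := ∑ i ∈ range (P.natDegree + 1), |P.coeff i| with hC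
  have hC0 : 0 ≤ C := sum_nonneg fun i _ => abs_nonneg _
  refine ⟨min 1 (δ / (8 * (C + 1))), by positivity, fun G _ _ ν f hf hν => ?_⟩
  have : Fintype (BoolTests r G) := Fintype.ofFinite _
  have hbool : ∀ u : BoolTests r G, IsTestFamily u.real := fun u i =>
    ⟨fun y => by rw [BoolTests.real]; split_ifs <;> norm_num,
      fun y a => by simp only [BoolTests.real, u.2 i y a]⟩
  by_contra hno
  push Not at hno
  -- the values of the dense functions
  let L : (G → ℝ) →ₗ[ℝ] (BoolTests r G → ℝ) :=
    { toFun := fun w u => 𝔼 x, w x * fibreAvg u x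
      map_add' := fun w w' => funext fun u => by
        simp [add_mul, expect_add_distrib]
      map_smul' := fun c w => funext fun u => by
        simp [mul_assoc, mul_expect] }
  have hKc : IsCompact (L '' Set.Icc 0 1) :=
    isCompact_Icc.image L.continuous_of_finiteDimensional
  have hKv : Convex ℝ (L '' Set.Icc 0 1) := (convex_Icc 0 1).linear_image L
  set B : Set (BoolTests r G → ℝ) := Set.Icc (fun u => testPairing f u.real - δ)
    (fun u => testPairing f u.real + δ) with hB
  have hdisj : Disjoint (L '' Set.Icc 0 1) B := by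
    rw [Set.disjoint_left]
    rintro _ ⟨w, hw, rfl⟩ hwB
    obtain ⟨u, hu, hlt⟩ := hno w fun x => ⟨hw.1 x, hw.2 x⟩
    refine absurd (abs_testPairing_le_of_bool (δ := δ) (fun v => ?_) hu) (not_le.2 hlt)
    have e : testPairing (fun x => f x - w x) v.real = testPairing f v.real - L w v := by
      show _ = _ - 𝔼 x, w x * fibreAvg v x
      rw [expect_mul_fibreAvg, testPairing, testPairing, testPairing, ← expect_sub_distrib]
      exact expect_congr rfl fun y _ => by ring
    rw [e, abs_le]
    have h1 := hwB.1 v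
    have h2 := hwB.2 v
    simp only at h1 h2
    constructor <;> linarith
  obtain ⟨F, s, t, hFK, hst, hFB⟩ :=
    geometric_hahn_banach_compact_closed hKv hKc (convex_Icc _ _) isClosed_Icc hdisj
  set lam : BoolTests r G → ℝ := fun u => F fun v => if u = v then 1 else 0 with hlam
  have hF : ∀ z, F z = ∑ u, lam u * z u := fun z => by
    conv_lhs => rw [pi_eq_sum_univ z]
    simp [hlam, mul_comm]
  set ψ : G → ℝ := fun x => ∑ u, lam u * fibreAvg u x with hψ
  set Λ := ∑ u, |lam u| with hΛ
  set b : BoolTests r G → ℝ := fun u =>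
    testPairing f u.real - if 0 ≤ lam u then δ else -δ with hb
  have hbB : b ∈ B := by
    constructor <;> intro u <;> simp only [hb] <;> split_ifs <;> linarith
  have hFb : F b = (𝔼 x, f x * ψ x) - δ * Λ := by
    simp only [hF, hb, hΛ, mul_sum, mul_sub, sum_sub_distrib, hψ, expect_sum_comm]
    congr 1
    · refine sum_congr rfl fun u _ => ?_
      rw [← expect_mul_fibreAvg, mul_expect]
      exact expect_congr rfl fun x _ => by ring
    · refine sum_congr rfl fun u _ => ?_
      split_ifs with hu
      · rw [abs_of_nonneg hu]; ring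
      · rw [abs_of_neg (not_le.1 hu)]; ring
  set w : G → ℝ := fun x => if 0 ≤ ψ x then 1 else 0 with hw
  have hwK : L w ∈ L '' Set.Icc 0 1 := by
    refine ⟨w, ⟨fun x => ?_, fun x => ?_⟩, rfl⟩ <;> simp only [hw] <;> split_ifs <;> norm_num
  have hFw : F (L w) = 𝔼 x, max (ψ x) 0 := by
    rw [hF]
    have e : ∀ u, lam u * L w u = 𝔼 x, lam u * (w x * fibreAvg u x) := fun u => by
      show lam u * 𝔼 x, w x * fibreAvg u x = _
      rw [mul_expect]
    simp only [e, ← expect_sum_comm]
    refine expect_congr rfl fun x _ => ?_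
    simp only [mul_left_comm _ (w x), ← mul_sum]
    show w x * ψ x = max (ψ x) 0
    simp only [hw]
    split_ifs with hx
    · rw [one_mul, max_eq_left hx]
    · rw [zero_mul, max_eq_right (not_le.1 hx).le]
  have hgap : (𝔼 x, max (ψ x) 0) < (𝔼 x, f x * ψ x) - δ * Λ := by
    rw [← hFw, ← hFb]
    linarith [hFK _ hwK, hFB _ hbB]
  have hψb : ∀ x, |ψ x| ≤ Λ := fun x => (abs_sum_le_sum_abs _ _).trans (sum_le_sum fun u _ => by
    rw [abs_mul, abs_of_nonneg (fibreAvg_nonneg u x)]
    exact mul_le_of_le_one_right (abs_nonneg _) (fibreAvg_le_one u x))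
  have hΛ0 : 0 < Λ := by
    rcases (sum_nonneg fun u _ => abs_nonneg (lam u) : 0 ≤ Λ).lt_or_eq with h | h
    · exact h
    · have h0 : ∀ x, ψ x = 0 := fun x => abs_nonpos_iff.1 (h ▸ hψb x)
      have hz : Λ = 0 := h.symm
      simp [h0, hz] at hgap
  -- approximate the positive part
  set c : BoolTests r G → ℝ := fun u => lam u / Λ with hc
  have hc1 : ∑ u, |c u| ≤ 1 := by
    simp only [hc, abs_div, abs_of_pos hΛ0, ← sum_div]
    rw [← hΛ, div_self hΛ0.ne']
  set Ψ : G → ℝ := fun x => ∑ u, c u * fibreAvg u x with hΨ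
  have hΨψ : ∀ x, Ψ x = ψ x / Λ := fun x => by
    simp only [hΨ, hc, hψ, sum_div]
    exact sum_congr rfl fun u _ => by ring
  have hΨI : ∀ x, Ψ x ∈ Set.Icc (-1 : ℝ) 1 := fun x => by
    rw [hΨψ, Set.mem_Icc, le_div_iff₀ hΛ0, div_le_iff₀ hΛ0]
    constructor <;> linarith [abs_le.1 (hψb x)]
  set η := min 1 (δ / (8 * (C + 1))) with hη
  have hνbool : ∀ u : BoolTests r G, |testPairing (fun x => ν x - 1) u.real| ≤ η :=
    fun u => hν _ (hbool u)
  have hν1 : 𝔼 x, ν x ≤ 2 := by
    have := hνbool BoolTests.top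
    rw [← expect_mul_fibreAvg] at this
    simp only [fibreAvg_top, mul_one, expect_sub_distrib, Fintype.expect_const] at this
    linarith [(abs_le.1 this).2, min_le_left 1 (δ / (8 * (C + 1)))]
  have hPoly : 𝔼 x, (ν x - 1) * P.eval (Ψ x) ≤ δ / 8 := by
    refine (le_abs_self _).trans ((abs_expect_mul_eval_le hνbool hc1 P).trans ?_)
    calc C * η ≤ C * (δ / (8 * (C + 1))) := mul_le_mul_of_nonneg_left (min_le_right _ _) hC0
      _ ≤ δ / 8 := by
        rw [mul_div, div_le_div_iff₀ (by positivity) (by norm_num)]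
        nlinarith
  have hpt : ∀ x, f x * Ψ x - max (Ψ x) 0 ≤ (ν x - 1) * P.eval (Ψ x) + δ / 8 * (ν x + 1) := by
    intro x
    have h1 := abs_lt.1 (hP (Ψ x) (hΨI x))
    have hf0 := hf x
    have h2 : f x * Ψ x ≤ ν x * max (Ψ x) 0 :=
      (mul_le_mul_of_nonneg_left (le_max_left _ _) hf0.1).trans
        (mul_le_mul_of_nonneg_right hf0.2 (le_max_right _ _))
    nlinarith
  have hfin : (𝔼 x, f x * Ψ x) - 𝔼 x, max (Ψ x) 0 ≤ δ / 2 := by
    rw [← expect_sub_distrib]
    refine (expect_le_expect fun x _ => hpt x).trans ?_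
    rw [expect_add_distrib, ← mul_expect, expect_add_distrib, Fintype.expect_const]
    nlinarith
  have e1 : 𝔼 x, f x * Ψ x = (𝔼 x, f x * ψ x) / Λ := by
    simp only [hΨψ, expect_div, mul_div]
  have e2 : 𝔼 x, max (Ψ x) 0 = (𝔼 x, max (ψ x) 0) / Λ := by
    simp only [hΨψ, expect_div, ← max_div_div_right hΛ0.le, zero_div]
  rw [e1, e2, ← sub_div, div_le_iff₀ hΛ0] at hfin
  nlinarith

end FA.GreenTao
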