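import Fermat.Agent.GreenTao.Average
import Mathlib.Algebra.BigOperators.Ring.Finset
import Mathlib.Tactic.Ring

/-!
# The linear forms condition and its Cauchy–Schwarz consequence

Points of `Fin k × Bool → X` are doubled points: `pt x ω i = x (i, ω i)`. The linear forms
condition says that every product of factors `ν j (pt x ω)` (`ω j = false`, no repetition) has
average `1 + O(η)`. Repeated Cauchy–Schwarz makes `ν j₀ - 1` orthogonal to all products of
functions below the other `ν i`.
-/

set_option autoImplicit false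

namespace FA.GreenTao

open Finset Function
open scoped BigOperators

variable {k : ℕ} {X : Type*}

/-- A point read from a doubled point. -/
def pt (x : Fin k × Bool → X) (ω : Fin k → Bool) : Fin k → X := fun i => x (i, ω i)

/-- The choices supported on `P`. -/
def choices (P : Finset (Fin k)) : Finset (Fin k → Bool) :=
  univ.filter fun ω => ∀ l, l ∉ P → ω l = false

lemma mem_choices {P : Finset (Fin k)} {ω : Fin k → Bool} :
    ω ∈ choices P ↔ ∀ l, l ∉ P → ω l = false := by simp [choices]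

lemma prod_choices_insert {M : Type*} [CommMonoid M] {P : Finset (Fin k)} {i : Fin k}
    (hi : i ∉ P) (f : (Fin k → Bool) → M) :
    ∏ ω ∈ choices (insert i P), f ω =
      (∏ ω ∈ choices P, f ω) * ∏ ω ∈ choices P, f (update ω i true) := by
  classical
  rw [← prod_filter_mul_prod_filter_not (choices (insert i P)) fun ω => ω i = false]
  congr 1
  · refine prod_congr ?_ fun _ _ => rfl
    ext ω
    simp only [mem_filter, mem_choices, mem_insert, not_or]
    constructor
    · rintro ⟨h, hωi⟩ l hl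
      by_cases hli : l = i
      · rw [hli]; exact hωi
      · exact h l ⟨hli, hl⟩
    · exact fun h => ⟨fun l hl => h l hl.2, h i hi⟩
  · refine (prod_nbij' (fun ω : Fin k → Bool => update ω i true)
      (fun ω : Fin k → Bool => update ω i false) ?_ ?_ ?_ ?_
      fun _ _ => rfl).symm
    · intro ω hω
      rw [mem_choices] at hω
      simp only [mem_filter, mem_choices, mem_insert, not_or, update_self, Bool.true_eq_false,
        not_false_iff, and_true]
      intro l hl
      rw [update_of_ne hl.1]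
      exact hω l hl.2
    · intro ω hω
      simp only [mem_filter, mem_choices, mem_insert, not_or] at hω
      rw [mem_choices]
      intro l hl
      rcases eq_or_ne l i with rfl | hli
      · simp
      · rw [update_of_ne hli]
        exact hω.1 l ⟨hli, hl⟩
    · intro ω hω
      rw [mem_choices] at hω
      simp only [update_idem]
      rw [← hω i hi, update_eq_self]
    · intro ω hω
      simp only [mem_filter, Bool.not_eq_false] at hω
      simp only [update_idem]
      rw [← hω.2, update_eq_self]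

lemma pt_update_swap {x : Fin k × Bool → X} {i : Fin k} {ω : Fin k → Bool} (hω : ω i = false) :
    pt (update x (i, false) (x (i, true))) ω = pt x (update ω i true) := by
  funext l
  rcases eq_or_ne l i with rfl | hl
  · simp [pt, hω]
  · have hne : ((l, ω l) : Fin k × Bool) ≠ (i, false) := fun h => hl (congrArg Prod.fst h)
    simp [pt, update_of_ne hl, update_of_ne hne]

lemma IndepOf.comp_pt {M : Type*} {F : (Fin k → X) → M} {i : Fin k} (h : IndepOf i F)
    (ω : Fin k → Bool) (b : Bool) : IndepOf (i, b) fun x => F (pt x ω) := fun x a => by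
  refine h.congr fun l hl => ?_
  have hne : ((l, ω l) : Fin k × Bool) ≠ (i, b) := fun h => hl (congrArg Prod.fst h)
  simp [pt, update_of_ne hne]

lemma indepOf_comp_pt_of_ne {M : Type*} (F : (Fin k → X) → M) {i : Fin k} {ω : Fin k → Bool}
    {b : Bool} (h : ω i ≠ b) : IndepOf (i, b) fun x => F (pt x ω) := fun x a => by
  refine congrArg F (funext fun l => ?_)
  have hne : ((l, ω l) : Fin k × Bool) ≠ (i, b) := fun e => by
    simp only [Prod.mk.injEq] at e
    exact h (by rw [← e.1]; exact e.2)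
  simp [pt, update_of_ne hne]

lemma IndepOf.prod {κ ι' M : Type*} [DecidableEq ι'] [CommMonoid M] {p : ι'} (s : Finset κ)
    {F : κ → (ι' → X) → M} (h : ∀ c ∈ s, IndepOf p (F c)) :
    IndepOf p fun x => ∏ c ∈ s, F c x := fun x a => prod_congr rfl fun c hc => h c hc x a

lemma IndepOf.mul {ι' M : Type*} [DecidableEq ι'] [Mul M] {p : ι'} {F G : (ι' → X) → M}
    (hF : IndepOf p F) (hG : IndepOf p G) : IndepOf p fun x => F x * G x := fun x a => by
  simp only [hF x a, hG x a]

variable [Fintype X] [Nonempty X]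

/-- The linear forms condition: every selection of factors has average close to one. -/
def LinearFormsCond (η : ℝ) (ν : Fin k → (Fin k → X) → ℝ) : Prop :=
  ∀ e : Fin k → (Fin k → Bool) → Bool,
    |𝔼 x : Fin k × Bool → X, ∏ j, ∏ ω ∈ univ.filter (fun ω : Fin k → Bool => ω j = false),
      (if e j ω then ν j (pt x ω) else 1) - 1| ≤ η

lemma LinearFormsCond.apply {η : ℝ} {ν : Fin k → (Fin k → X) → ℝ} (h : LinearFormsCond η ν)
    (J : Finset (Fin k)) (s : Fin k → Finset (Fin k → Bool))
    (fl : Fin k → (Fin k → Bool) → Bool) (hs : ∀ j ∈ J, ∀ ω ∈ s j, ω j = false) :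
    |𝔼 x : Fin k × Bool → X, ∏ j ∈ J, ∏ ω ∈ s j, (if fl j ω then ν j (pt x ω) else 1) - 1| ≤ η := by
  classical
  have := h fun j ω => decide (j ∈ J ∧ ω ∈ s j) && fl j ω
  refine le_of_eq_of_le (congrArg (fun t => |t - 1|) (expect_congr rfl fun x _ => ?_)) this
  rw [← prod_subset (subset_univ J) fun j _ hj => prod_eq_one fun ω _ => by simp [hj]]
  refine prod_congr rfl fun j hj => ?_
  rw [← prod_subset (s₁ := s j) (fun ω hω => mem_filter.2 ⟨mem_univ _, hs j hj ω hω⟩)
    fun ω _ hω => by simp [hω]]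
  exact prod_congr rfl fun ω hω => by simp [hj, hω]

/-- The majorant selected by a flag. -/
def majorant (ν : Fin k → (Fin k → X) → ℝ) (fl : Fin k → Bool → Bool) (i : Fin k) (c : Bool) :
    (Fin k → X) → ℝ := fun y => if fl i c then ν i y else 1

/-- The intermediate average of the Cauchy–Schwarz iteration. -/
noncomputable def csAvg (ν : Fin k → (Fin k → X) → ℝ) (fl : Fin k → Bool → Bool)
    (p : Fin k → Bool → (Fin k → X) → ℝ) (j₀ : Fin k) (P : Finset (Fin k)) : ℝ :=
  𝔼 x : Fin k × Bool → X, (∏ ω ∈ choices P, (ν j₀ (pt x ω) - 1)) *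
    (∏ i ∈ P, ∏ ω ∈ choices ((insert j₀ P).erase i), majorant ν fl i (ω j₀) (pt x ω)) *
    ∏ i ∈ (univ.erase j₀) \ P, ∏ ω ∈ choices (insert j₀ P), p i (ω j₀) (pt x ω)

lemma csAvg_full_le {η : ℝ} {ν : Fin k → (Fin k → X) → ℝ} (h : LinearFormsCond η ν)
    (fl : Fin k → Bool → Bool) (p : Fin k → Bool → (Fin k → X) → ℝ) (j₀ : Fin k) :
    |csAvg ν fl p j₀ (univ.erase j₀)| ≤ (2 : ℝ) ^ 2 ^ k * η := by
  classical
  set P := (univ : Finset (Fin k)).erase j₀ with hP
  have hη : 0 ≤ η := (abs_nonneg _).trans (h fun _ _ => false)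
  set Ω := choices P with hΩ
  have hne : Ω.Nonempty := ⟨fun _ => false, mem_choices.2 fun _ _ => rfl⟩
  have hexp : csAvg ν fl p j₀ P = ∑ T ∈ Ω.powerset, (-1 : ℝ) ^ #(Ω \ T) *
      (𝔼 x : Fin k × Bool → X, (∏ ω ∈ T, ν j₀ (pt x ω)) *
        (∏ i ∈ P, ∏ ω ∈ choices ((insert j₀ P).erase i), majorant ν fl i (ω j₀) (pt x ω)) - 1) := by
    have hzero : ∑ T ∈ Ω.powerset, (-1 : ℝ) ^ #(Ω \ T) = 0 := by
      have := prod_add (fun _ : Fin k → Bool => (1 : ℝ)) (fun _ => -1) Ω
      simp only [add_neg_cancel, prod_const, one_pow, one_mul] at this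
      rw [← this, zero_pow (card_pos.2 hne).ne']
    simp only [mul_sub, mul_one, sum_sub_distrib, hzero, sub_zero, mul_expect, ← expect_sum_comm]
    refine expect_congr rfl fun x _ => ?_
    rw [sdiff_self, bot_eq_empty, prod_empty, mul_one]
    simp only [sub_eq_add_neg]
    rw [prod_add, sum_mul]
    refine sum_congr rfl fun T _ => ?_
    rw [prod_const]
    ring
  rw [hexp]
  refine (abs_sum_le_sum_abs _ _).trans ?_
  calc ∑ T ∈ Ω.powerset, |(-1 : ℝ) ^ #(Ω \ T) * (𝔼 x : Fin k × Bool → X,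
        (∏ ω ∈ T, ν j₀ (pt x ω)) * (∏ i ∈ P, ∏ ω ∈ choices ((insert j₀ P).erase i),
          majorant ν fl i (ω j₀) (pt x ω)) - 1)|
      ≤ ∑ _T ∈ Ω.powerset, η := by
        refine sum_le_sum fun T hT => ?_
        rw [abs_mul, abs_pow, abs_neg, abs_one, one_pow, one_mul]
        have := h.apply univ (fun j => if j = j₀ then T else choices ((insert j₀ P).erase j))
          (fun j ω => if j = j₀ then true else fl j (ω j₀)) (by
            intro j _ ω hω
            by_cases hj : j = j₀
            · subst hj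
              simp only [if_true] at hω
              exact mem_choices.1 (mem_powerset.1 hT hω) _ (notMem_erase _ _)
            · simp only [if_neg hj] at hω
              exact mem_choices.1 hω _ (notMem_erase _ _))
        refine le_trans (le_of_eq (congrArg _ (congrArg (· - 1) ?_))) this
        refine expect_congr rfl fun x _ => ?_
        rw [← mul_prod_erase univ _ (mem_univ j₀), ← hP]
        congr 1
        · simp
        · refine prod_congr rfl fun j hj => ?_
          have hjne : j ≠ j₀ := ne_of_mem_erase hj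
          simp [hjne, majorant]
    _ ≤ _ := by
        rw [sum_const, card_powerset, nsmul_eq_mul, Nat.cast_pow, Nat.cast_ofNat]
        refine mul_le_mul_of_nonneg_right (pow_le_pow_right₀ one_le_two ?_) hη
        exact (card_le_univ _).trans (by simp)

lemma csAvg_sq_le {η : ℝ} {ν : Fin k → (Fin k → X) → ℝ} (h : LinearFormsCond η ν)
    (hνi : ∀ i, IndepOf i (ν i)) {fl : Fin k → Bool → Bool}
    {p : Fin k → Bool → (Fin k → X) → ℝ} {j₀ : Fin k}
    (hpi : ∀ i c, i ≠ j₀ → IndepOf i (p i c))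
    (hp : ∀ i c, i ≠ j₀ → ∀ y, |p i c y| ≤ majorant ν fl i c y)
    {P : Finset (Fin k)} (hP : P ⊆ univ.erase j₀) {i : Fin k} (hi : i ∈ univ.erase j₀ \ P) :
    csAvg ν fl p j₀ P ^ 2 ≤ (1 + η) * |csAvg ν fl p j₀ (insert i P)| := by
  classical
  obtain ⟨hij, hiP⟩ := mem_sdiff.1 hi
  have hine : i ≠ j₀ := ne_of_mem_erase hij
  have hiQ : i ∉ insert j₀ P := by simp [hine, hiP]
  set Ω' := choices (insert j₀ P) with hΩ'
  set V : (Fin k × Bool → X) → ℝ := fun x => ∏ ω ∈ Ω', p i (ω j₀) (pt x ω) with hV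
  set W : (Fin k × Bool → X) → ℝ := fun x => ∏ ω ∈ Ω', majorant ν fl i (ω j₀) (pt x ω) with hW
  set R : (Fin k × Bool → X) → ℝ := fun x => (∏ ω ∈ choices P, (ν j₀ (pt x ω) - 1)) *
    (∏ l ∈ P, ∏ ω ∈ choices ((insert j₀ P).erase l), majorant ν fl l (ω j₀) (pt x ω)) *
    ∏ l ∈ (univ.erase j₀ \ P).erase i, ∏ ω ∈ Ω', p l (ω j₀) (pt x ω) with hR
  have hmi : ∀ c, IndepOf i (majorant ν fl i c) := fun c y a => by
    simp only [majorant, hνi i y a]
  have hoff : ∀ ω ∈ Ω', ω i ≠ true := fun ω hω => by simp [mem_choices.1 hω i hiQ]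
  have hoff2 : ∀ ω ∈ choices P, ω i ≠ true := fun ω hω => by simp [mem_choices.1 hω i hiP]
  have hoff3 : ∀ l, ∀ ω ∈ choices ((insert j₀ P).erase l), ω i ≠ true := fun l ω hω => by
    simp [mem_choices.1 hω i (fun hh => hiQ (mem_of_mem_erase hh))]
  have hVW : ∀ x, |V x| ≤ W x := fun x => by
    rw [hV, hW]
    simp only [Finset.abs_prod]
    exact prod_le_prod (fun ω _ => abs_nonneg _) fun ω _ => hp i _ hine _
  have hWp : ∀ b, IndepOf (i, b) W := fun b => IndepOf.prod _ fun ω _ => (hmi _).comp_pt ω b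
  have hRq : IndepOf (i, true) R :=
    ((IndepOf.prod _ fun ω hω => indepOf_comp_pt_of_ne (fun y => ν j₀ y - 1) (hoff2 ω hω)).mul
      (IndepOf.prod _ fun l _ => IndepOf.prod _ fun ω hω =>
        indepOf_comp_pt_of_ne _ (hoff3 l ω hω))).mul
      (IndepOf.prod _ fun l _ => IndepOf.prod _ fun ω hω =>
        indepOf_comp_pt_of_ne _ (hoff ω hω))
  have hcs := sq_expect_mul_le (p := (i, false)) (q := (i, true)) (by simp)
    (IndepOf.prod _ fun ω _ => (hpi i _ hine).comp_pt ω false : IndepOf (i, false) V)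
    (hWp false) (hWp true) hRq hVW
  have hleft : csAvg ν fl p j₀ P = 𝔼 x, V x * R x := by
    refine expect_congr rfl fun x _ => ?_
    rw [← mul_prod_erase _ _ hi, hV, hR]
    ring
  have hright : 𝔼 x, W x * (R x * R (update x (i, false) (x (i, true)))) =
      csAvg ν fl p j₀ (insert i P) := by
    refine expect_congr rfl fun x _ => ?_
    have e1 : ∀ ω ∈ Ω', pt (update x (i, false) (x (i, true))) ω = pt x (update ω i true) :=
      fun ω hω => pt_update_swap (mem_choices.1 hω i hiQ)
    have e0 : insert j₀ (insert i P) = insert i (insert j₀ P) := Finset.insert_comm _ _ _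
    have hj : ∀ ω : Fin k → Bool, update ω i true j₀ = ω j₀ := fun ω =>
      update_of_ne hine.symm _ _
    rw [prod_insert hiP, e0, erase_insert hiQ]
    have e2 : ∏ ω ∈ choices (insert i P), (ν j₀ (pt x ω) - 1) =
        (∏ ω ∈ choices P, (ν j₀ (pt x ω) - 1)) *
          ∏ ω ∈ choices P, (ν j₀ (pt (update x (i, false) (x (i, true))) ω) - 1) := by
      rw [prod_choices_insert hiP]
      congr 1
      exact prod_congr rfl fun ω hω => by rw [pt_update_swap (mem_choices.1 hω i hiP)]
    have e3 : ∏ l ∈ P, ∏ ω ∈ choices ((insert i (insert j₀ P)).erase l),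
          majorant ν fl l (ω j₀) (pt x ω) =
        (∏ l ∈ P, ∏ ω ∈ choices ((insert j₀ P).erase l), majorant ν fl l (ω j₀) (pt x ω)) *
          ∏ l ∈ P, ∏ ω ∈ choices ((insert j₀ P).erase l),
            majorant ν fl l (ω j₀) (pt (update x (i, false) (x (i, true))) ω) := by
      rw [← prod_mul_distrib]
      refine prod_congr rfl fun l hl => ?_
      have hli : l ≠ i := fun e => hiP (e ▸ hl)
      rw [erase_insert_of_ne hli.symm,
        prod_choices_insert (fun hh => hiQ (mem_of_mem_erase hh))]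
      congr 1
      refine prod_congr rfl fun ω hω => ?_
      rw [hj, pt_update_swap (mem_choices.1 hω i (fun hh => hiQ (mem_of_mem_erase hh)))]
    have e4 : ∏ l ∈ univ.erase j₀ \ insert i P, ∏ ω ∈ choices (insert i (insert j₀ P)),
          p l (ω j₀) (pt x ω) =
        (∏ l ∈ (univ.erase j₀ \ P).erase i, ∏ ω ∈ Ω', p l (ω j₀) (pt x ω)) *
          ∏ l ∈ (univ.erase j₀ \ P).erase i, ∏ ω ∈ Ω',
            p l (ω j₀) (pt (update x (i, false) (x (i, true))) ω) := by
      rw [sdiff_insert, ← prod_mul_distrib]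
      refine prod_congr rfl fun l _ => ?_
      rw [prod_choices_insert hiQ]
      congr 1
      exact prod_congr rfl fun ω hω => by rw [hj, e1 ω hω]
    rw [e2, e3, e4, hW, hR]
    ring
  have hW1 : 𝔼 x, W x ≤ 1 + η := by
    have := (abs_le.1 (h.apply {i} (fun _ => Ω') (fun j ω => fl j (ω j₀)) (by
      intro j hj ω hω
      rw [mem_singleton] at hj
      subst hj
      exact mem_choices.1 hω _ hiQ))).2
    simp only [prod_singleton] at this
    simp only [hW, majorant]
    linarith
  rw [hleft]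
  rw [hright] at hcs
  refine hcs.trans ?_
  have hW0 : 0 ≤ 𝔼 x, W x := expect_nonneg fun x _ => (abs_nonneg _).trans (hVW x)
  exact (mul_le_mul_of_nonneg_left (le_abs_self _) hW0).trans
    (mul_le_mul_of_nonneg_right hW1 (abs_nonneg _))

/-- **The strong linear forms lemma.** -/
theorem exists_forms_bound (k : ℕ) : ∀ ε : ℝ, 0 < ε → ∃ η : ℝ, 0 < η ∧
    ∀ (X : Type) [Fintype X] [Nonempty X] (ν : Fin k → (Fin k → X) → ℝ),
      (∀ i, IndepOf i (ν i)) → LinearFormsCond η ν →
      ∀ (fl : Fin k → Bool → Bool) (p : Fin k → Bool → (Fin k → X) → ℝ) (j₀ : Fin k),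
        (∀ i c, i ≠ j₀ → IndepOf i (p i c)) →
        (∀ i c, i ≠ j₀ → ∀ y, |p i c y| ≤ majorant ν fl i c y) →
        |csAvg ν fl p j₀ ∅| ≤ ε := by
  suffices key : ∀ n : ℕ, ∀ ε : ℝ, 0 < ε → ∃ η : ℝ, 0 < η ∧ η ≤ 1 ∧
      ∀ (X : Type) [Fintype X] [Nonempty X] (ν : Fin k → (Fin k → X) → ℝ),
      (∀ i, IndepOf i (ν i)) → LinearFormsCond η ν →
      ∀ (fl : Fin k → Bool → Bool) (p : Fin k → Bool → (Fin k → X) → ℝ) (j₀ : Fin k),
        (∀ i c, i ≠ j₀ → IndepOf i (p i c)) →
        (∀ i c, i ≠ j₀ → ∀ y, |p i c y| ≤ majorant ν fl i c y) →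
        ∀ P ⊆ univ.erase j₀, #(univ.erase j₀ \ P) ≤ n → |csAvg ν fl p j₀ P| ≤ ε by
    intro ε hε
    obtain ⟨η, hη, -, h⟩ := key k ε hε
    exact ⟨η, hη, fun X _ _ ν hνi hlf fl p j₀ hpi hp =>
      h X ν hνi hlf fl p j₀ hpi hp ∅ (empty_subset _) (by
        rw [sdiff_empty]; exact (card_le_univ _).trans (by simp))⟩
  intro n
  induction n with
  | zero =>
    intro ε hε
    refine ⟨min 1 (ε / 2 ^ 2 ^ k), lt_min one_pos (by positivity), min_le_left _ _,
      fun X _ _ ν _ hlf fl p j₀ _ _ P hP hc => ?_⟩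
    have hPeq : P = univ.erase j₀ :=
      subset_antisymm hP (sdiff_eq_empty_iff_subset.1 (card_eq_zero.1 (Nat.le_zero.1 hc)))
    rw [hPeq]
    refine (csAvg_full_le hlf fl p j₀).trans ?_
    calc (2 : ℝ) ^ 2 ^ k * min 1 (ε / 2 ^ 2 ^ k) ≤ 2 ^ 2 ^ k * (ε / 2 ^ 2 ^ k) := by
          gcongr
          exact min_le_right _ _
      _ = ε := by field_simp
  | succ n ih =>
    intro ε hε
    set ε₁ := min ε (ε ^ 2 / 2) with hε₁
    obtain ⟨η, hη, hη1, h⟩ := ih ε₁ (lt_min hε (by positivity))
    refine ⟨η, hη, hη1, fun X _ _ ν hνi hlf fl p j₀ hpi hp P hP hc => ?_⟩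
    rcases (univ.erase j₀ \ P).eq_empty_or_nonempty with he | ⟨i, hi⟩
    · exact (h X ν hνi hlf fl p j₀ hpi hp P hP (by simp [he])).trans (min_le_left _ _)
    · have hsub : insert i P ⊆ univ.erase j₀ := insert_subset (mem_sdiff.1 hi).1 hP
      have hb := h X ν hνi hlf fl p j₀ hpi hp (insert i P) hsub (by
        rw [sdiff_insert, card_erase_of_mem hi]
        omega)
      refine abs_le_of_sq_le_sq ?_ hε.le
      calc csAvg ν fl p j₀ P ^ 2 ≤ (1 + η) * |csAvg ν fl p j₀ (insert i P)| :=
            csAvg_sq_le hlf hνi hpi hp hP hi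
        _ ≤ 2 * ε₁ := mul_le_mul (by linarith) hb (abs_nonneg _) zero_le_two
        _ ≤ ε ^ 2 := by linarith [min_le_right ε (ε ^ 2 / 2)]

end FA.GreenTao
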