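import Fermat.Agent.GreenTao.SelbergWeights
import Fermat.Agent.CombinatorialSieve.Integers
import Fermat.Agent.GreenTao.BoxAverage
import Mathlib.Analysis.PSeries
import Mathlib.Analysis.SpecialFunctions.Exp
import Mathlib.Data.Nat.Squarefree
import Mathlib.RingTheory.Int.Basic
import Mathlib.NumberTheory.EulerProduct.Basic
import Mathlib.NumberTheory.Harmonic.Bounds

/-!
# The truncated divisor sum majorant

`majorantZ W w R b n` is the normalised square of a Selberg divisor sum of `W * n + b` over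
squarefree numbers up to `R` free of primes up to `w`. Products of it along affine forms average
to `1 + o(1)` on boxes as `w` tends to infinity.
-/

set_option autoImplicit false

namespace FA.GreenTao

open Finset Function
open scoped BigOperators

/-- The primes in `(w, R]`. -/
def sievePrimes (w R : ℕ) : Finset ℕ := (range (R + 1)).filter fun p => p.Prime ∧ w < p

/-- Squarefree numbers up to `R` free of primes up to `w`, as sets of primes. -/
def sieveFamily (w R : ℕ) : Finset (Finset ℕ) :=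
  (sievePrimes w R).powerset.filter fun A => (∏ p ∈ A, p) ≤ R

/-- The value of a prime. -/
def primeVal (p : ℕ) : ℝ := p

/-- The Selberg divisor sum. -/
noncomputable def divisorSum (w R : ℕ) (n : ℤ) : ℝ :=
  ∑ A ∈ sieveFamily w R, sieveWeight (sieveFamily w R) primeVal A *
    (if ∀ p ∈ A, (p : ℤ) ∣ n then 1 else 0)

/-- The normalised majorant. -/
noncomputable def majorantZ (W w R : ℕ) (b n : ℤ) : ℝ :=
  sieveSum (sieveFamily w R) primeVal * divisorSum w R ((W : ℤ) * n + b) ^ 2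

lemma mem_sievePrimes {w R p : ℕ} : p ∈ sievePrimes w R ↔ p ≤ R ∧ p.Prime ∧ w < p := by
  simp [sievePrimes, Nat.lt_succ_iff]

lemma isSieveFamily_sieveFamily {w R : ℕ} (hR : 1 ≤ R) :
    IsSieveFamily (sievePrimes w R) (sieveFamily w R) primeVal where
  empty_mem := by simp [sieveFamily, hR]
  subset_mem A hA B hB := by
    simp only [sieveFamily, mem_filter, mem_powerset] at hA ⊢
    refine ⟨hB.trans hA.1, (prod_le_prod_of_subset_of_one_le' hB fun p hp _ => ?_).trans hA.2⟩
    exact (mem_sievePrimes.1 (hA.1 hp)).2.1.one_le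
  le_support A hA := mem_powerset.1 (mem_filter.1 hA).1
  two_le p hp := by
    simp only [primeVal]
    exact_mod_cast (mem_sievePrimes.1 hp).2.1.two_le

lemma card_sieveFamily_le (w R : ℕ) : #(sieveFamily w R) ≤ R := by
  refine (card_le_card_of_injOn (fun A => ∏ p ∈ A, p) (t := Icc 1 R) (fun A hA => ?_) ?_).trans
    (by simp)
  · simp only [sieveFamily, mem_coe, mem_filter, mem_powerset] at hA
    exact mem_Icc.2 ⟨Finset.prod_pos fun p hp => (mem_sievePrimes.1 (hA.1 hp)).2.1.pos, hA.2⟩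
  · intro A hA B hB e
    simp only [sieveFamily, mem_coe, mem_filter, mem_powerset] at hA hB
    have := congrArg Nat.primeFactors e
    rwa [Nat.primeFactors_prod fun p hp => (mem_sievePrimes.1 (hA.1 hp)).2.1,
      Nat.primeFactors_prod fun p hp => (mem_sievePrimes.1 (hB.1 hp)).2.1] at this

lemma sieveSum_le {w R : ℕ} : sieveSum (sieveFamily w R) primeVal ≤ R := by
  refine (sum_le_card_nsmul _ _ 1 fun A hA => ?_).trans ?_
  · simp only [sieveFamily, mem_filter, mem_powerset] at hA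
    refine prod_le_one (fun p hp => ?_) fun p hp => ?_ <;>
      have h2 : (2 : ℝ) ≤ primeVal p := (by
        simp only [primeVal]
        exact_mod_cast (mem_sievePrimes.1 (hA.1 hp)).2.1.two_le)
    · exact inv_nonneg.2 (by linarith)
    · exact inv_le_one_of_one_le₀ (by linarith)
  · rw [nsmul_one]
    exact_mod_cast card_sieveFamily_le w R

lemma majorantZ_nonneg {W w R : ℕ} (hR : 1 ≤ R) (b n : ℤ) : 0 ≤ majorantZ W w R b n :=
  mul_nonneg (isSieveFamily_sieveFamily hR).sieveSum_pos.le (sq_nonneg _)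

/-- At a number free of sieving primes the majorant is the sieve sum. -/
lemma majorantZ_eq_sieveSum {W w R : ℕ} (hR : 1 ≤ R) {b n : ℤ}
    (h : ∀ p ∈ sievePrimes w R, ¬(p : ℤ) ∣ (W : ℤ) * n + b) :
    majorantZ W w R b n = sieveSum (sieveFamily w R) primeVal := by
  have hS := isSieveFamily_sieveFamily (w := w) hR
  rw [majorantZ, divisorSum, sum_eq_single_of_mem ∅ hS.empty_mem]
  · simp [hS.sieveWeight_empty]
  · intro A hA hne
    obtain ⟨p, hp⟩ := nonempty_iff_ne_empty.2 hne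
    rw [if_neg fun hall => h p (hS.le_support A hA hp) (hall p hp), mul_zero]

lemma prod_one_add_le_exp (w R : ℕ) (hw : 1 ≤ w) {C : ℝ} (hC : 0 ≤ C) :
    ∏ p ∈ sievePrimes w R, (1 + C / primeVal p ^ 2) ≤ Real.exp (C / w) := by
  calc ∏ p ∈ sievePrimes w R, (1 + C / primeVal p ^ 2)
      ≤ ∏ p ∈ sievePrimes w R, Real.exp (C / primeVal p ^ 2) := by
        refine prod_le_prod (fun p _ => by positivity) fun p _ => ?_
        linarith [Real.add_one_le_exp (C / primeVal p ^ 2)]
    _ = Real.exp (∑ p ∈ sievePrimes w R, C / primeVal p ^ 2) := (Real.exp_sum _ _).symm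
    _ ≤ _ := by
        refine Real.exp_le_exp.2 ?_
        simp only [div_eq_mul_inv, ← mul_sum, primeVal]
        refine mul_le_mul_of_nonneg_left ?_ hC
        rcases le_or_gt w R with hwR | hwR
        · refine (sum_le_sum_of_subset_of_nonneg (t := Ioc w R) (fun p hp => ?_)
            fun i _ _ => by positivity).trans
            ((sum_Ioc_inv_sq_le_sub (by omega) hwR).trans ?_)
          · exact mem_Ioc.2 ⟨(mem_sievePrimes.1 hp).2.2, (mem_sievePrimes.1 hp).1⟩
          · linarith [inv_nonneg.2 (Nat.cast_nonneg R : (0 : ℝ) ≤ R)]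
        · rw [sum_eq_zero fun p hp => ?_]
          · positivity
          · obtain ⟨h1, -, h2⟩ := mem_sievePrimes.1 hp
            omega

variable {ι J : Type*} [Fintype ι] [DecidableEq ι] [Fintype J] [DecidableEq J]

/-- The expansion of a product of squares of divisor sums. -/
lemma prod_divisorSum_sq_eq (w R : ℕ) (a : J → ι → ℤ) (c : J → ℤ) (z : ι → ℤ) :
    ∏ j, divisorSum w R (affineForm a c j z) ^ 2 =
      ∑ A ∈ Fintype.piFinset (fun _ : J => sieveFamily w R),
        ∑ B ∈ Fintype.piFinset (fun _ : J => sieveFamily w R),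
          (∏ j, sieveWeight (sieveFamily w R) primeVal (A j) *
            sieveWeight (sieveFamily w R) primeVal (B j)) *
            ∏ p ∈ univ.biUnion (fun j => A j ∪ B j),
              hit a c p (univ.filter fun j => p ∈ A j ∪ B j) z := by
  simp only [divisorSum, sq, sum_mul_sum, prod_univ_sum]
  refine sum_congr rfl fun A _ => sum_congr rfl fun B _ => ?_
  rw [prod_congr rfl fun j _ => mul_mul_mul_comm _ _ _ _, prod_mul_distrib]
  refine congrArg _ ?_
  simp only [hit, prod_boole, ite_zero_mul_ite_zero, mul_one]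
  split_ifs with h
  · refine (prod_eq_one fun p _ => if_pos fun j hj => ?_).symm
    simp only [mem_filter, mem_univ, true_and, mem_union] at hj
    exact hj.elim (fun hh => (h j (mem_univ j)).1 p hh) fun hh => (h j (mem_univ j)).2 p hh
  · push Not at h
    obtain ⟨j, -, hj⟩ := h
    by_cases hA : ∀ p ∈ A j, (p : ℤ) ∣ affineForm a c j z
    · obtain ⟨p, hp, hpz⟩ := hj hA
      refine (prod_eq_zero (i := p) ?_ ?_).symm
      · exact mem_biUnion.2 ⟨j, mem_univ j, mem_union_right _ hp⟩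
      · exact if_neg fun hh => hpz (hh j (by simp [hp]))
    · push Not at hA
      obtain ⟨p, hp, hpz⟩ := hA
      refine (prod_eq_zero (i := p) ?_ ?_).symm
      · exact mem_biUnion.2 ⟨j, mem_univ j, mem_union_left _ hp⟩
      · exact if_neg fun hh => hpz (hh j (by simp [hp]))

lemma prod_biUnion_le {w R : ℕ} {A B : J → Finset ℕ} (hA : ∀ j, A j ∈ sieveFamily w R)
    (hB : ∀ j, B j ∈ sieveFamily w R) :
    ∏ p ∈ univ.biUnion (fun j => A j ∪ B j), p ≤ R ^ (2 * Fintype.card J) := by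
  simp only [sieveFamily, mem_filter, mem_powerset] at hA hB
  calc ∏ p ∈ univ.biUnion (fun j => A j ∪ B j), p
      ≤ ∏ j, (∏ p ∈ A j, p) * ∏ p ∈ B j, p := by
        refine Nat.le_of_dvd (Finset.prod_pos fun j _ => Nat.mul_pos
          (Finset.prod_pos fun p hp => (mem_sievePrimes.1 ((hA j).1 hp)).2.1.pos)
          (Finset.prod_pos fun p hp => (mem_sievePrimes.1 ((hB j).1 hp)).2.1.pos)) ?_
        refine prod_primes_dvd _ (fun p hp => ?_) fun p hp => ?_ <;>
          obtain ⟨j, -, hj⟩ := mem_biUnion.1 hp <;> rcases mem_union.1 hj with h | h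
        · exact (mem_sievePrimes.1 ((hA j).1 h)).2.1.prime
        · exact (mem_sievePrimes.1 ((hB j).1 h)).2.1.prime
        · exact (dvd_mul_of_dvd_left (dvd_prod_of_mem (fun p : ℕ => p) h) _).trans
            (dvd_prod_of_mem (fun j => (∏ p ∈ A j, p) * ∏ p ∈ B j, p) (mem_univ j))
        · exact (dvd_mul_of_dvd_right (dvd_prod_of_mem (fun p : ℕ => p) h) _).trans
            (dvd_prod_of_mem (fun j => (∏ p ∈ A j, p) * ∏ p ∈ B j, p) (mem_univ j))
    _ ≤ ∏ _j : J, R * R := prod_le_prod' fun j _ => Nat.mul_le_mul (hA j).2 (hB j).2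
    _ = _ := by rw [prod_const, card_univ, ← sq, ← pow_mul]

/-- **Correlations of shifted majorants on boxes.** Parallel forms need different shifts. -/
theorem abs_expect_majorantShift_sub_one_le {W w R L : ℕ} [NeZero L] (hR : 1 ≤ R) (hw : 1 ≤ w)
    (hW : ∀ p : ℕ, p.Prime → p ∣ W → p ≤ w) (b : J → ℤ) (a : J → ι → ℤ) (c : J → ℤ)
    (hsingle : ∀ j, ∃ i, a j i ≠ 0 ∧ (a j i).natAbs ≤ w)
    (hpair : ∀ j j', j ≠ j' → (∃ i i', a j i * a j' i' - a j i' * a j' i ≠ 0 ∧
      (a j i * a j' i' - a j i' * a j' i).natAbs ≤ w) ∨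
      (a j = a j' ∧ c j = c j' ∧ b j ≠ b j' ∧ (b j - b j').natAbs ≤ w)) :
    |(𝔼 z : ι → Fin L, ∏ j, majorantZ W w R (b j) (affineForm a c j (boxPt z))) - 1| ≤
      (Real.exp (32 ^ Fintype.card J / w) - 1) +
        Fintype.card ι * (R : ℝ) ^ (5 * Fintype.card J) / L := by
  set 𝒟 := sieveFamily w R with h𝒟
  set P := sievePrimes w R with hP
  set m := Fintype.card J with hm
  set G := sieveSum 𝒟 primeVal with hG
  set a' : J → ι → ℤ := fun j i => (W : ℤ) * a j i with ha'
  set c' : J → ℤ := fun j => (W : ℤ) * c j + b j with hc'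
  have hS := isSieveFamily_sieveFamily (w := w) hR
  set ρ : ℕ → Finset J → ℝ := fun p s => hitDensity a' c' p s with hρ
  have hndvd : ∀ p ∈ P, ∀ x : ℤ, x ≠ 0 → x.natAbs ≤ w → ¬(p : ℤ) ∣ (W : ℤ) * x := by
    intro p hp x hx hxw hdvd
    obtain ⟨-, hpp, hwp⟩ := mem_sievePrimes.1 hp
    rcases (Nat.prime_iff_prime_int.1 hpp).dvd_or_dvd hdvd with h | h
    · exact absurd (hW p hpp (Int.natCast_dvd_natCast.1 h)) (by omega)
    · have := Nat.le_of_dvd (Int.natAbs_pos.2 hx) (Int.natCast_dvd.1 h)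
      omega
  have hρb : ∀ p ∈ P, ∀ s : Finset J, |ρ p s - (primeVal p)⁻¹ ^ #s| ≤ 1 / primeVal p ^ 2 := by
    intro p hp s
    obtain ⟨-, hpp, hwp⟩ := mem_sievePrimes.1 hp
    refine abs_hitDensity_sub_le a' c' hpp (fun j => ?_) (fun j j' hjj => ?_) s
    · obtain ⟨i, h1, h2⟩ := hsingle j
      exact ⟨i, hndvd p hp _ h1 h2⟩
    · rcases hpair j j' hjj with ⟨i, i', h1, h2⟩ | ⟨h1, h2, h3, h4⟩
      swap
      · refine Or.inr ⟨by simp only [ha', h1], fun hd => ?_⟩
        have e : c' j - c' j' = b j - b j' := by simp only [hc', h2]; ring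
        rw [e] at hd
        have := Nat.le_of_dvd (Int.natAbs_pos.2 (sub_ne_zero.2 h3)) (Int.natCast_dvd.1 hd)
        omega
      refine Or.inl ⟨i, i', fun hd => ?_⟩
      have e : a' j i * a' j' i' - a' j i' * a' j' i =
          (W : ℤ) * ((W : ℤ) * (a j i * a j' i' - a j i' * a j' i)) := by
        simp only [ha']; ring
      rw [e] at hd
      rcases (Nat.prime_iff_prime_int.1 hpp).dvd_or_dvd hd with h | h
      · exact absurd (hW p hpp (Int.natCast_dvd_natCast.1 h)) (by omega)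
      · exact hndvd p hp _ h1 h2 h
  have haff : ∀ j z, (W : ℤ) * affineForm a c j z + b j = affineForm a' c' j z := fun j z => by
    simp only [affineForm, ha', hc', mul_add, mul_sum, mul_assoc, add_assoc]
  set PF := Fintype.piFinset (fun _ : J => 𝒟) with hPF
  set wt := sieveWeight 𝒟 primeVal with hwt
  have hexp : (𝔼 z : ι → Fin L, ∏ j, majorantZ W w R (b j) (affineForm a c j (boxPt z))) =
      G ^ m * ∑ A ∈ PF, ∑ B ∈ PF, (∏ j, wt (A j) * wt (B j)) *
        𝔼 z : ι → Fin L, ∏ p ∈ univ.biUnion (fun j => A j ∪ B j),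
          hit a' c' p (univ.filter fun j => p ∈ A j ∪ B j) (boxPt z) := by
    simp only [majorantZ, haff, prod_mul_distrib, prod_const, card_univ, ← hm, ← hG, ← mul_expect,
      prod_divisorSum_sq_eq, expect_sum_comm]
    rfl
  have hterm : ∀ A ∈ PF, ∀ B ∈ PF,
      |(∏ j, wt (A j) * wt (B j)) *
          (𝔼 z : ι → Fin L, ∏ p ∈ univ.biUnion (fun j => A j ∪ B j),
            hit a' c' p (univ.filter fun j => p ∈ A j ∪ B j) (boxPt z)) -
        (∏ j, wt (A j) * wt (B j)) * ∏ p ∈ P, ρ p (univ.filter fun j => p ∈ A j ∪ B j)| ≤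
        Fintype.card ι * (R : ℝ) ^ (2 * m) / L := by
    intro A hA B hB
    simp only [hPF, Fintype.mem_piFinset] at hA hB
    set S := univ.biUnion (fun j => A j ∪ B j) with hSdef
    have hSP : S ⊆ P := biUnion_subset.2 fun j _ =>
      union_subset (hS.le_support _ (hA j)) (hS.le_support _ (hB j))
    have hSp : ∀ p ∈ S, p.Prime := fun p hp => (mem_sievePrimes.1 (hSP hp)).2.1
    have : NeZero (∏ p ∈ S, p) := ⟨(Finset.prod_pos fun p hp => (hSp p hp).pos).ne'⟩
    have e : ∏ p ∈ P, ρ p (univ.filter fun j => p ∈ A j ∪ B j) =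
        ∏ p ∈ S, ρ p (univ.filter fun j => p ∈ A j ∪ B j) := by
      refine (prod_subset hSP fun p hp hpS => ?_).symm
      have : NeZero p := ⟨(mem_sievePrimes.1 hp).2.1.ne_zero⟩
      have : (univ.filter fun j => p ∈ A j ∪ B j) = ∅ :=
        filter_eq_empty_iff.2 fun j _ hj => hpS (mem_biUnion.2 ⟨j, mem_univ j, hj⟩)
      simp only [hρ, this, hitDensity_empty]
    have hb := abs_expect_box_sub_le (M := ∏ p ∈ S, p) (L := L)
      (F := fun z => ∏ p ∈ S, hit a' c' p (univ.filter fun j => p ∈ A j ∪ B j) z)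
      (IsPeriodic.prod S fun p hp => (isPeriodic_hit a' c' p _).mono (dvd_prod_of_mem _ hp))
      (fun z => ⟨prod_nonneg fun p _ => (hit_mem_unit _ _ _ _ _).1,
        prod_le_one (fun p _ => (hit_mem_unit _ _ _ _ _).1)
          fun p _ => (hit_mem_unit _ _ _ _ _).2⟩)
    rw [expect_prod_hit a' c' (fun p => univ.filter fun j => p ∈ A j ∪ B j) hSp] at hb
    rw [e, ← mul_sub, abs_mul]
    have hl : |∏ j, wt (A j) * wt (B j)| ≤ 1 := by
      rw [Finset.abs_prod]
      refine prod_le_one (fun j _ => abs_nonneg _) fun j _ => ?_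
      rw [abs_mul]
      exact mul_le_one₀ (hS.abs_sieveWeight_le (hA j)) (abs_nonneg _)
        (hS.abs_sieveWeight_le (hB j))
    refine (mul_le_of_le_one_left (abs_nonneg _) hl).trans (hb.trans ?_)
    gcongr
    exact_mod_cast prod_biUnion_le hA hB
  have hG0 : 0 < G := hS.sieveSum_pos
  have hR0 : (0 : ℝ) ≤ R := Nat.cast_nonneg R
  have h1 : |(𝔼 z : ι → Fin L, ∏ j, majorantZ W w R (b j) (affineForm a c j (boxPt z))) -
      G ^ m * sieveCorr P 𝒟 primeVal ρ| ≤ Fintype.card ι * (R : ℝ) ^ (5 * m) / L := by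
    rw [hexp, sieveCorr, ← mul_sub, abs_mul, abs_pow, abs_of_pos hG0, ← hPF, ← hwt,
      ← sum_sub_distrib]
    have h2 : |∑ A ∈ PF, ((∑ B ∈ PF, (∏ j, wt (A j) * wt (B j)) *
        𝔼 z : ι → Fin L, ∏ p ∈ univ.biUnion (fun j => A j ∪ B j),
          hit a' c' p (univ.filter fun j => p ∈ A j ∪ B j) (boxPt z)) -
        ∑ B ∈ PF, (∏ j, wt (A j) * wt (B j)) *
          ∏ p ∈ P, ρ p (univ.filter fun j => p ∈ A j ∪ B j))| ≤
        (R : ℝ) ^ m * ((R : ℝ) ^ m * (Fintype.card ι * (R : ℝ) ^ (2 * m) / L)) := by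
      have hc : (#PF : ℝ) ≤ (R : ℝ) ^ m := by
        rw [hPF, Fintype.card_piFinset, prod_const, card_univ, ← hm, Nat.cast_pow]
        gcongr
        exact card_sieveFamily_le w R
      refine (abs_sum_le_sum_abs _ _).trans ((sum_le_card_nsmul _ _
        ((R : ℝ) ^ m * (Fintype.card ι * (R : ℝ) ^ (2 * m) / L)) fun A hA => ?_).trans ?_)
      · rw [← sum_sub_distrib]
        refine (abs_sum_le_sum_abs _ _).trans ((sum_le_card_nsmul _ _ _ (hterm A hA)).trans ?_)
        rw [nsmul_eq_mul]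
        exact mul_le_mul_of_nonneg_right hc (by positivity)
      · rw [nsmul_eq_mul]
        exact mul_le_mul_of_nonneg_right hc (by positivity)
    refine (mul_le_mul (pow_le_pow_left₀ hG0.le sieveSum_le m) h2 (abs_nonneg _)
      (by positivity)).trans_eq ?_
    ring
  have h2 : |G ^ m * sieveCorr P 𝒟 primeVal ρ - 1| ≤ Real.exp (32 ^ m / w) - 1 :=
    (hS.abs_sieveCorr_sub_one_le hρb).trans
      (sub_le_sub_right (prod_one_add_le_exp w R hw (by positivity)) 1)
  exact (abs_sub_le _ _ _).trans ((add_le_add h1 h2).trans_eq (add_comm _ _))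

/-- The reciprocal sum over numbers with a given set of prime factors. -/
lemma sum_inv_fibre_le {S : Finset ℕ} (hS : ∀ p ∈ S, p.Prime) (s : Finset ℕ)
    (hs : ∀ n ∈ s, n ≠ 0 ∧ n.primeFactors = S) :
    ∑ n ∈ s, (n : ℝ)⁻¹ ≤ invPhi primeVal S := by
  let f : ℕ →* ℝ := ⟨⟨fun n => (n : ℝ)⁻¹, by simp⟩, fun m n => by simp [mul_inv, mul_comm]⟩
  have hf : ∀ {p : ℕ}, p.Prime → ‖f p‖ < 1 := fun {p} hp => by
    show ‖(p : ℝ)⁻¹‖ < 1
    rw [norm_inv, RCLike.norm_natCast]
    exact inv_lt_one_of_one_lt₀ (by exact_mod_cast hp.one_lt)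
  obtain ⟨-, hsum⟩ :=
    EulerProduct.summable_and_hasSum_factoredNumbers_prod_filter_prime_geometric hf S
  set P := ∏ p ∈ S, p with hP
  have hP0 : 0 < P := Finset.prod_pos fun p hp => (hS p hp).pos
  have hdvd : ∀ n ∈ s, P ∣ n := fun n hn => by
    rw [hP, ← (hs n hn).2]
    exact Nat.prod_primeFactors_dvd n
  have hmem : ∀ n ∈ s, n / P ∈ Nat.factoredNumbers S := fun n hn =>
    Nat.mem_factoredNumbers_iff_primeFactors_subset.2
      ⟨(Nat.div_pos (Nat.le_of_dvd (Nat.pos_of_ne_zero (hs n hn).1) (hdvd n hn)) hP0).ne',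
        (Nat.primeFactors_mono (Nat.div_dvd_of_dvd (hdvd n hn)) (hs n hn).1).trans
          (hs n hn).2.le⟩
  let e : s → Nat.factoredNumbers S := fun n => ⟨(n : ℕ) / P, hmem n n.2⟩
  have he : Injective e := fun m n h => by
    have := congrArg (fun x : Nat.factoredNumbers S => P * (x : ℕ)) h
    simp only [e, Nat.mul_div_cancel' (hdvd _ m.2), Nat.mul_div_cancel' (hdvd _ n.2)] at this
    exact Subtype.ext this
  have h1 : ∑ n ∈ s, (n : ℝ)⁻¹ = (P : ℝ)⁻¹ * ∑ x ∈ s.attach.map ⟨e, he⟩, f x := by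
    rw [sum_map, ← sum_attach s, mul_sum]
    refine sum_congr rfl fun n _ => ?_
    show ((n : ℕ) : ℝ)⁻¹ = (P : ℝ)⁻¹ * (((n : ℕ) / P : ℕ) : ℝ)⁻¹
    rw [← mul_inv, ← Nat.cast_mul, Nat.mul_div_cancel' (hdvd _ n.2)]
  rw [h1]
  refine (mul_le_mul_of_nonneg_left (sum_le_hasSum _ (fun x _ => inv_nonneg.2 (Nat.cast_nonneg _))
    hsum) (by positivity)).trans_eq ?_
  rw [filter_true_of_mem hS, hP, Nat.cast_prod, ← prod_inv_distrib, ← prod_mul_distrib]
  refine prod_congr rfl fun p hp => ?_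
  show (p : ℝ)⁻¹ * (1 - (p : ℝ)⁻¹)⁻¹ = ((p : ℝ) - 1)⁻¹
  have : (p : ℝ) ≠ 0 := by exact_mod_cast (hS p hp).ne_zero
  rw [← mul_inv, mul_sub, mul_one, mul_inv_cancel₀ this]

/-- The sieve sum is at most the Euler product up to `R`. -/
lemma sieveSum_le_prod (w R : ℕ) : sieveSum (sieveFamily w R) primeVal ≤
    (∏ p ∈ (range (R + 1)).filter Nat.Prime, (1 - (p : ℝ)⁻¹))⁻¹ := by
  set Q := (range (R + 1)).filter Nat.Prime with hQ
  have h2 : ∀ p ∈ Q, (2 : ℝ) ≤ p := fun p hp => by exact_mod_cast (mem_filter.1 hp).2.two_le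
  rw [← prod_inv_distrib]
  have e : ∏ p ∈ Q, (1 - (p : ℝ)⁻¹)⁻¹ = ∑ A ∈ Q.powerset, invPhi primeVal A := by
    simp only [invPhi, ← prod_one_add]
    refine prod_congr rfl fun p hp => ?_
    have := h2 p hp
    simp only [primeVal]
    rw [inv_eq_one_div, div_eq_iff (by
      rw [sub_ne_zero]
      exact (inv_lt_one_of_one_lt₀ (by linarith)).ne')]
    have h1 : (p : ℝ) - 1 ≠ 0 := by linarith
    field_simp
    ring
  rw [e]
  refine sum_le_sum_of_subset_of_nonneg (fun A hA => mem_powerset.2 fun p hp => ?_) fun A hA _ => ?_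
  · obtain ⟨h1, h3, -⟩ := mem_sievePrimes.1 (mem_powerset.1 (mem_filter.1 hA).1 hp)
    exact mem_filter.2 ⟨mem_range.2 (by omega), h3⟩
  · refine prod_nonneg fun p hp => inv_nonneg.2 ?_
    have := h2 p (mem_powerset.1 hA hp)
    simp only [primeVal]
    linarith

/-- The sieve sum is at most logarithmic. -/
lemma exists_sieveSum_le_log : ∃ C : ℝ, 0 < C ∧ ∀ w R : ℕ, 1 ≤ R →
    sieveSum (sieveFamily w R) primeVal ≤ C * Real.log (R + 1) := by
  obtain ⟨c, C, hc, h⟩ := CombinatorialSieve.exists_mertens_product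
  refine ⟨c⁻¹, inv_pos.2 hc, fun w R hR => (sieveSum_le_prod w R).trans ?_⟩
  have hR1 : (2 : ℝ) ≤ (R : ℝ) + 1 := by
    have : (1 : ℝ) ≤ R := by exact_mod_cast hR
    linarith
  have h1 := (h ((R : ℝ) + 1) hR1).1
  rw [show ⌈(R : ℝ) + 1⌉₊ = R + 1 by exact_mod_cast Nat.ceil_natCast (R + 1)] at h1
  refine (inv_anti₀ (div_pos hc (Real.log_pos (by linarith))) h1).trans_eq ?_
  rw [inv_div, mul_comm, div_eq_mul_inv]

/-- The sieve sum is at least logarithmic. -/
lemma log_le_sieveSum (w R : ℕ) :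
    Real.log (R + 1) ≤ (∏ p ∈ (range (w + 1)).filter Nat.Prime, (p : ℝ) / (p - 1)) *
      sieveSum (sieveFamily w R) primeVal := by
  set Q := (range (w + 1)).filter Nat.Prime with hQ
  have hQp : ∀ p ∈ Q, p.Prime := fun p hp => (mem_filter.1 hp).2
  have e1 : ∏ p ∈ Q, (p : ℝ) / (p - 1) = ∑ K ∈ Q.powerset, invPhi primeVal K := by
    simp only [invPhi, ← prod_one_add]
    refine prod_congr rfl fun p hp => ?_
    have : (p : ℝ) - 1 ≠ 0 := by
      have : (2 : ℝ) ≤ p := by exact_mod_cast (hQp p hp).two_le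
      linarith
    simp only [primeVal]
    field_simp
    ring
  have h1 : Real.log (R + 1) ≤ ∑ n ∈ Icc 1 R, (n : ℝ)⁻¹ := by
    refine (by exact_mod_cast log_add_one_le_harmonic R :
      Real.log (R + 1) ≤ (harmonic R : ℝ)).trans_eq ?_
    rw [harmonic, Rat.cast_sum]
    refine sum_nbij' (fun i => i + 1) (fun n => n - 1) ?_ ?_ ?_ ?_ ?_ <;>
      intros <;> simp_all <;> omega
  rw [e1, sieveSum, sum_mul_sum, ← sum_product']
  refine h1.trans ?_
  rw [← sum_fiberwise_of_maps_to (g := fun n : ℕ => (n.primeFactors.filter (· ≤ w),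
    n.primeFactors.filter (fun p => ¬p ≤ w))) (t := Q.powerset ×ˢ sieveFamily w R)]
  · refine sum_le_sum fun x hx => ?_
    simp only [mem_product, mem_powerset] at hx
    have hd : Disjoint x.1 x.2 := disjoint_left.2 fun p h1 h2 => by
      have := mem_range.1 (mem_filter.1 (hx.1 h1)).1
      have := (mem_sievePrimes.1 (mem_powerset.1 (mem_filter.1 hx.2).1 h2)).2.2
      omega
    refine (sum_inv_fibre_le (S := x.1 ∪ x.2) (fun p hp => ?_) _ fun n hn => ?_).trans_eq ?_
    · rcases mem_union.1 hp with h | h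
      · exact hQp p (hx.1 h)
      · exact (mem_sievePrimes.1 (mem_powerset.1 (mem_filter.1 hx.2).1 h)).2.1
    · obtain ⟨hn1, hn2⟩ := mem_filter.1 hn
      refine ⟨by have := (mem_Icc.1 hn1).1; omega, ?_⟩
      rw [← hn2]
      exact (filter_union_filter_not_eq _ _).symm
    · exact prod_union hd
  · intro n hn
    obtain ⟨hn1, hn2⟩ := mem_Icc.1 hn
    refine mem_product.2 ⟨mem_powerset.2 fun p hp => ?_, ?_⟩
    · obtain ⟨h1, h2⟩ := mem_filter.1 hp
      exact mem_filter.2 ⟨mem_range.2 (by omega), (Nat.mem_primeFactors.1 h1).1⟩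
    · refine mem_filter.2 ⟨mem_powerset.2 fun p hp => ?_, ?_⟩
      · obtain ⟨h1, h2⟩ := mem_filter.1 hp
        exact mem_sievePrimes.2 ⟨(Nat.le_of_mem_primeFactors h1).trans hn2,
          (Nat.mem_primeFactors.1 h1).1, by omega⟩
      · refine le_trans (Nat.le_of_dvd (by omega) ?_) hn2
        exact (prod_dvd_prod_of_subset _ _ _ (filter_subset _ _)).trans
          (Nat.prod_primeFactors_dvd n)

end FA.GreenTao
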