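import Fermat.Agent.GreenTao.Counting
import Fermat.Agent.GreenTao.DenseModel
import Fermat.Agent.MultipleRecurrence.Counting
import Mathlib.Algebra.Field.ZMod
import Mathlib.Data.Fin.Tuple.Basic

/-!
# The relative Szemerédi theorem

If `ν : ZMod N → ℝ` satisfies the linear forms condition for progressions of length `k` and
`0 ≤ f ≤ ν` has mean at least `δ`, then `f` has at least `c N ^ 2` weighted progressions of
length `k`, for a large prime `N`.
-/

set_option autoImplicit false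

namespace FA.GreenTao

open Finset Function
open scoped BigOperators

variable {k N : ℕ}

/-- The forms `∑ i, (i - j) x i` attached to progressions. -/
def apForm (j : Fin k) (x : Fin k → ZMod N) : ZMod N :=
  ∑ i : Fin k, (((i : ℕ) : ZMod N) - ((j : ℕ) : ZMod N)) * x i

/-- The linear forms condition for progressions of length `k`. -/
def APFormsCond (k : ℕ) [NeZero N] (η : ℝ) (ν : ZMod N → ℝ) : Prop :=
  LinearFormsCond η fun (j : Fin k) x => ν (apForm j x)

lemma indepOf_apForm {M : Type*} (j : Fin k) (F : ZMod N → M) :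
    IndepOf j fun x => F (apForm j x) := fun x a => by
  refine congrArg F (sum_congr rfl fun i _ => ?_)
  rcases eq_or_ne i j with rfl | hi
  · simp
  · rw [update_of_ne hi]

lemma apForm_eq_add_mul (j : Fin k) (x : Fin k → ZMod N) :
    apForm j x = (∑ i : Fin k, ((i : ℕ) : ZMod N) * x i) + ((j : ℕ) : ZMod N) * -∑ i, x i := by
  simp only [apForm, sub_mul, sum_sub_distrib, ← mul_sum]
  ring

lemma sum_mul_update {ι : Type*} [Fintype ι] [DecidableEq ι] {R : Type*} [CommRing R]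
    (c x : ι → R) (p : ι) (a : R) :
    ∑ i, c i * update x p a i = (∑ i, c i * x i) + c p * (a - x p) := by
  have h : ∀ i, c i * update x p a i = c i * x i + if i = p then c p * (a - x p) else 0 := by
    intro i
    rcases eq_or_ne i p with rfl | hi
    · simp only [update_self, if_true]; ring
    · simp [hi]
  simp [h, sum_add_distrib]

variable [NeZero N]

lemma expect_pair_eq {n : ℕ} (F : ZMod N → ZMod N → ℝ) :
    𝔼 x : Fin (n + 2) → ZMod N, F (∑ i : Fin (n + 2), ((i : ℕ) : ZMod N) * x i) (-∑ i, x i) =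
      𝔼 a, 𝔼 d, F a d := by
  rw [expect_update 1, expect_update 0]
  refine (expect_congr rfl fun x _ => ?_).trans (Fintype.expect_const _)
  have e1 : ∀ c b, ∑ i : Fin (n + 2), ((i : ℕ) : ZMod N) * update (update x 0 c) 1 b i =
      b + ((∑ i : Fin (n + 2), ((i : ℕ) : ZMod N) * x i) - x 1) := fun c b => by
    rw [sum_mul_update (fun i : Fin (n + 2) => ((i : ℕ) : ZMod N)),
      sum_mul_update (fun i : Fin (n + 2) => ((i : ℕ) : ZMod N)),
      update_of_ne (Fin.zero_ne_one).symm]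
    simp only [Fin.val_one, Fin.val_zero, Nat.cast_one, Nat.cast_zero]
    ring
  have e2 : ∀ c b, -∑ i, update (update x 0 c) 1 b i =
      x 1 + x 0 - b - (∑ i, x i) - c := fun c b => by
    have h := sum_mul_update (fun _ : Fin (n + 2) => (1 : ZMod N)) (update x 0 c) 1 b
    have h' := sum_mul_update (fun _ : Fin (n + 2) => (1 : ZMod N)) x 0 c
    simp only [one_mul] at h h'
    rw [h, h', update_of_ne (Fin.zero_ne_one).symm]
    ring
  simp only [e1, e2]
  rw [expect_comm]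
  refine Fintype.expect_equiv
    (Equiv.addRight ((∑ i : Fin (n + 2), ((i : ℕ) : ZMod N) * x i) - x 1)) _ _ fun b => ?_
  exact Fintype.expect_equiv (Equiv.subLeft (x 1 + x 0 - b - ∑ i, x i)) _ _ fun c => rfl

/-- The scaled embedding of the coordinates other than `j`. -/
def embedForm {n : ℕ} (j : Fin (n + 1)) (a : ZMod N) (y : Fin n → ZMod N) :
    Fin (n + 1) → ZMod N :=
  j.insertNth a fun p =>
    ((((j.succAbove p : Fin (n + 1)) : ℕ) : ZMod N) - ((j : ℕ) : ZMod N))⁻¹ * y p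

lemma natCast_sub_ne_zero {n : ℕ} (hN : n < N) {i j : Fin (n + 1)} (h : i ≠ j) :
    ((i : ℕ) : ZMod N) - ((j : ℕ) : ZMod N) ≠ 0 := fun e => by
  have e' := congrArg ZMod.val (sub_eq_zero.1 e)
  rw [ZMod.val_cast_of_lt (by omega), ZMod.val_cast_of_lt (by omega)] at e'
  exact h (Fin.ext e')

section Prime

variable [Fact N.Prime]

lemma apForm_embedForm {n : ℕ} (hN : n < N) (j : Fin (n + 1)) (a : ZMod N) (y : Fin n → ZMod N) :
    apForm j (embedForm j a y) = ∑ p, y p := by
  rw [apForm, Fin.sum_univ_succAbove _ j]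
  simp only [sub_self, zero_mul, zero_add, embedForm, Fin.insertNth_apply_succAbove]
  refine sum_congr rfl fun p _ => ?_
  rw [← mul_assoc, mul_inv_cancel₀ (natCast_sub_ne_zero hN (Fin.succAbove_ne j p)), one_mul]

lemma expect_eq_embedForm {n : ℕ} (hN : n < N) {j : Fin (n + 1)}
    {H : (Fin (n + 1) → ZMod N) → ℝ} (hH : IndepOf j H) (a : ZMod N) :
    𝔼 x, H x = 𝔼 y, H (embedForm j a y) := by
  let e₀ : (Fin n → ZMod N) ≃ (Fin n → ZMod N) :=
    Equiv.piCongrRight fun p => Equiv.mulLeft₀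
      (((((j.succAbove p : Fin (n + 1)) : ℕ) : ZMod N) - ((j : ℕ) : ZMod N))⁻¹)
      (inv_ne_zero (natCast_sub_ne_zero hN (Fin.succAbove_ne j p)))
  let e : ZMod N × (Fin n → ZMod N) ≃ (Fin (n + 1) → ZMod N) :=
    ((Equiv.refl _).prodCongr e₀).trans (Fin.insertNthEquiv (fun _ => ZMod N) j)
  rw [← Fintype.expect_equiv e (fun q => H (embedForm j a q.2)) H fun q => ?_,
    ← univ_product_univ, expect_product]
  · simp only [Fintype.expect_const]
  show H (embedForm j a q.2) = H (j.insertNth q.1 (e₀ q.2))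
  refine hH.congr fun i hi => ?_
  obtain ⟨p, rfl⟩ := Fin.exists_succAbove_eq hi
  rw [embedForm, Fin.insertNth_apply_succAbove, Fin.insertNth_apply_succAbove]
  rfl

lemma indepOf_embedForm {n : ℕ} {M : Type*} {j : Fin (n + 1)} {p : Fin n}
    {H : (Fin (n + 1) → ZMod N) → M} (hH : IndepOf (j.succAbove p) H) (a : ZMod N) :
    IndepOf p fun y => H (embedForm j a y) := fun y b => by
  refine hH.congr fun i hi => ?_
  rcases eq_or_ne i j with rfl | hij
  · rw [embedForm, embedForm, Fin.insertNth_apply_same, Fin.insertNth_apply_same]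
  · obtain ⟨q, rfl⟩ := Fin.exists_succAbove_eq hij
    have hq : q ≠ p := fun e => hi (e ▸ rfl)
    rw [embedForm, embedForm, Fin.insertNth_apply_succAbove, Fin.insertNth_apply_succAbove,
      update_of_ne hq]

lemma prod_erase_eq_succAbove {n : ℕ} {M : Type*} [CommMonoid M] (j : Fin (n + 1))
    (F : Fin (n + 1) → M) : ∏ i ∈ univ.erase j, F i = ∏ p, F (j.succAbove p) := by
  refine (prod_nbij (fun p => j.succAbove p) (fun p _ => mem_erase.2 ⟨Fin.succAbove_ne _ _,
    mem_univ _⟩) Fin.succAbove_right_injective.injOn (fun i hi => ?_) fun _ _ => rfl).symm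
  obtain ⟨p, hp⟩ := Fin.exists_succAbove_eq (ne_of_mem_erase (mem_coe.1 hi))
  exact ⟨p, mem_univ _, hp⟩

lemma cutClose_of_testPairing {n : ℕ} (hN : n + 1 < N) {ε : ℝ} {f f' : ZMod N → ℝ}
    (h : ∀ u : Fin (n + 1) → (Fin (n + 1) → ZMod N) → ℝ, IsTestFamily u →
      |testPairing (fun x => f x - f' x) u| ≤ ε) (j : Fin (n + 2)) :
    CutClose ε j (fun x => f (apForm j x)) fun x => f' (apForm j x) := by
  intro u hu hui huj
  have hH : IndepOf j fun x => (f (apForm j x) - f' (apForm j x)) * ∏ i ∈ univ.erase j, u i x :=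
    (indepOf_apForm j fun z => f z - f' z).mul
      (IndepOf.prod _ fun i hi => huj i (ne_of_mem_erase hi))
  rw [expect_eq_embedForm hN hH 0]
  have hb := h (fun p y => u (j.succAbove p) (embedForm j 0 y)) fun p =>
    ⟨fun y => hu _ (Fin.succAbove_ne j p) _,
      indepOf_embedForm (hui _ (Fin.succAbove_ne j p)) 0⟩
  refine le_of_eq_of_le (congrArg _ ?_) hb
  refine expect_congr rfl fun y _ => ?_
  rw [apForm_embedForm hN, prod_erase_eq_succAbove j fun i => u i (embedForm j 0 y)]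

/-- The linear forms condition makes the majorant uniform. -/
lemma exists_majorant_uniform (n : ℕ) {θ : ℝ} (hθ : 0 < θ) : ∃ η : ℝ, 0 < η ∧
    ∀ (N : ℕ) [NeZero N] [Fact N.Prime], n + 1 < N → ∀ ν : ZMod N → ℝ, (∀ z, 0 ≤ ν z) →
      APFormsCond (n + 2) η ν → ∀ u : Fin (n + 1) → (Fin (n + 1) → ZMod N) → ℝ,
        IsTestFamily u → |testPairing (fun x => ν x - 1) u| ≤ θ := by
  obtain ⟨η, hη, hforms⟩ := exists_forms_bound (n + 2) θ hθ
  refine ⟨η, hη, fun N _ _ hN ν hν hlf u hu => ?_⟩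
  set U : Fin (n + 2) → (Fin (n + 2) → ZMod N) → ℝ :=
    Fin.cases (fun _ => 1) fun p x => u p fun q =>
      (((((0 : Fin (n + 2)).succAbove q : Fin (n + 2)) : ℕ) : ZMod N) -
        (((0 : Fin (n + 2)) : ℕ) : ZMod N)) * x q.succ with hU
  have hU1 : ∀ i y, |U i y| ≤ 1 := fun i y => by
    cases i using Fin.cases with
    | zero => simp [hU]
    | succ p =>
      simp only [hU, Fin.cases_succ]
      rw [abs_of_nonneg ((hu p).1 _).1]
      exact ((hu p).1 _).2
  have hUi : ∀ i, IndepOf i (U i) := fun i => by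
    cases i using Fin.cases with
    | zero => simp [hU, IndepOf]
    | succ p =>
      intro x a
      simp only [hU, Fin.cases_succ]
      refine (hu p).2.congr fun q hq => ?_
      rw [update_of_ne fun e => hq (Fin.succ_inj.1 e)]
  have hU0 : IndepOf (0 : Fin (n + 2)) fun x => ∏ i ∈ univ.erase 0, U i x := by
    refine IndepOf.prod _ fun i hi => ?_
    obtain ⟨p, rfl⟩ := Fin.exists_succ_eq.2 (ne_of_mem_erase hi)
    intro x a
    simp only [hU, Fin.cases_succ, update_of_ne (Fin.succ_ne_zero _)]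
  have hb := hforms (ZMod N) _ (fun i => indepOf_apForm i ν) hlf (fun _ _ => false)
    (fun i c => if c then fun _ => 1 else U i) 0
    (fun i c _ => by cases c; exacts [hUi i, fun _ _ => rfl])
    (fun i c _ y => by cases c <;> simp [majorant, hU1 i y])
  rw [csAvg_empty (indepOf_apForm 0 ν)] at hb
  simp only [Bool.false_eq_true, if_false, if_true] at hb
  have h1 : ∀ x : Fin (n + 2) → ZMod N,
      marg (0 : Fin (n + 2)) (fun _ _ => (1 : ℝ)) x = 1 := fun x => by
    simp [marg]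
  simp only [h1, mul_one] at hb
  have hA : IndepOf (0 : Fin (n + 2)) fun x => ν (apForm 0 x) - 1 :=
    indepOf_apForm 0 fun z => ν z - 1
  rw [expect_mul_marg hA, expect_eq_embedForm hN (hA.mul hU0) 0] at hb
  refine le_of_eq_of_le (congrArg _ (expect_congr rfl fun y _ => ?_)) hb
  rw [apForm_embedForm hN, prod_erase_eq_succAbove 0 fun i => U i (embedForm 0 0 y)]
  refine congrArg _ (prod_congr rfl fun p _ => ?_)
  simp only [hU, Fin.succAbove_zero, Fin.cases_succ, embedForm]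
  refine congrArg _ (funext fun q => ?_)
  have e := Fin.insertNth_apply_succAbove (α := fun _ => ZMod N) (0 : Fin (n + 2)) (0 : ZMod N)
    (fun p => ((((Fin.succ p : Fin (n + 2)) : ℕ) : ZMod N) -
      (((0 : Fin (n + 2)) : ℕ) : ZMod N))⁻¹ * y p) q
  rw [Fin.succAbove_zero] at e
  have hne := natCast_sub_ne_zero (N := N) hN (Fin.succ_ne_zero q)
  rw [e, ← mul_assoc, mul_inv_cancel₀ hne, one_mul]

end Prime

/-- Szemerédi's theorem for bounded functions on `ZMod N`. -/
lemma exists_dense_progressions (k : ℕ) {δ : ℝ} (hδ : 0 < δ) : ∃ c : ℝ, 0 < c ∧ ∃ N₀ : ℕ,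
    ∀ (N : ℕ) [NeZero N], N₀ ≤ N → ∀ f : ZMod N → ℝ, (∀ z, 0 ≤ f z ∧ f z ≤ 1) →
      δ ≤ 𝔼 z, f z → c ≤ 𝔼 a, 𝔼 d, ∏ j : Fin k, f (a + ((j : ℕ) : ZMod N) * d) := by
  classical
  obtain ⟨c, hc, N₁, hN₁⟩ := FA.MultipleRecurrence.exists_many_progressions k (half_pos hδ)
  refine ⟨c * (δ / 2) ^ k, by positivity, N₁, fun N _ hN f hf hδf => ?_⟩
  set B := univ.filter fun z : ZMod N => δ / 2 ≤ f z with hB
  set A := B.image ZMod.val with hA
  have hNR : (0 : ℝ) < N := by exact_mod_cast NeZero.pos N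
  have hcard : δ / 2 * N ≤ #A := by
    rw [hA, card_image_of_injective _ (ZMod.val_injective N)]
    have h1 : ∑ z, f z ≤ ∑ z : ZMod N, ((if z ∈ B then (1 : ℝ) else 0) + δ / 2) := by
      refine sum_le_sum fun z _ => ?_
      simp only [hB, mem_filter, mem_univ, true_and]
      split_ifs with hz
      · linarith [(hf z).2]
      · linarith [not_le.1 hz]
    rw [sum_add_distrib, sum_boole, sum_const, card_univ, ZMod.card, nsmul_eq_mul,
      filter_univ_mem] at h1
    rw [Fintype.expect_eq_sum_div_card, ZMod.card, le_div_iff₀ hNR] at hδf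
    linarith
  have hAr : A ⊆ range N := fun a ha => by
    obtain ⟨z, -, rfl⟩ := mem_image.1 ha
    exact mem_range.2 (ZMod.val_lt z)
  have hP := hN₁ N hN A hAr hcard
  set P := ((range N) ×ˢ (Icc 1 N)).filter fun p => ∀ i < k + 2, p.1 + i * p.2 ∈ A with hPdef
  set Q : ZMod N × ZMod N → ℝ :=
    fun q => ∏ j : Fin k, f (q.1 + ((j : ℕ) : ZMod N) * q.2) with hQ
  have hinj : Set.InjOn (fun p : ℕ × ℕ => ((p.1 : ZMod N), (p.2 : ZMod N))) P := by
    intro p hp q hq e
    simp only [hPdef, coe_filter, Set.mem_setOf_eq, mem_product, mem_range, mem_Icc] at hp hq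
    simp only [Prod.mk.injEq, ZMod.natCast_eq_natCast_iff] at e
    refine Prod.ext (e.1.eq_of_lt_of_lt hp.1.1 hq.1.1) ?_
    obtain ⟨a, ha⟩ : ∃ a, p.2 = a + 1 := ⟨p.2 - 1, by omega⟩
    obtain ⟨b, hb⟩ : ∃ b, q.2 = b + 1 := ⟨q.2 - 1, by omega⟩
    rw [ha, hb] at e
    rw [ha, hb, (Nat.ModEq.add_right_cancel' 1 e.2).eq_of_lt_of_lt (by omega) (by omega)]
  have hlow : ∀ p ∈ P, (δ / 2) ^ k ≤ Q ((p.1 : ZMod N), (p.2 : ZMod N)) := fun p hp => by
    rw [hQ]
    have hmem := (mem_filter.1 hp).2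
    calc (δ / 2) ^ k = ∏ _j : Fin k, δ / 2 := by rw [prod_const, card_univ, Fintype.card_fin]
      _ ≤ _ := prod_le_prod (fun _ _ => by positivity) fun j _ => by
        obtain ⟨z, hz, hzv⟩ := mem_image.1 (hmem j (by omega))
        have e : ((p.1 : ZMod N) + ((j : ℕ) : ZMod N) * (p.2 : ZMod N)) = z := by
          have := congrArg (Nat.cast : ℕ → ZMod N) hzv
          rw [ZMod.natCast_zmod_val, Nat.cast_add, Nat.cast_mul] at this
          exact this.symm
        rw [e]
        exact (mem_filter.1 hz).2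
  have hsum : (#P : ℝ) * (δ / 2) ^ k ≤ ∑ q, Q q := by
    rw [← nsmul_eq_mul]
    refine (card_nsmul_le_sum _ _ _ hlow).trans ?_
    rw [← sum_image hinj]
    exact sum_le_sum_of_subset_of_nonneg (subset_univ _) fun q _ _ =>
      prod_nonneg fun j _ => (hf _).1
  have e : 𝔼 a, 𝔼 d, ∏ j : Fin k, f (a + ((j : ℕ) : ZMod N) * d) = 𝔼 q, Q q := by
    rw [← univ_product_univ, expect_product]
  rw [e, Fintype.expect_eq_sum_div_card, Fintype.card_prod, ZMod.card, Nat.cast_mul,
    le_div_iff₀ (by positivity)]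
  calc c * (δ / 2) ^ k * ((N : ℝ) * N) = c * (N : ℝ) ^ 2 * (δ / 2) ^ k := by ring
    _ ≤ #P * (δ / 2) ^ k := mul_le_mul_of_nonneg_right hP (by positivity)
    _ ≤ _ := hsum

/-- **The relative Szemerédi theorem.** -/
theorem exists_relative_szemeredi (k : ℕ) (hk : 2 ≤ k) {δ : ℝ} (hδ : 0 < δ) :
    ∃ η : ℝ, 0 < η ∧ ∃ c : ℝ, 0 < c ∧ ∃ N₀ : ℕ, ∀ (N : ℕ) [NeZero N], N.Prime → N₀ ≤ N →
      ∀ ν f : ZMod N → ℝ, APFormsCond k η ν → (∀ z, 0 ≤ f z ∧ f z ≤ ν z) → δ ≤ 𝔼 z, f z →
        c ≤ 𝔼 a, 𝔼 d, ∏ j : Fin k, f (a + ((j : ℕ) : ZMod N) * d) := by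
  obtain ⟨n, rfl⟩ : ∃ n, k = n + 2 := ⟨k - 2, by omega⟩
  obtain ⟨c, hc, N₁, hdense⟩ := exists_dense_progressions (n + 2) (half_pos hδ)
  obtain ⟨ε, η₁, hε, hη₁, hcount⟩ := exists_counting_bound (n + 2) (c / 2) (by positivity)
  obtain ⟨θ, hθ, hmodel⟩ := exists_dense_model n (min ε (δ / 2)) (by positivity)
  obtain ⟨η₂, hη₂, hunif⟩ := exists_majorant_uniform n hθ
  refine ⟨min η₁ η₂, lt_min hη₁ hη₂, c / 2, by positivity, max N₁ (n + 2),
    fun N _ hp hN ν f hlf hf hδf => ?_⟩
  have : Fact N.Prime := ⟨hp⟩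
  have hNn : n + 1 < N := by omega
  obtain ⟨f', hf', hclose⟩ := hmodel (ZMod N) ν f hf
    (hunif N hNn ν (fun z => (hf z).1.trans (hf z).2) (hlf.mono (min_le_right _ _)))
  have htop := hclose BoolTests.top.real fun i =>
    ⟨fun y => by simp [BoolTests.real, BoolTests.top], fun y a => rfl⟩
  rw [← expect_mul_fibreAvg] at htop
  simp only [fibreAvg_top, mul_one, expect_sub_distrib] at htop
  have hδ' : δ / 2 ≤ 𝔼 z, f' z := by
    linarith [(abs_le.1 htop).2, min_le_right ε (δ / 2)]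
  have h1 := hdense N (by omega) f' hf' hδ'
  have h2 := hcount (ZMod N) _ (fun j x => f (apForm j x)) (fun j x => f' (apForm j x))
    (fun j => indepOf_apForm j ν) (hlf.mono (min_le_left _ _))
    (fun j => indepOf_apForm j f) (fun j => indepOf_apForm j f') (fun j x => hf _)
    (fun j x => hf' _)
    fun j => (cutClose_of_testPairing hNn hclose j).mono (min_le_left _ _)
  have e : ∀ F : ZMod N → ℝ, 𝔼 x : Fin (n + 2) → ZMod N, ∏ j, F (apForm j x) =
      𝔼 a, 𝔼 d, ∏ j : Fin (n + 2), F (a + ((j : ℕ) : ZMod N) * d) := fun F => by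
    simp only [apForm_eq_add_mul]
    exact expect_pair_eq fun a d => ∏ j : Fin (n + 2), F (a + ((j : ℕ) : ZMod N) * d)
  rw [e, e] at h2
  linarith [(abs_le.1 h2).1]

end FA.GreenTao
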