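import Fermat.Agent.GreenTao.Majorant
import Fermat.Agent.GreenTao.RelativeSzemeredi

/-!
# The majorant satisfies the linear forms condition

`tupleMajorantMod` is a product of shifted majorants on the residues modulo a large prime `N`,
read in `[0, N)`; a tuple of shifts is allowed since parallel forms never share a large prime.
Averages
of translates of boxes of side `√N` reduce the linear forms condition to boxes; translates on
which a form wraps around are few, and there the majorant is bounded by three translated ones.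
-/

set_option autoImplicit false

namespace FA.GreenTao

open Finset Function
open scoped BigOperators

/-- The product of shifted majorants, on `ZMod N`. -/
noncomputable def tupleMajorantMod {N K : ℕ} (W w R : ℕ) (b : Fin K → ℤ) (z : ZMod N) : ℝ :=
  ∏ i, majorantZ W w R (b i) ((z.val : ℕ) : ℤ)

variable {N : ℕ} [NeZero N] {ι J : Type*} [Fintype ι] [DecidableEq ι] [Fintype J]

lemma expect_linear_form [Fact N.Prime] (F : ZMod N → ℝ) (a : ι → ZMod N) {i₀ : ι}
    (h : a i₀ ≠ 0) : 𝔼 x : ι → ZMod N, F (∑ i, a i * x i) = 𝔼 y, F y := by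
  rw [expect_update i₀]
  refine (expect_congr rfl fun x _ => ?_).trans (Fintype.expect_const _)
  refine Fintype.expect_equiv ((Equiv.mulLeft₀ (a i₀) h).trans
    (Equiv.addRight ((∑ i, a i * x i) - a i₀ * x i₀))) _ _ fun b => congrArg F ?_
  rw [sum_mul_update]
  change _ = a i₀ * b + ((∑ i, a i * x i) - a i₀ * x i₀)
  ring

lemma expect_wrap_le (Δ : ℕ) :
    (𝔼 y : ZMod N, if y.val < Δ ∨ N ≤ y.val + Δ then (1 : ℝ) else 0) ≤ 2 * Δ / N := by
  rw [Fintype.expect_eq_sum_div_card, ZMod.card, sum_boole]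
  refine div_le_div_of_nonneg_right ?_ (Nat.cast_nonneg _)
  have h : #(univ.filter fun y : ZMod N => y.val < Δ ∨ N ≤ y.val + Δ) ≤
      #(range Δ ∪ Ico (N - Δ) N) := by
    refine card_le_card_of_injOn ZMod.val (fun y hy => ?_) (ZMod.val_injective N).injOn
    simp only [coe_filter, mem_univ, true_and, Set.mem_setOf_eq] at hy
    simp only [mem_coe, mem_union, mem_range, mem_Ico]
    have := ZMod.val_lt y
    omega
  have h2 : #(range Δ ∪ Ico (N - Δ) N) ≤ 2 * Δ := (card_union_le _ _).trans (by simp; omega)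
  exact_mod_cast h.trans h2

/-- The wrapped value lies among three translates. -/
lemma emod_mem_translates {n v : ℤ} (h1 : -n ≤ v) (h2 : v < 2 * n) :
    ∃ e ∈ ({-1, 0, 1} : Finset ℤ), v % n = v + e * n := by
  rcases lt_or_ge v 0 with h | h
  · exact ⟨1, by simp, by rw [← Int.add_emod_right, Int.emod_eq_of_lt (by omega) (by omega)]; ring⟩
  rcases lt_or_ge v n with h' | h'
  · exact ⟨0, by simp, by rw [Int.emod_eq_of_lt h h']; ring⟩
  · refine ⟨-1, by simp, ?_⟩
    rw [← Int.sub_emod_right, Int.emod_eq_of_lt (by omega) (by omega)]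
    ring

variable [DecidableEq J]

/-- From boxes to `ZMod N`, for a nonnegative function read in `[0, N)`. -/
lemma abs_expect_periodised_sub_one_le [Fact N.Prime] {L D : ℕ} [NeZero L] (ν : ℤ → ℝ)
    (hν0 : ∀ n, 0 ≤ ν n) (a : J → ι → ℤ) (hsingle : ∀ j, ∃ i, a j i ≠ 0 ∧ (a j i).natAbs < N)
    (hD : ∀ j, ∑ i, (a j i).natAbs ≤ D) (hDL : D * L ≤ N) {η₀ : ℝ} (hη₀ : η₀ ≤ 1)
    (hbox : ∀ c : J → ℤ,
      |(𝔼 z : ι → Fin L, ∏ j, ν (affineForm a c j (boxPt z))) - 1| ≤ η₀) :
    |(𝔼 x : ι → ZMod N, ∏ j, ν (((∑ i, (a j i : ZMod N) * x i).val : ℕ) : ℤ)) - 1| ≤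
      η₀ + Fintype.card J * (2 * (D * L : ℕ) / N) * (2 * 3 ^ Fintype.card J + 1) := by
  set m := Fintype.card J with hm
  set Δ := D * L with hΔ
  have hη0 : 0 ≤ η₀ := (abs_nonneg _).trans (hbox fun _ => 0)
  set c : (ι → ZMod N) → J → ℤ := fun x j => (((∑ i, (a j i : ZMod N) * x i).val : ℕ) : ℤ) with hc
  set H : (ι → ZMod N) → ℝ :=
    fun x => 𝔼 z : ι → Fin L, ∏ j, ν (affineForm a (c x) j (boxPt z) % (N : ℤ)) with hH
  have hshift : (𝔼 x : ι → ZMod N, ∏ j, ν (((∑ i, (a j i : ZMod N) * x i).val : ℕ) : ℤ)) =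
      𝔼 x, H x := by
    rw [← Fintype.expect_const (ι := ι → Fin L)
      (𝔼 x : ι → ZMod N, ∏ j, ν (((∑ i, (a j i : ZMod N) * x i).val : ℕ) : ℤ))]
    simp only [hH]
    rw [expect_comm (s := (univ : Finset (ι → ZMod N)))]
    refine expect_congr rfl fun z _ => ?_
    refine (Fintype.expect_equiv (Equiv.addRight fun i => ((z i : ℕ) : ZMod N)) _ _
      fun x => ?_).symm
    refine prod_congr rfl fun j _ => ?_
    refine congrArg ν ?_
    rw [← ZMod.val_intCast]
    refine congrArg (fun t : ZMod N => ((t.val : ℕ) : ℤ)) ?_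
    simp only [affineForm, hc, boxPt, Equiv.coe_addRight, Pi.add_apply, mul_add, sum_add_distrib,
      Int.cast_add, Int.cast_sum, Int.cast_mul, Int.cast_natCast, ZMod.natCast_zmod_val]
    ring
  set bad : J → ZMod N → ℝ := fun _ y => if y.val < Δ ∨ N ≤ y.val + Δ then 1 else 0 with hbad
  have habs : ∀ (j : J) (z : ι → Fin L), |∑ i, a j i * boxPt z i| ≤ (Δ : ℤ) := by
    intro j z
    calc |∑ i, a j i * boxPt z i| ≤ ∑ i, |a j i * boxPt z i| := abs_sum_le_sum_abs _ _
      _ ≤ ∑ i, ((a j i).natAbs : ℤ) * L := by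
          refine sum_le_sum fun i _ => ?_
          rw [abs_mul, Int.natCast_natAbs]
          refine mul_le_mul_of_nonneg_left ?_ (abs_nonneg _)
          simp only [boxPt, Nat.abs_cast]
          exact_mod_cast (z i).2.le
      _ ≤ _ := by
          rw [← sum_mul, hΔ, Nat.cast_mul]
          refine mul_le_mul_of_nonneg_right ?_ (Int.natCast_nonneg L)
          exact_mod_cast hD j
  have hpt : ∀ x, |H x - 1| ≤
      η₀ + (∑ j, bad j (∑ i, (a j i : ZMod N) * x i)) * (2 * 3 ^ m + 1) := by
    intro x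
    have hbad0 : ∀ j, 0 ≤ bad j (∑ i, (a j i : ZMod N) * x i) := fun j => by
      simp only [hbad]; split_ifs <;> norm_num
    by_cases hgood : ∀ j, Δ ≤ (∑ i, (a j i : ZMod N) * x i).val ∧
        (∑ i, (a j i : ZMod N) * x i).val + Δ < N
    · refine le_trans ?_ (le_add_of_nonneg_right
        (mul_nonneg (sum_nonneg fun j _ => hbad0 j) (by positivity)))
      refine le_of_eq_of_le (congrArg (fun t => |t - 1|) ?_) (hbox (c x))
      refine expect_congr rfl fun z _ => prod_congr rfl fun j _ => congrArg ν ?_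
      have := abs_le.1 (habs j z)
      obtain ⟨h1, h2⟩ := hgood j
      simp only [affineForm, hc]
      exact Int.emod_eq_of_lt (by omega) (by omega)
    · push Not at hgood
      obtain ⟨j₁, hj₁⟩ := hgood
      have h1 : 1 ≤ ∑ j, bad j (∑ i, (a j i : ZMod N) * x i) := by
        refine le_trans ?_ (single_le_sum (fun j _ => hbad0 j) (mem_univ j₁))
        simp only [hbad]
        rw [if_pos]
        omega
      have hHle : H x ≤ 2 * 3 ^ m := by
        calc H x ≤ 𝔼 z : ι → Fin L, ∏ j, ∑ e ∈ ({-1, 0, 1} : Finset ℤ),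
              ν (affineForm a (fun j => c x j + e * N) j (boxPt z)) := by
              refine expect_le_expect fun z _ =>
                prod_le_prod (fun j _ => hν0 _) fun j _ => ?_
              have := abs_le.1 (habs j z)
              have h3 := ZMod.val_lt (∑ i, (a j i : ZMod N) * x i)
              obtain ⟨e, he, hev⟩ := emod_mem_translates (n := (N : ℤ))
                (v := affineForm a (c x) j (boxPt z)) (by simp only [affineForm, hc]; omega)
                (by simp only [affineForm, hc]; omega)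
              refine le_of_eq_of_le ?_ (single_le_sum (fun e _ => hν0 _) he)
              rw [hev]
              simp only [affineForm]
              exact congrArg ν (by ring)
          _ = ∑ e ∈ Fintype.piFinset (fun _ : J => ({-1, 0, 1} : Finset ℤ)),
              𝔼 z : ι → Fin L,
                ∏ j, ν (affineForm a (fun j => c x j + e j * N) j (boxPt z)) := by
              simp only [prod_univ_sum, expect_sum_comm]
              rfl
          _ ≤ _ := by
              refine (sum_le_card_nsmul _ _ 2 fun e _ => ?_).trans (le_of_eq ?_)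
              · linarith [(abs_le.1 (hbox fun j => c x j + e j * N)).2]
              · rw [Fintype.card_piFinset, prod_const, card_univ, ← hm, nsmul_eq_mul,
                  show #({-1, 0, 1} : Finset ℤ) = 3 from rfl]
                push_cast
                ring
      have hH0 : 0 ≤ H x := expect_nonneg fun z _ => prod_nonneg fun j _ => hν0 _
      have h3 : (1 : ℝ) * (2 * 3 ^ m + 1) ≤
          (∑ j, bad j (∑ i, (a j i : ZMod N) * x i)) * (2 * 3 ^ m + 1) :=
        mul_le_mul_of_nonneg_right h1 (by positivity)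
      have h4 : (0 : ℝ) ≤ 2 * 3 ^ m := by positivity
      rw [abs_le]
      constructor <;> linarith
  have hsub : (𝔼 x, H x) - 1 = 𝔼 x, (H x - 1) := by
    rw [expect_sub_distrib, Fintype.expect_const]
  rw [hshift, hsub]
  refine (abs_expect_le _ _).trans ((expect_le_expect fun x _ => hpt x).trans ?_)
  rw [expect_add_distrib, Fintype.expect_const, ← expect_mul, expect_sum_comm]
  gcongr
  refine (sum_le_card_nsmul _ _ _ fun j _ => ?_).trans_eq (nsmul_eq_mul _ _)
  obtain ⟨i₀, h0, hi₀⟩ := hsingle j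
  rw [expect_linear_form (bad j) (fun i => (a j i : ZMod N)) (i₀ := i₀) fun e => ?_]
  · exact expect_wrap_le Δ
  · have := Nat.le_of_dvd (Int.natAbs_pos.2 h0)
      (Int.natCast_dvd.1 ((ZMod.intCast_zmod_eq_zero_iff_dvd _ _).1 e))
    omega

section ProgressionForms

variable {k : ℕ}

/-- The coefficients of the forms in the linear forms condition for progressions. -/
def formCoeff (q : Fin k × (Fin k → Bool)) (p : Fin k × Bool) : ℤ :=
  if q.2 p.1 = p.2 then ((p.1 : ℕ) : ℤ) - ((q.1 : ℕ) : ℤ) else 0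

lemma natAbs_formCoeff_le (q : Fin k × (Fin k → Bool)) (p : Fin k × Bool) :
    (formCoeff q p).natAbs ≤ k := by
  unfold formCoeff
  split_ifs
  · omega
  · simp

lemma sum_formCoeff_mul {R : Type*} [CommRing R] (q : Fin k × (Fin k → Bool))
    (x : Fin k × Bool → R) :
    ∑ p, (formCoeff q p : R) * x p =
      ∑ i : Fin k, (((i : ℕ) : R) - ((q.1 : ℕ) : R)) * x (i, q.2 i) := by
  rw [Fintype.sum_prod_type]
  refine sum_congr rfl fun i _ => ?_
  rw [sum_eq_single_of_mem (q.2 i) (mem_univ _)]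
  · simp [formCoeff]
  · intro c _ hc
    simp [formCoeff, Ne.symm hc]

lemma exists_formCoeff_ne_zero (hk : 2 ≤ k) (q : Fin k × (Fin k → Bool)) :
    ∃ p, formCoeff q p ≠ 0 := by
  obtain ⟨i, hi⟩ := Fintype.exists_ne_of_one_lt_card (by simp; omega) q.1
  refine ⟨(i, q.2 i), ?_⟩
  simp only [formCoeff, if_true, ne_eq, sub_eq_zero, Nat.cast_inj]
  exact fun e => hi (Fin.ext e)

lemma exists_formCoeff_det_ne_zero {q q' : Fin k × (Fin k → Bool)} (hne : q ≠ q')
    (hq : q.2 q.1 = false) (hq' : q'.2 q'.1 = false) :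
    ∃ p p', formCoeff q p * formCoeff q' p' - formCoeff q p' * formCoeff q' p ≠ 0 := by
  obtain ⟨j, ω⟩ := q
  obtain ⟨j', ω'⟩ := q'
  rcases eq_or_ne j j' with rfl | hj
  · obtain ⟨i, hi⟩ : ∃ i, ω i ≠ ω' i := by
      by_contra h
      push Not at h
      exact hne (by rw [funext h])
    refine ⟨(i, ω i), (i, ω' i), ?_⟩
    have hij : i ≠ j := by rintro rfl; simp_all
    have : ((i : ℕ) : ℤ) - ((j : ℕ) : ℤ) ≠ 0 := by
      rw [sub_ne_zero, ne_eq, Nat.cast_inj]
      exact fun e => hij (Fin.ext e)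
    simp [formCoeff, hi, Ne.symm hi, this]
  · refine ⟨(j', ω j'), (j, ω' j), ?_⟩
    have : ((j' : ℕ) : ℤ) - ((j : ℕ) : ℤ) ≠ 0 := by
      rw [sub_ne_zero, ne_eq, Nat.cast_inj]
      exact fun e => hj (Fin.ext e.symm)
    simp only [formCoeff, if_true, sub_self, ite_self, mul_zero, zero_mul, sub_zero, ne_eq,
      mul_eq_zero, not_or]
    exact ⟨this, fun e => this (by omega)⟩

end ProgressionForms

/-- **Products of shifted majorants satisfy the linear forms condition.** -/
theorem exists_tuple_forms (k : ℕ) (hk : 2 ≤ k) (K : ℕ) {η : ℝ} (hη : 0 < η) :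
    ∃ w₀ N₀ : ℕ, 1 ≤ w₀ ∧ ∀ (N : ℕ) [NeZero N] (W w R q : ℕ) (b : Fin K → ℤ), N.Prime → N₀ ≤ N →
      w₀ ≤ w → w < N → (∀ p : ℕ, p.Prime → p ∣ W → p ≤ w) →
      (∀ i i', i ≠ i' → b i ≠ b i' ∧ (b i - b i').natAbs ≤ w) → 1 ≤ R →
      20 * (k * 2 ^ k * K) ≤ q → R ^ q ≤ N →
      APFormsCond k η (tupleMajorantMod (N := N) W w R b) := by
  set M := k * 2 ^ k with hM
  set C : ℝ := 32 ^ (M * K) with hC
  set E := min η 1 / 3 with hE
  set B : ℝ := 2 * (2 * (k : ℝ)) ^ 2 / E ^ 2 + M * (2 * (2 * k * k)) * (2 * 3 ^ M + 1) / E with hB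
  obtain ⟨w₁, hw₁⟩ := exists_nat_ge (2 * C / E + C)
  obtain ⟨L₀, hL₀⟩ := exists_nat_ge B
  refine ⟨max (2 * k * k + 1) w₁, (max L₀ (2 * k * k + 1)) ^ 2, by omega,
    fun N _ W w R q b hp hN hw hwN hW hb hR hq hRq e => ?_⟩
  have : Fact N.Prime := ⟨hp⟩
  have hE0 : 0 < E := by positivity
  set L := Nat.sqrt N with hL
  have hLge : max L₀ (2 * k * k + 1) ≤ L := Nat.le_sqrt'.2 hN
  have : NeZero L := ⟨by omega⟩
  have hL0 : (0 : ℝ) < L := by exact_mod_cast (show 0 < L by omega)
  have hBL : B ≤ L := hL₀.trans (by exact_mod_cast le_trans (le_max_left _ _) hLge)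
  set S := {q : Fin k × (Fin k → Bool) // q.2 q.1 = false ∧ e q.1 q.2 = true}
  have hcard : Fintype.card S ≤ M := (Fintype.card_subtype_le _).trans (by simp [hM])
  have hcard' : Fintype.card (S × Fin K) ≤ M * K := by
    rw [Fintype.card_prod, Fintype.card_fin]
    exact Nat.mul_le_mul_right K hcard
  have hkk : 2 * k * k + 1 ≤ w := (le_max_left _ w₁).trans hw
  have hw0 : (0 : ℝ) < w := by exact_mod_cast (show 0 < w by omega)
  have hexp : Real.exp (32 ^ Fintype.card (S × Fin K) / w) - 1 ≤ E := by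
    have hle : (32 : ℝ) ^ Fintype.card (S × Fin K) / w ≤ C / w := by
      rw [hC]; gcongr; norm_num
    have hww : 2 * C / E + C ≤ w :=
      hw₁.trans (by exact_mod_cast (le_max_right (2 * k * k + 1) w₁).trans hw)
    have hCE : 0 ≤ 2 * C / E := by positivity
    have h1 : C / w ≤ 1 := by rw [div_le_one hw0]; linarith
    have h2 : 2 * (C / w) ≤ E := by
      rw [← mul_div_assoc, div_le_iff₀ hw0, ← div_le_iff₀' hE0]
      linarith [show 0 ≤ C by positivity]
    have hx : |C / w| ≤ 1 := by rw [abs_of_nonneg (by positivity)]; exact h1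
    have h3 := Real.abs_exp_sub_one_le hx
    rw [abs_of_nonneg (show (0 : ℝ) ≤ C / w by positivity)] at h3
    linarith [Real.exp_le_exp.2 hle, (abs_le.1 h3).2]
  set X := (R : ℝ) ^ (5 * Fintype.card (S × Fin K)) with hX
  have hX0 : 0 ≤ X := by positivity
  have hXL : X ^ 2 ≤ 2 * L := by
    have h1 : X ^ 4 ≤ ((2 * L : ℕ) : ℝ) ^ 2 := by
      have h2 : R ^ (5 * Fintype.card (S × Fin K) * 4) ≤ (2 * L) ^ 2 := calc
        R ^ (5 * Fintype.card (S × Fin K) * 4) ≤ R ^ q :=
          Nat.pow_le_pow_right hR (by omega)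
        _ ≤ N := hRq
        _ ≤ (L + 1) ^ 2 := (Nat.lt_succ_sqrt' N).le
        _ ≤ _ := Nat.pow_le_pow_left (by omega) 2
      rw [hX, ← pow_mul]
      exact_mod_cast h2
    push_cast at h1
    exact (pow_le_pow_iff_left₀ (by positivity) (by positivity) two_ne_zero).1
      (by rw [← pow_mul]; exact h1)
  have hbox : (Fintype.card (Fin k × Bool) : ℝ) * X / L ≤ E := by
    refine (pow_le_pow_iff_left₀ (by positivity) hE0.le two_ne_zero).1 ?_
    have hcT : (Fintype.card (Fin k × Bool) : ℝ) = 2 * k := by simp [mul_comm]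
    rw [hcT, div_pow, mul_pow, div_le_iff₀ (by positivity)]
    have h3 : 2 * (2 * (k : ℝ)) ^ 2 / E ^ 2 ≤ L :=
      le_trans (by rw [hB]; exact le_add_of_nonneg_right (by positivity)) hBL
    rw [div_le_iff₀ (by positivity)] at h3
    calc (2 * (k : ℝ)) ^ 2 * X ^ 2 ≤ (2 * (k : ℝ)) ^ 2 * (2 * (L : ℝ)) := by gcongr
      _ = 2 * (2 * (k : ℝ)) ^ 2 * (L : ℝ) := by ring
      _ ≤ ((L : ℝ) * E ^ 2) * L := by gcongr
      _ = E ^ 2 * L ^ 2 := by ring
  have hmain := abs_expect_periodised_sub_one_le (N := N) (L := L) (ι := Fin k × Bool) (J := S)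
    (D := 2 * k * k) (η₀ := 2 * E) (fun n => ∏ i, majorantZ W w R (b i) n)
    (fun n => prod_nonneg fun i _ => majorantZ_nonneg hR _ _)
    (fun q => formCoeff q.1)
    (fun q => by
      obtain ⟨p, hp⟩ := exists_formCoeff_ne_zero hk q.1
      exact ⟨p, hp, lt_of_le_of_lt ((natAbs_formCoeff_le _ _).trans (by nlinarith)) hwN⟩)
    (fun q => (sum_le_card_nsmul _ _ k fun p _ => natAbs_formCoeff_le _ _).trans
      (by simp [mul_comm, mul_assoc]))
    ((Nat.mul_le_mul_right L (le_trans (by omega) hLge)).trans (Nat.sqrt_le N))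
    (by linarith [min_le_right η 1]) (fun c => ?_)
  · refine le_trans (le_of_eq (congrArg (fun t => |t - 1|) (expect_congr rfl fun x _ => ?_)))
      (hmain.trans ?_)
    · simp only [sum_formCoeff_mul]
      rw [← Finset.prod_subtype (univ.filter fun q : Fin k × (Fin k → Bool) =>
        q.2 q.1 = false ∧ e q.1 q.2 = true) (by simp)
        (fun q => ∏ l, majorantZ W w R (b l) (((∑ i : Fin k,
          (((i : ℕ) : ZMod N) - ((q.1 : ℕ) : ZMod N)) * x (i, q.2 i)).val : ℕ) : ℤ)),
        prod_filter, Fintype.prod_prod_type]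
      refine prod_congr rfl fun j _ => ?_
      rw [prod_filter]
      refine prod_congr rfl fun ω _ => ?_
      by_cases h1 : ω j = false <;> by_cases h2 : e j ω = true <;>
        simp [h1, h2, pt, apForm, tupleMajorantMod]
    · have hbad : (Fintype.card S : ℝ) * (2 * ((2 * k * k * L : ℕ) : ℝ) / N) *
          (2 * 3 ^ Fintype.card S + 1) ≤ E := by
        have h1 : (L : ℝ) * L ≤ N := by exact_mod_cast Nat.sqrt_le N
        have hN0 : (0 : ℝ) < N := by exact_mod_cast hp.pos
        have h2 : 2 * ((2 * k * k * L : ℕ) : ℝ) / N ≤ 2 * (2 * k * k) / L := by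
          rw [div_le_div_iff₀ hN0 hL0]
          push_cast
          nlinarith [show (0 : ℝ) ≤ 2 * (2 * k * k) by positivity]
        calc (Fintype.card S : ℝ) * (2 * ((2 * k * k * L : ℕ) : ℝ) / N) *
              (2 * 3 ^ Fintype.card S + 1)
            ≤ M * (2 * (2 * k * k) / L) * (2 * 3 ^ M + 1) := by gcongr; norm_num
          _ = M * (2 * (2 * k * k)) * (2 * 3 ^ M + 1) / L := by ring
          _ ≤ E := by
              rw [div_le_iff₀ hL0, ← div_le_iff₀' hE0]
              refine le_trans ?_ hBL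
              rw [hB]
              exact le_add_of_nonneg_left (by positivity)
      linarith [min_le_left η 1]
  have := abs_expect_majorantShift_sub_one_le (ι := Fin k × Bool) (J := S × Fin K) (L := L) hR
    (by omega : 1 ≤ w) hW (fun p => b p.2) (fun p => formCoeff p.1.1) (fun p => c p.1)
    (fun p => by
      obtain ⟨i, hi⟩ := exists_formCoeff_ne_zero hk p.1.1
      exact ⟨i, hi, (natAbs_formCoeff_le _ _).trans (by nlinarith)⟩)
    (fun p p' hne => by
      rcases eq_or_ne p.1 p'.1 with h1 | h1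
      · have h2 : p.2 ≠ p'.2 := fun h => hne (Prod.ext h1 h)
        exact Or.inr ⟨by rw [h1], by rw [h1], hb _ _ h2⟩
      · obtain ⟨i, i', h⟩ :=
          exists_formCoeff_det_ne_zero (fun h => h1 (Subtype.ext h)) p.1.2.1 p'.1.2.1
        refine Or.inl ⟨i, i', h, le_trans ((Int.natAbs_sub_le _ _).trans ?_) hkk⟩
        rw [Int.natAbs_mul, Int.natAbs_mul]
        have g1 := Nat.mul_le_mul (natAbs_formCoeff_le p.1.1 i) (natAbs_formCoeff_le p'.1.1 i')
        have g2 := Nat.mul_le_mul (natAbs_formCoeff_le p.1.1 i') (natAbs_formCoeff_le p'.1.1 i)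
        linarith)
  simp only [Fintype.prod_prod_type] at this
  refine le_trans (le_of_eq_of_le ?_ this) (by linarith)
  rfl

end FA.GreenTao
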