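import Fermat.Agent.GreenTao.MajorantForms
import Mathlib.Analysis.SpecialFunctions.Log.Basic
import Mathlib.Analysis.SpecialFunctions.Pow.Asymptotics
import Mathlib.NumberTheory.Bertrand
import Mathlib.NumberTheory.Primorial
import Mathlib.Algebra.Order.Ring.Pow

/-!
# Arithmetic progressions in sets of rough tuples

Fix shifts `h i`. A set `S ⊆ [1, x]` of `≫ x / (log x) ^ K` numbers `n`, all of whose shifts
`n + h i` have no prime factor below `x ^ (1 / m)`, contains `≫ x ^ 2 / (log x) ^ (k K)`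
progressions of length `k`: after the `W`-trick it lies below a product of majorants, and the
relative Szemerédi theorem applies.
-/

set_option autoImplicit false

namespace FA.GreenTao

open Finset Function Filter
open scoped BigOperators Topology

lemma prime_of_dvd_primorial {w p : ℕ} (hp : p.Prime) (h : p ∣ primorial w) : p ≤ w := by
  rw [primorial, hp.prime.dvd_finsetProd_iff] at h
  obtain ⟨q, hq, hpq⟩ := h
  obtain ⟨hq1, hq2⟩ := mem_filter.1 hq
  rw [(Nat.prime_dvd_prime_iff_eq hp hq2).1 hpq]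
  exact Nat.lt_succ_iff.1 (mem_range.1 hq1)

lemma prod_div_mul_totient_primorial (w : ℕ) :
    (∏ p ∈ (range (w + 1)).filter Nat.Prime, (p : ℝ) / (p - 1)) * (primorial w).totient =
      primorial w := by
  set Q := (range (w + 1)).filter Nat.Prime with hQ
  have hQp : ∀ p ∈ Q, p.Prime := fun p hp => (mem_filter.1 hp).2
  have hW : primorial w = ∏ p ∈ Q, p := rfl
  have h1 := Nat.totient_mul_prod_primeFactors (primorial w)
  have hpf : (primorial w).primeFactors = Q := by rw [hW]; exact Nat.primeFactors_prod hQp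
  rw [hpf, ← hW, mul_comm] at h1
  have h2 : (primorial w).totient = ∏ p ∈ Q, (p - 1) :=
    Nat.eq_of_mul_eq_mul_left (primorial_pos w) h1
  rw [h2, hW, Nat.cast_prod, Nat.cast_prod, ← prod_mul_distrib]
  refine prod_congr rfl fun p hp => ?_
  have h3 : (1 : ℝ) < p := by exact_mod_cast (hQp p hp).one_lt
  rw [Nat.cast_sub (hQp p hp).one_le, Nat.cast_one]
  exact div_mul_cancel₀ _ (by linarith)

/-- A greatest integer with bounded power. -/
lemma exists_level {q N : ℕ} (hq : 2 ≤ q) (hN : 1 ≤ N) :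
    ∃ R, 1 ≤ R ∧ R ^ q ≤ N ∧ Real.log N ≤ q * Real.log (R + 1) := by
  set R := Nat.findGreatest (fun R => R ^ q ≤ N) N with hR
  have hle : R ^ q ≤ N := Nat.findGreatest_spec (P := fun R => R ^ q ≤ N) hN (by simp; omega)
  refine ⟨R, Nat.le_findGreatest hN (by simp; omega), hle, ?_⟩
  have hlt : N ≤ (R + 1) ^ q := by
    by_contra hc
    have h1 : (R + 1) ^ q ≤ N := by omega
    have h2 : R + 1 ≤ N := le_trans (Nat.le_self_pow (by omega) _) h1
    exact Nat.findGreatest_is_greatest (P := fun R => R ^ q ≤ N) (n := N) (k := R + 1)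
      (by omega) h2 h1
  calc Real.log N ≤ Real.log (((R + 1) ^ q : ℕ) : ℝ) :=
        Real.log_le_log (by exact_mod_cast hN) (by exact_mod_cast hlt)
    _ = _ := by push_cast; rw [Real.log_pow]

/-- A progression of residues with small representatives is a progression of integers. -/
lemma eq_of_zmod_progression {N k : ℕ} [NeZero N] (hk : 2 ≤ k) {a d : ZMod N}
    (hsmall : ∀ j < k, k * (a + (j : ZMod N) * d).val < N) (hd : d ≠ 0) :
    ∃ e : ℤ, e ≠ 0 ∧ ∀ j < k, (((a + (j : ZMod N) * d).val : ℕ) : ℤ) = (a.val : ℤ) + j * e := by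
  set n : ℕ → ℕ := fun j => (a + (j : ZMod N) * d).val with hn
  have h0 : n 0 = a.val := by simp [hn]
  refine ⟨(n 1 : ℤ) - a.val, fun he => hd ?_, fun j hj => ?_⟩
  · have : n 1 = a.val := by omega
    have := ZMod.val_injective N this
    simpa using this
  · have hj0 : k * n 0 < N := hsmall 0 (by omega)
    have hj1 : k * n 1 < N := hsmall 1 (by omega)
    have hjj : k * n j < N := hsmall j hj
    have hdvd : (N : ℤ) ∣ ((n j : ℤ) - (a.val + j * ((n 1 : ℤ) - a.val))) := by
      rw [← ZMod.intCast_zmod_eq_zero_iff_dvd]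
      push_cast [hn, ZMod.natCast_zmod_val]
      ring
    have key : ((n j : ℤ) - (a.val + j * ((n 1 : ℤ) - a.val))) = 0 := by
      refine Int.eq_zero_of_abs_lt_dvd hdvd ?_
      rw [abs_lt, ← h0]
      have g0 : ((k * n 0 : ℕ) : ℤ) < N := by exact_mod_cast hj0
      have g1 : ((k * n 1 : ℕ) : ℤ) < N := by exact_mod_cast hj1
      have gj : ((k * n j : ℕ) : ℤ) < N := by exact_mod_cast hjj
      have hjk : (j : ℤ) + 1 ≤ k := by exact_mod_cast hj
      push_cast at g0 g1 gj
      have hk0 : (0 : ℤ) < k := by omega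
      have hj' := Int.natCast_nonneg j
      have hN' : (j : ℤ) * N + N ≤ k * N := by
        linarith [mul_le_mul_of_nonneg_right hjk (Int.natCast_nonneg N)]
      have a0 := mul_le_mul_of_nonneg_left g0.le hj'
      have a1 := mul_le_mul_of_nonneg_left g1.le hj'
      have b0 := mul_nonneg hj' (mul_nonneg hk0.le (Int.natCast_nonneg (n 0)))
      have b1 := mul_nonneg hj' (mul_nonneg hk0.le (Int.natCast_nonneg (n 1)))
      have c0 := mul_nonneg hk0.le (Int.natCast_nonneg (n 0))
      have cj := mul_nonneg hk0.le (Int.natCast_nonneg (n j))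
      constructor <;> refine lt_of_mul_lt_mul_left (a := (k : ℤ)) ?_ hk0.le <;> linarith
    linarith

lemma card_admissible_le (w : ℕ) {K H : ℕ} {h : Fin K → ℕ} (hinj : Injective h)
    (hH : ∀ i, h i ≤ H) :
    (#((range (primorial w)).filter fun b => ∀ i, (b + h i).Coprime (primorial w)) : ℝ) *
        (∏ p ∈ (range (w + 1)).filter Nat.Prime, (p : ℝ) / (p - 1)) ^ K ≤
      (2 ^ K) ^ (H + 1) * primorial w := by
  set Q := (range (w + 1)).filter Nat.Prime with hQ
  have hQp : ∀ p ∈ Q, p.Prime := fun p hp => (mem_filter.1 hp).2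
  have hW : primorial w = ∏ p ∈ Q, p := rfl
  set T : ℕ → Finset ℕ := fun p => (range p).filter fun r => ∀ i, ¬ p ∣ r + h i with hT
  set Bres := (range (primorial w)).filter fun b => ∀ i, (b + h i).Coprime (primorial w) with hB
  have hcard : #Bres ≤ ∏ p ∈ Q, #(T p) := by
    rw [← card_pi]
    refine card_le_card_of_injOn (fun b p _ => b % p) (fun b hb => ?_) fun b hb b' hb' e => ?_
    · simp only [hB, mem_coe, mem_filter, mem_range] at hb
      simp only [mem_coe, Finset.mem_pi]
      intro p hp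
      refine mem_filter.2 ⟨mem_range.2 (Nat.mod_lt _ (hQp p hp).pos), fun i hd => ?_⟩
      refine Nat.not_coprime_of_dvd_of_dvd (hQp p hp).one_lt ?_
        (hW ▸ dvd_prod_of_mem (fun p : ℕ => p) hp) (hb.2 i)
      rwa [Nat.dvd_iff_mod_eq_zero, Nat.add_mod, Nat.mod_mod, ← Nat.add_mod,
        ← Nat.dvd_iff_mod_eq_zero] at hd
    · simp only [hB, mem_coe, mem_filter, mem_range] at hb hb'
      have hd : primorial w ∣ ((b : ℤ) - b').natAbs := by
        rw [hW]
        refine prod_primes_dvd _ (fun p hp => (hQp p hp).prime) fun p hp => ?_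
        rw [← Int.natCast_dvd]
        exact Nat.modEq_iff_dvd.1 (congrFun (congrFun e p) hp).symm
      by_contra hne
      have := Nat.le_of_dvd (by omega) hd
      omega
  have hfac : ∀ p ∈ Q, (#(T p) : ℝ) * ((p : ℝ) / (p - 1)) ^ K ≤
      p * if p ≤ H then (2 : ℝ) ^ K else 1 := by
    intro p hp
    have h2 : (2 : ℝ) ≤ p := by exact_mod_cast (hQp p hp).two_le
    have hnn : 0 ≤ (p : ℝ) / (p - 1) := div_nonneg (by linarith) (by linarith)
    split_ifs with hpH
    · refine mul_le_mul ?_ (pow_le_pow_left₀ hnn ?_ K) (pow_nonneg hnn K) (by linarith)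
      · exact_mod_cast (card_filter_le _ _).trans (card_range p).le
      · rw [div_le_iff₀ (by linarith)]
        linarith
    · set F := univ.image fun i => (p - h i) % p with hF
      have hFc : #F = K := by
        rw [hF, card_image_of_injective _ fun i i' e => ?_, card_univ, Fintype.card_fin]
        have key : ∀ a ≤ H, (p - a) % p = if a = 0 then 0 else p - a := fun a ha => by
          split_ifs with h0
          · simp [h0]
          · exact Nat.mod_eq_of_lt (by omega)
        have h1 := hH i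
        have h1' := hH i'
        simp only [key _ h1, key _ h1'] at e
        apply hinj
        split_ifs at e <;> omega
      have hFp : F ⊆ range p := fun r hr => by
        obtain ⟨i, -, rfl⟩ := mem_image.1 hr
        exact mem_range.2 (Nat.mod_lt _ (hQp p hp).pos)
      have hKp : K ≤ p := by simpa [hFc] using card_le_card hFp
      have hle : #(T p) ≤ p - K := by
        refine (card_le_card (t := range p \ F) fun r hr => ?_).trans_eq
          (by rw [card_sdiff_of_subset hFp, card_range, hFc])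
        simp only [hT, mem_filter] at hr
        refine mem_sdiff.2 ⟨hr.1, fun hrF => ?_⟩
        obtain ⟨i, -, rfl⟩ := mem_image.1 hrF
        refine hr.2 i ?_
        have := hH i
        rw [Nat.dvd_iff_mod_eq_zero, Nat.mod_add_mod, Nat.sub_add_cancel (by omega), Nat.mod_self]
      have hle' : (#(T p) : ℝ) ≤ p - K := by
        rw [← Nat.cast_sub hKp]
        exact_mod_cast hle
      have hb := one_add_mul_le_pow (a := -(p : ℝ)⁻¹)
        (by linarith [inv_le_one_of_one_le₀ (show (1 : ℝ) ≤ p by linarith)]) K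
      have e : (1 + -(p : ℝ)⁻¹) = ((p : ℝ) / (p - 1))⁻¹ := by
        rw [inv_div]
        field_simp
        ring
      rw [e, inv_pow] at hb
      have hpos : 0 < ((p : ℝ) / (p - 1)) ^ K := pow_pos (div_pos (by linarith) (by linarith)) K
      refine (mul_le_mul_of_nonneg_right hle' hpos.le).trans ?_
      calc ((p : ℝ) - K) * ((p : ℝ) / (p - 1)) ^ K
          = p * (1 + K * -(p : ℝ)⁻¹) * ((p : ℝ) / (p - 1)) ^ K := by field_simp; ring
        _ ≤ p * (((p : ℝ) / (p - 1)) ^ K)⁻¹ * ((p : ℝ) / (p - 1)) ^ K := by gcongr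
        _ = _ := by field_simp
  have hcard' : (#Bres : ℝ) ≤ ∏ p ∈ Q, (#(T p) : ℝ) := by exact_mod_cast hcard
  have hV : 0 ≤ ∏ p ∈ Q, ((p : ℝ) / (p - 1)) ^ K := prod_nonneg fun p hp => by
    have h2 : (2 : ℝ) ≤ p := by exact_mod_cast (hQp p hp).two_le
    exact pow_nonneg (div_nonneg (by linarith) (by linarith)) K
  rw [← prod_pow]
  refine (mul_le_mul_of_nonneg_right hcard' hV).trans ?_
  rw [← prod_mul_distrib]
  refine (prod_le_prod (fun p hp => mul_nonneg (Nat.cast_nonneg _) ?_) hfac).trans ?_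
  · have h2 : (2 : ℝ) ≤ p := by exact_mod_cast (hQp p hp).two_le
    exact pow_nonneg (div_nonneg (by linarith) (by linarith)) K
  rw [prod_mul_distrib, hW, Nat.cast_prod, mul_comm]
  refine mul_le_mul_of_nonneg_right ?_ (prod_nonneg fun p _ => Nat.cast_nonneg p)
  rw [prod_ite, prod_const, prod_const_one, mul_one]
  refine pow_le_pow_right₀ (one_le_pow₀ one_le_two) ?_
  exact (card_le_card (t := range (H + 1)) fun p hp =>
    mem_range.2 (Nat.lt_succ_iff.2 (mem_filter.1 hp).2)).trans (card_range _).le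

/-- The progressions of length `k` inside `S ⊆ [1, x]`, as pairs (first term, difference). -/
def progressionPairs (S : Finset ℕ) (x k : ℕ) : Finset (ℕ × ℕ) :=
  (Icc 1 x ×ˢ Icc 1 x).filter fun p => ∀ j < k, p.1 + j * p.2 ∈ S

/-- Nontrivial progressions of residues give progressions in `S`, at most two to one. -/
lemma card_zmod_progressions_le {N k W b x : ℕ} [NeZero N] (hk : 2 ≤ k) (hW : 0 < W)
    {S : Finset ℕ} (hS : S ⊆ Icc 1 x) {B : Finset ℕ}
    (hB : ∀ n ∈ B, k * n < N ∧ W * n + b ∈ S) :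
    #(univ.filter fun p : ZMod N × ZMod N =>
        p.2 ≠ 0 ∧ ∀ j < k, (p.1 + (j : ZMod N) * p.2).val ∈ B) ≤
      2 * #(progressionPairs S x k) := by
  set v : ZMod N × ZMod N → ℕ → ℕ := fun p j => (p.1 + (j : ZMod N) * p.2).val with hv
  set φ : ZMod N × ZMod N → (ℕ × ℕ) × Bool := fun p =>
    if v p 0 ≤ v p 1 then ((W * v p 0 + b, W * (v p 1 - v p 0)), true)
    else ((W * v p (k - 1) + b, W * (v p 0 - v p 1)), false) with hφ
  have hprog : ∀ p : ZMod N × ZMod N, p.2 ≠ 0 → (∀ j < k, v p j ∈ B) →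
      v p 0 ≠ v p 1 ∧ ∀ j < k, (v p j : ℤ) = v p 0 + j * ((v p 1 : ℤ) - v p 0) := by
    intro p hd hj
    obtain ⟨e, he, hej⟩ :=
      eq_of_zmod_progression hk (fun j hjk => (hB _ (hj j hjk)).1) hd
    have h0 : v p 0 = p.1.val := by simp [hv]
    have h1 := hej 1 (by omega)
    simp only [Nat.cast_one, one_mul] at h1
    have h1' : (v p 1 : ℤ) = v p 0 + e := by
      rw [h0, ← h1]
      simp [hv]
    refine ⟨by omega, fun j hjk => ?_⟩
    rw [h1', add_sub_cancel_left, h0]
    exact hej j hjk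
  rw [show 2 * #(progressionPairs S x k) = #(progressionPairs S x k ×ˢ (univ : Finset Bool)) by
    simp [mul_comm]]
  refine card_le_card_of_injOn φ (fun p hp => ?_) fun p hp p' hp' e => ?_
  · simp only [coe_filter, mem_univ, true_and, Set.mem_setOf_eq] at hp
    obtain ⟨hne, hlin⟩ := hprog p hp.1 hp.2
    have hmem : ∀ j < k, W * v p j + b ∈ S := fun j hj => (hB _ (hp.2 j hj)).2
    have key : ∀ a d : ℕ, 0 < d → (∀ j < k, a + j * d ∈ S) → (a, d) ∈ progressionPairs S x k := by
      intro a d hd had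
      have h0 := mem_Icc.1 (hS (had 0 (by omega)))
      have h1 := mem_Icc.1 (hS (had 1 (by omega)))
      exact mem_filter.2 ⟨mem_product.2 ⟨mem_Icc.2 ⟨by omega, by omega⟩,
        mem_Icc.2 ⟨hd, by omega⟩⟩, had⟩
    simp only [mem_coe, mem_product, mem_univ, and_true, hφ]
    split_ifs with hle
    · refine key _ _ (Nat.mul_pos hW (by omega)) fun j hj => ?_
      convert hmem j hj using 1
      have h1 := hlin j hj
      zify [hle]
      linear_combination (-(W : ℤ)) * h1
    · refine key _ _ (Nat.mul_pos hW (by omega)) fun j hj => ?_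
      convert hmem (k - 1 - j) (by omega) using 1
      have h1 := hlin (k - 1 - j) (by omega)
      have h2 := hlin (k - 1) (by omega)
      have hge : v p 1 ≤ v p 0 := by omega
      have hc : ((k - 1 - j : ℕ) : ℤ) = ((k - 1 : ℕ) : ℤ) - j := by omega
      rw [hc] at h1
      zify [hge]
      linear_combination (W : ℤ) * h2 - (W : ℤ) * h1
  · simp only [coe_filter, mem_univ, true_and, Set.mem_setOf_eq] at hp hp'
    obtain ⟨-, hlin⟩ := hprog p hp.1 hp.2
    obtain ⟨-, hlin'⟩ := hprog p' hp'.1 hp'.2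
    have hv01 : v p 0 = v p' 0 ∧ v p 1 = v p' 1 := by
      simp only [hφ] at e
      split_ifs at e with h1 h2 h2 <;>
        simp only [Prod.mk.injEq, Bool.true_eq_false, Bool.false_eq_true, and_false] at e
      · obtain ⟨⟨e1, e2⟩, -⟩ := e
        have e1' := Nat.eq_of_mul_eq_mul_left hW (Nat.add_right_cancel e1)
        have e2' := Nat.eq_of_mul_eq_mul_left hW e2
        omega
      · obtain ⟨⟨e1, e2⟩, -⟩ := e
        have e1' := Nat.eq_of_mul_eq_mul_left hW (Nat.add_right_cancel e1)
        have e2' := Nat.eq_of_mul_eq_mul_left hW e2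
        have l1 := hlin (k - 1) (by omega)
        have l2 := hlin' (k - 1) (by omega)
        have e2z : (v p 1 : ℤ) - v p 0 = (v p' 1 : ℤ) - v p' 0 := by omega
        rw [e2z, e1', l2] at l1
        omega
    have r0 : ∀ q : ZMod N × ZMod N, q.1 = (v q 0 : ZMod N) := fun q => by simp [hv]
    have r1 : ∀ q : ZMod N × ZMod N, q.2 = (v q 1 : ZMod N) - (v q 0 : ZMod N) := fun q => by
      simp [hv]
    exact Prod.ext (by rw [r0 p, r0 p', hv01.1]) (by rw [r1 p, r1 p', hv01.1, hv01.2])

/-- **Progressions in dense sets of rough tuples**, with the count. -/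
theorem exists_progressions_rough {k : ℕ} (hk : 2 ≤ k) {K : ℕ} {h : Fin K → ℕ}
    (hinj : Injective h) (m : ℕ) {δ : ℝ} (hδ : 0 < δ) :
    ∃ c : ℝ, 0 < c ∧ ∃ x₀ : ℕ, ∀ x, x₀ ≤ x → ∀ S : Finset ℕ, S ⊆ Icc 1 x →
      (∀ n ∈ S, ∀ i, ∀ p : ℕ, p.Prime → p ∣ n + h i → x ≤ p ^ m) →
      δ * x / Real.log x ^ K ≤ #S →
      c * (x : ℝ) ^ 2 / Real.log x ^ (k * K) ≤ #(progressionPairs S x k) := by
  set H := univ.sup h with hHdef
  have hH : ∀ i, h i ≤ H := fun i => le_sup (mem_univ i)
  set q := 20 * (k * 2 ^ k * K) + 2 * m + 2 * (k * K) + 2 with hq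
  set C₀ : ℝ := (2 * q) ^ K * (4 * k) * (2 ^ K) ^ (H + 1) with hC₀
  have hk0 : (0 : ℝ) < k := by exact_mod_cast (show 0 < k by omega)
  have hq0 : (0 : ℝ) < q := by exact_mod_cast (show 0 < q by omega)
  obtain ⟨η, hη, c, hc, N₀, hrel⟩ := exists_relative_szemeredi k hk (δ := δ / C₀) (by positivity)
  obtain ⟨w₀, N₁, hw1, hmaj⟩ := exists_tuple_forms k hk K hη
  obtain ⟨Cl, hCl, hGup⟩ := exists_sieveSum_le_log
  set w := max w₀ H with hwdef
  set W := primorial w with hWdef
  have hW0 : 0 < W := primorial_pos w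
  obtain ⟨T, hT⟩ := exists_nat_gt (2 / c)
  refine ⟨c / (4 * (Cl ^ (k * K) * W ^ 2)), by positivity,
    W ^ 2 + 4 * k + w ^ m + 2 + W * (N₀ + N₁ + w + T ^ 2 + 1), fun x hx S hS hrough hdense => ?_⟩
  have hWW : W ≤ W ^ 2 := Nat.le_self_pow two_ne_zero W
  -- the modulus
  obtain ⟨N, hNp, hMN, hN2M⟩ := Nat.exists_prime_lt_and_le_two_mul (k * (x / W + 1))
    (mul_ne_zero (by omega : k ≠ 0) (Nat.succ_ne_zero _))
  have : NeZero N := ⟨hNp.ne_zero⟩
  have hxN : N₀ + N₁ + w + T ^ 2 + 1 < N := by
    have h1 : N₀ + N₁ + w + T ^ 2 + 1 ≤ x / W :=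
      (Nat.le_div_iff_mul_le hW0).2 ((Nat.mul_comm _ _).le.trans (by omega))
    have h2 : x / W + 1 ≤ k * (x / W + 1) := Nat.le_mul_of_pos_left _ (by omega)
    omega
  obtain ⟨R, hR1, hRq, hRlog⟩ := exists_level (q := q) (N := N) (by omega) (by omega)
  set G := sieveSum (sieveFamily w R) primeVal with hG
  have hG0 : 0 < G := (isSieveFamily_sieveFamily hR1).sieveSum_pos
  have hNW : N * W ≤ 4 * k * x := by
    calc N * W ≤ 2 * (k * (x / W + 1)) * W := Nat.mul_le_mul_right W hN2M
      _ = 2 * k * (x / W * W + W) := by ring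
      _ ≤ 2 * k * (x + x) :=
        Nat.mul_le_mul_left _ (Nat.add_le_add (Nat.div_mul_le_self x W) (by omega))
      _ = _ := by ring
  have hxWN : x ≤ W * N := by
    have h2 : x < W * (x / W + 1) := Nat.lt_mul_div_succ x hW0
    have h3 : x / W + 1 ≤ k * (x / W + 1) := Nat.le_mul_of_pos_left _ (by omega)
    have h4 : W * (x / W + 1) ≤ W * N := Nat.mul_le_mul_left W (by omega)
    omega
  have hNx2 : N < x ^ 2 := by
    have h1 : N ≤ N * W := Nat.le_mul_of_pos_right N hW0
    have h2 : 4 * k * x < x * x := Nat.mul_lt_mul_of_pos_right (by omega) (by omega)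
    rw [sq]
    omega
  have hRm : R ^ m < x := by
    refine lt_of_pow_lt_pow_left₀ 2 (Nat.zero_le _) ?_
    rw [← pow_mul]
    exact ((Nat.pow_le_pow_right hR1 (by omega)).trans hRq).trans_lt hNx2
  have hR1x : R + 1 ≤ x := by
    by_contra hc
    have h1 : R ^ 2 ≤ R ^ q := Nat.pow_le_pow_right hR1 (by omega)
    have h2 : x ^ 2 ≤ R ^ 2 := Nat.pow_le_pow_left (by omega) 2
    omega
  -- a good residue class
  set Bres := (range W).filter (fun b => ∀ i, (b + h i).Coprime W) with hBres
  have hmaps : ∀ n ∈ S, n % W ∈ Bres := fun n hn => by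
    refine mem_filter.2 ⟨mem_range.2 (Nat.mod_lt _ hW0), fun i => ?_⟩
    refine Nat.coprime_of_dvd fun p hp hpn hpW => ?_
    have h1 := hrough n hn i p hp (by
      have h2 := dvd_add hpn (dvd_mul_of_dvd_left hpW (n / W))
      rwa [add_right_comm, Nat.mod_add_div] at h2)
    have h3 := Nat.pow_le_pow_left (prime_of_dvd_primorial hp hpW) m
    omega
  have hSpos : (0 : ℝ) < #S := lt_of_lt_of_le (div_pos (mul_pos hδ (by
    exact_mod_cast (show 0 < x by omega)))
    (pow_pos (Real.log_pos (by exact_mod_cast (show 1 < x by omega))) K)) hdense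
  obtain ⟨n₀, hn₀⟩ := card_pos.1 (Nat.cast_pos.1 hSpos)
  have hBne : Bres.Nonempty := ⟨_, hmaps n₀ hn₀⟩
  have hB0 : (0 : ℝ) < #Bres := by exact_mod_cast hBne.card_pos
  obtain ⟨b, -, hSb⟩ := exists_le_card_fiber_of_nsmul_le_card_of_maps_to (M := ℝ)
    (b := (#S : ℝ) / #Bres) hmaps hBne (by rw [nsmul_eq_mul, mul_div_cancel₀ _ hB0.ne'])
  set B := (S.filter fun n => n % W = b).image fun n => n / W with hB
  have hBcard : #B = #(S.filter fun n => n % W = b) := by
    refine card_image_of_injOn fun n hn n' hn' e => ?_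
    simp only [coe_filter, Set.mem_setOf_eq] at hn hn'
    rw [← Nat.mod_add_div n W, ← Nat.mod_add_div n' W, hn.2, hn'.2, e]
  have hBprop : ∀ n ∈ B, k * n < N ∧ W * n + b ∈ S := fun n hn => by
    obtain ⟨p, hp, rfl⟩ := mem_image.1 hn
    obtain ⟨hpS, hpb⟩ := mem_filter.1 hp
    refine ⟨lt_of_le_of_lt (Nat.mul_le_mul_left k ?_) hMN,
      by rwa [← hpb, add_comm, Nat.mod_add_div]⟩
    exact (Nat.div_le_div_right (mem_Icc.1 (hS hpS)).2).trans (Nat.le_succ _)
  -- the weight
  set f : ZMod N → ℝ := fun z => if z.val ∈ B then G ^ K else 0 with hf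
  have hfν : ∀ z, 0 ≤ f z ∧ f z ≤ tupleMajorantMod W w R (fun i => ((b + h i : ℕ) : ℤ)) z :=
    fun z => by
    simp only [hf]
    split_ifs with hz
    · refine ⟨by positivity, le_of_eq ?_⟩
      rw [tupleMajorantMod]
      have e : ∀ i, majorantZ W w R ((b + h i : ℕ) : ℤ) ((z.val : ℕ) : ℤ) = G := fun i => by
        refine majorantZ_eq_sieveSum hR1 fun p hp hd => ?_
        obtain ⟨hpR, hpp, -⟩ := mem_sievePrimes.1 hp
        have hd' : p ∣ W * z.val + b + h i := by
          rw [← Int.natCast_dvd_natCast, add_assoc]; push_cast at hd ⊢; exact hd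
        have h1 := hrough _ (hBprop _ hz).2 i p hpp hd'
        have h2 := Nat.pow_le_pow_left hpR m
        omega
      simp only [e, prod_const, card_univ, Fintype.card_fin]
    · exact ⟨le_rfl, prod_nonneg fun i _ => majorantZ_nonneg hR1 _ _⟩
  have hmean : δ / C₀ ≤ 𝔼 z, f z := by
    rw [Fintype.expect_eq_sum_div_card, ZMod.card]
    have hsum : ∑ z, f z = #B * G ^ K := by
      simp only [hf, ← sum_filter, sum_const, nsmul_eq_mul]
      congr 2
      refine card_nbij' ZMod.val (fun n => (n : ZMod N)) ?_ ?_ ?_ ?_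
      · intro z hz; simpa using hz
      · intro n hn
        have hlt : n < N := lt_of_le_of_lt (Nat.le_mul_of_pos_left n (by omega)) (hBprop n hn).1
        simp only [coe_filter, mem_univ, true_and, Set.mem_setOf_eq]
        rw [ZMod.val_cast_of_lt hlt]; exact hn
      · intro z _; exact ZMod.natCast_zmod_val z
      · intro n hn
        exact ZMod.val_cast_of_lt
          (lt_of_le_of_lt (Nat.le_mul_of_pos_left n (by omega)) (hBprop n hn).1)
    rw [hsum]
    have hN0 : (0 : ℝ) < N := by exact_mod_cast hNp.pos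
    have hW0' : (0 : ℝ) < W := by exact_mod_cast hW0
    set V := ∏ p ∈ (range (w + 1)).filter Nat.Prime, (p : ℝ) / (p - 1) with hV
    have hV0 : 0 < V := prod_pos fun p hp => by
      have : (1 : ℝ) < p := by exact_mod_cast (mem_filter.1 hp).2.one_lt
      exact div_pos (by linarith) (by linarith)
    have hxR : (0 : ℝ) < Real.log x := Real.log_pos (by exact_mod_cast (show 1 < x by omega))
    have hlogN : Real.log x ≤ 2 * (q * (V * G)) := by
      have hGlog : Real.log N ≤ q * (V * G) :=
        hRlog.trans (mul_le_mul_of_nonneg_left (log_le_sieveSum w R) (Nat.cast_nonneg _))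
      have h5 : Real.log x ≤ Real.log W + Real.log N := by
        rw [← Real.log_mul hW0'.ne' hN0.ne']
        exact Real.log_le_log (by exact_mod_cast (show 0 < x by omega)) (by exact_mod_cast hxWN)
      have h6 : 2 * Real.log W ≤ Real.log x := by
        have h7 : Real.log (((W ^ 2 : ℕ) : ℝ)) ≤ Real.log x :=
          Real.log_le_log (by positivity) (by exact_mod_cast (show W ^ 2 ≤ x by omega))
        push_cast at h7
        rwa [Real.log_pow] at h7
      linarith
    have h1 : δ * x ≤ #B * #Bres * Real.log x ^ K := by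
      rw [hBcard]
      refine ((div_le_iff₀ (pow_pos hxR K)).1 hdense).trans ?_
      exact mul_le_mul_of_nonneg_right ((div_le_iff₀ hB0).1 hSb) (pow_nonneg hxR.le K)
    have hNW' : (N : ℝ) * W ≤ 4 * k * x := by exact_mod_cast hNW
    have hC : (#Bres : ℝ) * V ^ K ≤ (2 ^ K) ^ (H + 1) * W := card_admissible_le w hinj hH
    rw [div_le_div_iff₀ (by positivity) hN0]
    refine le_of_mul_le_mul_right (a := (W : ℝ)) ?_ hW0'
    calc δ * N * W = δ * ((N : ℝ) * W) := by ring
      _ ≤ δ * (4 * k * x) := mul_le_mul_of_nonneg_left hNW' hδ.le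
      _ = 4 * k * (δ * x) := by ring
      _ ≤ 4 * k * (#B * #Bres * (2 * (q * (V * G))) ^ K) := by
          refine mul_le_mul_of_nonneg_left (h1.trans ?_) (by positivity)
          gcongr
      _ = 4 * k * #B * G ^ K * (2 * (q : ℝ)) ^ K * (#Bres * V ^ K) := by
          simp only [mul_pow]; ring
      _ ≤ 4 * k * #B * G ^ K * (2 * (q : ℝ)) ^ K * ((2 ^ K) ^ (H + 1) * W) := by
          refine mul_le_mul_of_nonneg_left hC ?_
          positivity
      _ = #B * G ^ K * C₀ * W := by rw [hC₀]; ring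
  have hlf : APFormsCond k η (tupleMajorantMod (N := N) W w R fun i => ((b + h i : ℕ) : ℤ)) :=
    hmaj N W w R q _ hNp (by omega) (le_max_left _ _) (by omega)
      (fun p => prime_of_dvd_primorial) (fun i i' hne => by
        have h1 : h i ≠ h i' := fun e => hne (hinj e)
        have h2 := hH i
        have h3 := hH i'
        refine ⟨by omega, le_trans ?_ (le_max_right w₀ H)⟩
        omega) hR1 (by omega) hRq
  have hprog := hrel N hNp (by omega) _ f hlf hfν hmean
  -- discard the trivial progressions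
  set P := univ.filter fun p : ZMod N × ZMod N =>
    p.2 ≠ 0 ∧ ∀ j < k, (p.1 + (j : ZMod N) * p.2).val ∈ B with hP
  set Gk := G ^ (K * k) with hGk
  have hGk0 : 0 < Gk := pow_pos hG0 _
  have hle : ∀ a d : ZMod N, ∏ j : Fin k, f (a + ((j : ℕ) : ZMod N) * d) ≤
      Gk * ((if d = 0 then 1 else 0) + if (a, d) ∈ P then 1 else 0) := by
    intro a d
    by_cases hcase : d = 0 ∨ (a, d) ∈ P
    · refine (prod_le_prod (g := fun _ => G ^ K) (fun j _ => (hfν _).1) fun j _ => ?_).trans ?_
      · simp only [hf]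
        split_ifs
        exacts [le_rfl, (pow_pos hG0 K).le]
      · rw [prod_const, card_univ, Fintype.card_fin, ← pow_mul, ← hGk]
        refine le_mul_of_one_le_right hGk0.le ?_
        rcases hcase with h1 | h1
        · rw [if_pos h1]; split_ifs <;> norm_num
        · rw [if_pos h1]; split_ifs <;> norm_num
    · push Not at hcase
      obtain ⟨hd, hnP⟩ := hcase
      simp only [hP, mem_filter, mem_univ, true_and, not_and, not_forall] at hnP
      obtain ⟨j, hj, hjB⟩ := hnP hd
      rw [prod_eq_zero (mem_univ (⟨j, hj⟩ : Fin k)) (by simp only [hf]; exact if_neg hjB)]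
      positivity
  have hN0 : (0 : ℝ) < N := by exact_mod_cast hNp.pos
  have h1 : c * (N : ℝ) ^ 2 ≤ Gk * (N + #P) := by
    have h := hprog.trans (expect_le_expect fun a _ => expect_le_expect fun d _ => hle a d)
    rw [← expect_product', univ_product_univ, Fintype.expect_eq_sum_div_card, Fintype.card_prod,
      ZMod.card, Nat.cast_mul, le_div_iff₀ (by positivity), ← mul_sum, sum_add_distrib,
      Fintype.sum_prod_type] at h
    simp only [sum_ite_eq', mem_univ, if_true, sum_const, card_univ, ZMod.card, nsmul_eq_mul,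
      mul_one, sum_boole, filter_univ_mem] at h
    have he : (univ.filter fun p : ZMod N × ZMod N => (p.1, p.2) ∈ P) = P := filter_univ_mem P
    calc c * (N : ℝ) ^ 2 = c * ((N : ℝ) * N) := by ring
      _ ≤ _ := h.trans_eq (by rw [he])
  have h2 : Gk * (N : ℝ) ≤ c / 2 * (N : ℝ) ^ 2 := by
    have g1 : Gk ^ 2 ≤ N := by
      rw [hGk, ← pow_mul]
      refine (pow_le_pow_left₀ hG0.le sieveSum_le _).trans ?_
      have he : K * k * 2 ≤ q := by rw [mul_comm K k]; omega
      exact_mod_cast (Nat.pow_le_pow_right hR1 he).trans hRq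
    have g2 : (T : ℝ) ^ 2 < N := by exact_mod_cast (show T ^ 2 < N by omega)
    rw [div_lt_iff₀ hc] at hT
    have g3 : Gk * T ≤ N := by
      refine (pow_le_pow_iff_left₀ (by positivity) hN0.le two_ne_zero).1 ?_
      rw [mul_pow, sq (N : ℝ)]
      exact mul_le_mul g1 g2.le (by positivity) hN0.le
    have g4 : Gk * 2 ≤ c * N :=
      calc Gk * 2 ≤ Gk * (T * c) := by gcongr
        _ = c * (Gk * T) := by ring
        _ ≤ c * N := by gcongr
    nlinarith
  have h3 : c / 2 * (N : ℝ) ^ 2 ≤ Gk * #P := by linarith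
  have hGk' : Gk ≤ Cl ^ (k * K) * Real.log x ^ (k * K) := by
    rw [hGk, mul_comm K k, ← mul_pow]
    refine pow_le_pow_left₀ hG0.le ((hGup w R hR1).trans ?_) _
    refine mul_le_mul_of_nonneg_left (Real.log_le_log (by positivity) ?_) hCl.le
    exact_mod_cast hR1x
  have h4 : (#P : ℝ) ≤ 2 * #(progressionPairs S x k) := by
    exact_mod_cast card_zmod_progressions_le hk hW0 hS hBprop
  have hlx : 0 < Real.log x := Real.log_pos (by exact_mod_cast (show 1 < x by omega))
  rw [div_mul_eq_mul_div, div_div, div_le_iff₀ (by positivity)]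
  calc c * (x : ℝ) ^ 2 ≤ c * ((W : ℝ) * N) ^ 2 := by
        gcongr
        exact_mod_cast hxWN
    _ = 2 * (W : ℝ) ^ 2 * (c / 2 * (N : ℝ) ^ 2) := by ring
    _ ≤ 2 * (W : ℝ) ^ 2 * (Cl ^ (k * K) * Real.log x ^ (k * K) *
          (2 * #(progressionPairs S x k))) := by
        refine mul_le_mul_of_nonneg_left (h3.trans ?_) (by positivity)
        exact mul_le_mul hGk' h4 (Nat.cast_nonneg _) (by positivity)
    _ = _ := by ring

end FA.GreenTao
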