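import Fermat.Agent.BoundedGaps.Admissible
import Fermat.Agent.GreenTao.TupleProgressions

/-!
# Pintz's theorem

The tuples with many primes that Maynard's sieve finds are dense among the tuples free of small
prime factors, so by the theorem of Green and Tao for such tuples they contain progressions of
every length, with the primes among them consecutive.
-/

set_option autoImplicit false

noncomputable section

namespace FA.GreenTao

open Finset Filter Function FA.BoundedGaps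
open scoped Nat Topology

/-- The tuple `k! i`. -/
theorem factorialTuple (k : ℕ) :
    StrictMono (fun i : Fin k => k ! * (i : ℕ)) ∧ Admissible (fun i : Fin k => k ! * (i : ℕ)) :=
  ⟨fun _ _ h => Nat.mul_lt_mul_of_pos_left h (Nat.factorial_pos k),
    admissible_of_factorial_dvd fun _ => dvd_mul_right _ _⟩

/-- **The count of Maynard and Tao, with Pintz's almost primality.** -/
theorem exists_card_manyPrimeSet (m : ℕ) :
    ∃ (K : ℕ) (h : Fin K → ℕ) (M : ℕ), StrictMono h ∧ ∃ c : ℝ, 0 < c ∧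
      ∀ᶠ x : ℕ in atTop, c * x / Real.log x ^ K ≤
        #((Icc 1 x).filter fun n => m < #(univ.filter fun i => (n + h i).Prime) ∧
          ∀ i, ∀ q ∈ (n + h i).primeFactors, x ≤ q ^ M) := by
  obtain ⟨K, -, hmain⟩ := exists_card_patternSet m
  obtain ⟨hmono, hadm⟩ := factorialTuple K
  obtain ⟨M, c, hc, hev⟩ := hmain _ hmono.injective hadm 1 0 one_pos
    (fun i => Nat.coprime_one_right _) (univ.sup fun i : Fin K => K ! * (i : ℕ))
    (fun i => le_sup (f := fun i : Fin K => K ! * (i : ℕ)) (mem_univ i))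
  refine ⟨K, _, M, hmono, c, hc, hev.mono fun x hx => hx.trans (Nat.cast_le.2 (card_le_card
    fun n hn => ?_))⟩
  rw [patternSet, mem_filter] at hn
  exact mem_filter.2 ⟨hn.1, hn.2.1, hn.2.2.1⟩

/-- **Pintz's theorem with a count**, for an admissible tuple. -/
theorem exists_many_pattern_progressions (m : ℕ) : ∃ K : ℕ, ∀ h : Fin K → ℕ, Injective h →
    Admissible h → ∀ q a : ℕ, 0 < q → (∀ i, (a + h i).Coprime q) → ∀ H, (∀ i, h i ≤ H) →
      ∃ M : ℕ, ∀ k, 2 ≤ k → ∃ c : ℝ, 0 < c ∧ ∀ᶠ x : ℕ in atTop, ∃ A : Finset (Fin K), m < #A ∧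
        c * (x : ℝ) ^ 2 / Real.log x ^ (k * K) ≤
          #((Icc 1 x ×ˢ Icc 1 x).filter fun p : ℕ × ℕ => ∀ j < k,
            (∀ i, (p.1 + j * p.2 + h i).Prime ↔ i ∈ A) ∧
              (∀ i, ∀ r ∈ (p.1 + j * p.2 + h i).primeFactors, x ≤ r ^ M) ∧
              p.1 + j * p.2 ≡ a [MOD q] ∧
              ∀ t ≤ H, (∀ i, h i ≠ t) → ¬ (p.1 + j * p.2 + t).Prime) := by
  classical
  obtain ⟨K, -, hcount⟩ := exists_card_patternSet m
  refine ⟨K, fun h hinj hadm q a hq ha H hH => ?_⟩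
  obtain ⟨M, c, hc, hev⟩ := hcount h hinj hadm q a hq ha H hH
  refine ⟨M, fun k hk => ?_⟩
  obtain ⟨c', hc', x₀, hmain⟩ := exists_progressions_rough hk hinj M
    (δ := c / 2 ^ K) (by positivity)
  refine ⟨c', hc', ?_⟩
  filter_upwards [hev, eventually_ge_atTop x₀, eventually_ge_atTop 2] with x hx hx0 hx2
  obtain ⟨S, hS⟩ : ∃ S, S = patternSet h H m M q a x := ⟨_, rfl⟩
  rw [← hS] at hx
  have hpos : 0 < c * x / Real.log x ^ K := by
    have : 0 < Real.log x := Real.log_pos (by exact_mod_cast (show 1 < x by omega))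
    have : (0 : ℝ) < x := by exact_mod_cast (show 0 < x by omega)
    positivity
  obtain ⟨A, -, hA⟩ : ∃ A ∈ (univ : Finset (Finset (Fin K))),
      c / 2 ^ K * x / Real.log x ^ K ≤
        #(S.filter fun n => (univ.filter fun i => (n + h i).Prime) = A) := by
    refine exists_le_of_sum_le univ_nonempty ?_
    rw [sum_const, card_univ, Fintype.card_finset, Fintype.card_fin, nsmul_eq_mul,
      ← Nat.cast_sum, ← card_eq_sum_card_fiberwise fun n _ => mem_univ _]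
    refine le_trans (le_of_eq ?_) hx
    push_cast
    field_simp
  obtain ⟨T, hT⟩ : ∃ T, T = S.filter fun n => (univ.filter fun i => (n + h i).Prime) = A :=
    ⟨_, rfl⟩
  rw [← hT] at hA
  have hmemT : ∀ n ∈ T, (∀ i, (n + h i).Prime ↔ i ∈ A) ∧ m < #A ∧
      (∀ i, ∀ r ∈ (n + h i).primeFactors, x ≤ r ^ M) ∧ n ∈ Icc 1 x ∧ n ≡ a [MOD q] ∧
      ∀ t ≤ H, (∀ i, h i ≠ t) → ¬ (n + t).Prime := by
    intro n hn
    rw [hT, hS, patternSet, mem_filter, mem_filter] at hn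
    obtain ⟨⟨hn1, hn2, hn3, hn4, hn5⟩, rfl⟩ := hn
    exact ⟨fun i => by simp, hn2, hn3, hn1, hn4, hn5⟩
  have hTne : T.Nonempty := by
    rw [← card_pos, ← Nat.cast_pos (α := ℝ)]
    refine lt_of_lt_of_le ?_ hA
    rw [show c / 2 ^ K * x / Real.log x ^ K = c * x / Real.log x ^ K / 2 ^ K by ring]
    positivity
  obtain ⟨n₀, hn₀⟩ := hTne
  refine ⟨A, (hmemT n₀ hn₀).2.1, ?_⟩
  refine (hmain x hx0 T (fun n hn => (hmemT n hn).2.2.2.1) (fun n hn i r hr hd => ?_) hA).trans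
    (Nat.cast_le.2 (card_le_card fun p hp => ?_))
  · obtain ⟨-, -, h3, h4, -⟩ := hmemT n hn
    exact h3 i r (Nat.mem_primeFactors.2 ⟨hr, hd, by rw [mem_Icc] at h4; omega⟩)
  · simp only [progressionPairs, mem_filter] at hp ⊢
    exact ⟨hp.1, fun j hj => ⟨(hmemT _ (hp.2 j hj)).1, (hmemT _ (hp.2 j hj)).2.2.1,
      (hmemT _ (hp.2 j hj)).2.2.2.2⟩⟩

/-- The count for the tuple `k! i`. -/
theorem exists_many_prime_tuple_progressions (m : ℕ) :
    ∃ (K : ℕ) (h : Fin K → ℕ) (M : ℕ), StrictMono h ∧ ∀ k, 2 ≤ k → ∃ c : ℝ, 0 < c ∧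
      ∀ᶠ x : ℕ in atTop, ∃ A : Finset (Fin K), m < #A ∧ c * (x : ℝ) ^ 2 / Real.log x ^ (k * K) ≤
        #((Icc 1 x ×ˢ Icc 1 x).filter fun p : ℕ × ℕ => ∀ j < k,
          (∀ i ∈ A, (p.1 + j * p.2 + h i).Prime) ∧
            ∀ i, ∀ q ∈ (p.1 + j * p.2 + h i).primeFactors, x ≤ q ^ M) := by
  obtain ⟨K, hmain⟩ := exists_many_pattern_progressions m
  obtain ⟨hmono, hadm⟩ := factorialTuple K
  obtain ⟨M, hk⟩ := hmain _ hmono.injective hadm 1 0 one_pos
    (fun i => Nat.coprime_one_right _) (univ.sup fun i : Fin K => K ! * (i : ℕ))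
    (fun i => le_sup (f := fun i : Fin K => K ! * (i : ℕ)) (mem_univ i))
  refine ⟨K, _, M, hmono, fun k hk2 => ?_⟩
  obtain ⟨c, hc, hev⟩ := hk k hk2
  refine ⟨c, hc, hev.mono fun x hx => ?_⟩
  obtain ⟨A, hA, hx⟩ := hx
  refine ⟨A, hA, hx.trans (Nat.cast_le.2 (card_le_card fun p hp => ?_))⟩
  rw [mem_filter] at hp
  exact mem_filter.2 ⟨hp.1, fun j hj =>
    ⟨fun i hi => ((hp.2 j hj).1 i).2 hi, (hp.2 j hj).2.1⟩⟩

/-- **Pintz's theorem for an admissible tuple**: one set of more than `m` shifts gives, along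
progressions of every length, exactly the primes among the `n + t`, `t ≤ H`. -/
theorem exists_admissible_progressions (m : ℕ) : ∃ K : ℕ, ∀ h : Fin K → ℕ, Injective h →
    Admissible h → ∀ q a : ℕ, 0 < q → (∀ i, (a + h i).Coprime q) → ∀ H, (∀ i, h i ≤ H) →
      ∃ A : Finset ℕ, A ⊆ univ.image h ∧ m < #A ∧ ∀ l N : ℕ, ∃ u d : ℕ, N < u ∧ 0 < d ∧
        ∀ j < l, u + j * d ≡ a [MOD q] ∧ ∀ t ≤ H, ((u + j * d + t).Prime ↔ t ∈ A) := by
  classical
  obtain ⟨K, hmain⟩ := exists_many_pattern_progressions m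
  refine ⟨K, fun h hinj hadm q a hq ha H hH => ?_⟩
  obtain ⟨M, hcount⟩ := hmain h hinj hadm q a hq ha H hH
  have key : ∀ l N : ℕ, ∃ A : Finset (Fin K), m < #A ∧ ∃ u d : ℕ, N < u ∧ 0 < d ∧
      ∀ j < l, u + j * d ≡ a [MOD q] ∧ ∀ t ≤ H, ((u + j * d + t).Prime ↔ t ∈ A.image h) := by
    intro l N
    obtain ⟨c, hc, hev⟩ := hcount (max l 2) (le_max_right _ _)
    obtain ⟨x, ⟨A, hA, hx⟩, hxN⟩ :=
      (hev.and (eventually_ge_atTop ((N + H + 1) ^ M + 2))).exists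
    have hpos : (0 : ℝ) < c * (x : ℝ) ^ 2 / Real.log x ^ (max l 2 * K) := by
      have h2 : 0 < Real.log x := Real.log_pos (by exact_mod_cast (show 1 < x by omega))
      have h3 : (0 : ℝ) < x := by exact_mod_cast (show 0 < x by omega)
      positivity
    obtain ⟨p, hp⟩ := card_pos.1 (Nat.cast_pos.1 (hpos.trans_le hx))
    simp only [mem_filter, mem_product, mem_Icc] at hp
    refine ⟨A, hA, p.1, p.2, ?_, hp.1.2.1, fun j hj => ?_⟩
    · obtain ⟨i, hi⟩ := card_pos.1 (show 0 < #A by omega)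
      obtain ⟨h1, h2, -, -⟩ := hp.2 0 (by omega)
      have hprime := (h1 i).2 hi
      have h3 := h2 i (p.1 + 0 * p.2 + h i) (Nat.mem_primeFactors.2
        ⟨hprime, dvd_rfl, hprime.ne_zero⟩)
      by_contra hle
      have h4 : p.1 + 0 * p.2 + h i ≤ N + H + 1 := by
        have := hH i
        omega
      have := Nat.pow_le_pow_left h4 M
      omega
    · obtain ⟨h1, -, h3, h4⟩ := hp.2 j (by omega)
      refine ⟨h3, fun t ht => ⟨fun hpr => ?_, fun hmem => ?_⟩⟩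
      · by_cases hi : ∃ i, h i = t
        · obtain ⟨i, rfl⟩ := hi
          exact mem_image_of_mem h ((h1 i).1 hpr)
        · exact absurd hpr (h4 t ht fun i e => hi ⟨i, e⟩)
      · obtain ⟨i, hi, rfl⟩ := mem_image.1 hmem
        exact (h1 i).2 hi
  obtain ⟨A, hA, hbest⟩ : ∃ A : Finset (Fin K), m < #A ∧ ∀ l N : ℕ, ∃ u d : ℕ, N < u ∧ 0 < d ∧
      ∀ j < l, u + j * d ≡ a [MOD q] ∧ ∀ t ≤ H, ((u + j * d + t).Prime ↔ t ∈ A.image h) := by
    by_contra hcon
    push Not at hcon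
    choose fl fN hf using hcon
    obtain ⟨l₀, hl₀⟩ : ∃ l₀, ∀ A (hA : m < #A), fl A hA ≤ l₀ :=
      ⟨univ.sup fun A => if hA : m < #A then fl A hA else 0, fun A hA => by
        refine le_trans ?_ (le_sup (mem_univ A))
        rw [dif_pos hA]⟩
    obtain ⟨N₀, hN₀⟩ : ∃ N₀, ∀ A (hA : m < #A), fN A hA ≤ N₀ :=
      ⟨univ.sup fun A => if hA : m < #A then fN A hA else 0, fun A hA => by
        refine le_trans ?_ (le_sup (mem_univ A))
        rw [dif_pos hA]⟩
    obtain ⟨A, hA, u, d, hu, hd, hp⟩ := key l₀ N₀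
    obtain ⟨j, hj, hbad⟩ := hf A hA u d ((hN₀ A hA).trans_lt hu) hd
    obtain ⟨h1, h2⟩ := hp j (hj.trans_le (hl₀ A hA))
    obtain ⟨t, ht, hbad⟩ := hbad h1
    rcases hbad with ⟨h3, h4⟩ | ⟨h3, h4⟩
    · exact h4 ((h2 t ht).1 h3)
    · exact h3 ((h2 t ht).2 h4)
  exact ⟨A.image h, image_subset_image (subset_univ A), by rwa [card_image_of_injective _ hinj],
    hbest⟩

/-- `m + 1` consecutive primes in one pattern along progressions of every length. -/
theorem exists_consecutive_pattern (m : ℕ) : ∃ K : ℕ, ∀ h : Fin K → ℕ, Injective h →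
    Admissible h → ∀ q a : ℕ, 0 < q → (∀ i, (a + h i).Coprime q) →
      ∃ e : Fin (m + 1) → ℕ, StrictMono e ∧ (∀ i, ∃ j, h j = e i) ∧ ∀ l N : ℕ, ∃ u d : ℕ,
        N < u ∧ 0 < d ∧ ∀ j < l, u + j * d ≡ a [MOD q] ∧
          ∃ r, ∀ i : Fin (m + 1), Nat.nth Nat.Prime (r + i) = u + j * d + e i := by
  classical
  obtain ⟨K, hmain⟩ := exists_admissible_progressions m
  refine ⟨K, fun h hinj hadm q a hq ha => ?_⟩
  obtain ⟨A, hAh, hA, hprog⟩ := hmain h hinj hadm q a hq ha _ (fun i => le_sup (mem_univ i))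
  obtain ⟨e, he⟩ : ∃ e : Fin (m + 1) → ℕ,
      e = fun i => A.orderEmbOfFin rfl (Fin.castLE hA i) := ⟨_, rfl⟩
  have hmono : StrictMono e :=
    he ▸ (A.orderEmbOfFin rfl).strictMono.comp (Fin.strictMono_castLE hA)
  have heA : ∀ i, e i ∈ A := fun i => he ▸ A.orderEmbOfFin_mem rfl _
  refine ⟨e, hmono, fun i => ?_, fun l N => ?_⟩
  · obtain ⟨j, -, hj⟩ := mem_image.1 (hAh (heA i))
    exact ⟨j, hj⟩
  obtain ⟨u, d, hu, hd, hp⟩ := hprog l N
  refine ⟨u, d, hu, hd, fun j hj => ⟨(hp j hj).1, ?_⟩⟩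
  have hsup : ∀ i, e i ≤ univ.sup h := fun i => by
    obtain ⟨w, -, hw⟩ := mem_image.1 (hAh (heA i))
    exact hw ▸ le_sup (mem_univ w)
  refine exists_nth_eq_of_consecutive (fun i => u + j * d + e i)
    (fun i => ((hp j hj).2 _ (hsup i)).2 (heA i))
    (fun x y hxy => Nat.add_lt_add_left (hmono hxy) _) fun i x h1 h2 hx => ?_
  obtain ⟨t, rfl⟩ : ∃ t, x = u + j * d + t := ⟨x - (u + j * d), by omega⟩
  have htA : t ∈ A := ((hp j hj).2 t (by have := hsup i.succ; omega)).1 hx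
  obtain ⟨w, hw⟩ : ∃ w, A.orderEmbOfFin rfl w = t :=
    Set.mem_range.1 (by rw [A.range_orderEmbOfFin rfl]; exact htA)
  have h3 : e i.castSucc < t := Nat.lt_of_add_lt_add_left h1
  have h4 : t < e i.succ := Nat.lt_of_add_lt_add_left h2
  simp only [he, ← hw, OrderEmbedding.lt_iff_lt, Fin.lt_def, Fin.val_castLE,
    Fin.val_castSucc, Fin.val_succ] at h3 h4
  omega

/-- **Pintz's theorem.** -/
theorem exists_pattern_progressions (m : ℕ) :
    ∃ h : Fin (m + 1) → ℕ, StrictMono h ∧ h 0 = 0 ∧ ∀ k N : ℕ, ∃ a d : ℕ, N < a ∧ 0 < d ∧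
      ∀ j < k, ∀ i, (a + j * d + h i).Prime ∧
        ∃ r, ∀ i : Fin (m + 1), Nat.nth Nat.Prime (r + i) = a + j * d + h i := by
  obtain ⟨K, hmain⟩ := exists_consecutive_pattern m
  obtain ⟨hmono, hadm⟩ := factorialTuple K
  obtain ⟨e, he, -, hp⟩ :=
    hmain _ hmono.injective hadm 1 0 one_pos (fun i => Nat.coprime_one_right _)
  refine ⟨fun i => e i - e 0, fun x y hxy => ?_, Nat.sub_self _, fun k N => ?_⟩
  · exact Nat.sub_lt_sub_right (he.monotone (Fin.zero_le x)) (he hxy)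
  obtain ⟨u, d, hu, hd, hj⟩ := hp k N
  refine ⟨u + e 0, d, by omega, hd, fun j hjk i => ?_⟩
  obtain ⟨-, r, hr⟩ := hj j hjk
  have e' : ∀ i, u + e 0 + j * d + (e i - e 0) = u + j * d + e i := fun i => by
    have := he.monotone (Fin.zero_le i)
    omega
  simp only [e', ← hr]
  exact ⟨Nat.prime_nth_prime _, r, fun i => rfl⟩

/-- Progressions of every length among the primes `p` with `p + h` the next prime, for one `h`. -/
theorem exists_difference_progressions : ∃ h : ℕ, 0 < h ∧ ∀ k N : ℕ, ∃ a d : ℕ, N < a ∧ 0 < d ∧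
    ∀ j < k, (a + j * d).Prime ∧ (a + j * d + h).Prime ∧
      ∀ p, a + j * d < p → p < a + j * d + h → ¬ p.Prime := by
  obtain ⟨h, hmono, h0, hp⟩ := exists_pattern_progressions 1
  have h01 := hmono (show (0 : Fin 2) < 1 by decide)
  rw [h0] at h01
  refine ⟨h 1, h01, fun k N => ?_⟩
  obtain ⟨a, d, ha, hd, hj⟩ := hp k N
  refine ⟨a, d, ha, hd, fun j hjk => ?_⟩
  obtain ⟨h1, r, hr⟩ := hj j hjk 0
  have hr0 := hr 0
  have hr1 := hr 1
  rw [h0, add_zero] at h1 hr0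
  rw [Fin.val_zero, add_zero] at hr0
  rw [Fin.val_one] at hr1
  refine ⟨h1, (hj j hjk 1).1, fun p hp1 hp2 hprime => ?_⟩
  rw [← hr0] at hp1
  rw [← hr1, ← Nat.nth_count hprime] at hp2
  rw [← Nat.nth_count hprime] at hp1
  have e1 := (Nat.nth_lt_nth Nat.infinite_setOfPred_prime).1 hp1
  have e2 := (Nat.nth_lt_nth Nat.infinite_setOfPred_prime).1 hp2
  omega

end FA.GreenTao
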