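import Fermat.Agent.GreenTao.TupleProgressions
import Mathlib.Analysis.SpecialFunctions.Log.Basic
import Mathlib.Analysis.SpecialFunctions.Pow.Asymptotics
import Mathlib.NumberTheory.Chebyshev

/-!
# Arithmetic progressions in dense sets of primes

Primes in `[√x, x]` have no prime factor below `√x`, so the theorem on rough tuples applies:
`≫ x ^ 2 / (log x) ^ k` progressions of length `k` in any set of primes with a positive
proportion of the primes up to `x`.
-/

set_option autoImplicit false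

namespace FA.GreenTao

open Finset Function Filter
open scoped BigOperators Topology

lemma eventually_primeCounting_ge :
    ∀ᶠ x : ℕ in atTop, Real.log 2 / 2 * x / Real.log x ≤ Nat.primeCounting x := by
  have h := ((Real.isLittleO_log_id_atTop.bound (show 0 < Real.log 2 / 8 by
    have := Real.log_pos one_lt_two; positivity)).natCast_atTop)
  filter_upwards [h, eventually_ge_atTop 2] with x hx h2
  have hx2 : (2 : ℝ) ≤ x := by exact_mod_cast h2
  have hlog : 0 < Real.log x := Real.log_pos (by linarith)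
  have h1 : Real.log ((x : ℝ) + 1) ≤ Real.log 2 + Real.log x := by
    rw [← Real.log_mul two_ne_zero (by positivity)]
    exact Real.log_le_log (by positivity) (by linarith)
  rw [Real.norm_of_nonneg hlog.le, id, Real.norm_of_nonneg (by positivity)] at hx
  refine le_trans ?_ (Chebyshev.pi_ge x)
  gcongr
  nlinarith [Real.log_pos one_lt_two,
    Real.log_le_log two_pos hx2]

lemma eventually_large {ε D : ℝ} (hε : 0 < ε) (hD : 0 ≤ D) :
    ∀ᶠ x : ℕ in atTop, D * Real.sqrt x + D ≤ ε * x / Real.log x := by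
  have ht := (isLittleO_log_rpow_atTop (show (0 : ℝ) < 1 / 2 by norm_num)).bound
    (show 0 < ε / (2 * (D + 1)) by positivity)
  filter_upwards [ht.natCast_atTop, eventually_ge_atTop 2] with x hx h2
  have hx2 : (2 : ℝ) ≤ x := by exact_mod_cast h2
  have hlog : 0 < Real.log x := Real.log_pos (by linarith)
  rw [Real.norm_of_nonneg hlog.le, Real.norm_of_nonneg (by positivity),
    ← Real.sqrt_eq_rpow] at hx
  have hs : 1 ≤ Real.sqrt x := Real.one_le_sqrt.2 (by linarith)
  rw [le_div_iff₀ hlog]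
  calc (D * Real.sqrt x + D) * Real.log x ≤ (2 * (D + 1) * Real.sqrt x) *
        (ε / (2 * (D + 1)) * Real.sqrt x) := by
        refine mul_le_mul ?_ hx hlog.le (by positivity)
        nlinarith
    _ = ε * (Real.sqrt x * Real.sqrt x) := by field_simp
    _ = ε * x := by rw [Real.mul_self_sqrt (Nat.cast_nonneg _)]

open scoped Classical in
/-- Dense sets of primes contain many progressions. -/
theorem exists_many_progressions_of_dense {k : ℕ} (hk : 2 ≤ k) {δ : ℝ} (hδ : 0 < δ) :
    ∃ c : ℝ, 0 < c ∧ ∀ᶠ x : ℕ in atTop, ∀ A : Set ℕ, (∀ a ∈ A, a.Prime) →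
      δ * Nat.primeCounting x ≤ #((range (x + 1)).filter (· ∈ A)) →
      c * (x : ℝ) ^ 2 / Real.log x ^ k ≤
        #((Icc 1 x ×ˢ Icc 1 x).filter fun p => ∀ j < k, p.1 + j * p.2 ≤ x ∧ p.1 + j * p.2 ∈ A) := by
  set δ' := δ * (Real.log 2 / 2) with hδ'
  have hδ'0 : 0 < δ' := by have := Real.log_pos one_lt_two; positivity
  obtain ⟨c, hc, x₀, hmain⟩ := exists_progressions_rough hk (K := 1) (h := fun _ => 0)
    (fun a b _ => Subsingleton.elim a b) 2 (half_pos hδ'0)
  refine ⟨c, hc, ?_⟩
  filter_upwards [eventually_ge_atTop x₀, eventually_primeCounting_ge,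
    eventually_large (half_pos hδ'0) zero_le_one, eventually_ge_atTop 2]
    with x hx hπ hlarge hx2 A hA hdens
  set S := (Icc 1 x).filter fun p => p ∈ A ∧ x ≤ p ^ 2 with hS
  have hlx : 0 < Real.log x := Real.log_pos (by exact_mod_cast (show 1 < x by omega))
  have hcard : δ' / 2 * x / Real.log x ≤ #S := by
    have h1 : (range (x + 1)).filter (· ∈ A) ⊆ S ∪ range (Nat.sqrt x + 1) := by
      intro p hp
      simp only [hS, mem_union, mem_filter, mem_range, mem_Icc] at hp ⊢
      by_cases hpx : x ≤ p ^ 2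
      · exact Or.inl ⟨⟨(hA p hp.2).one_le, by omega⟩, hp.2, hpx⟩
      · exact Or.inr (Nat.lt_succ_iff.2 (Nat.le_sqrt'.2 (by omega)))
    have h2 : (#((range (x + 1)).filter (· ∈ A)) : ℝ) ≤ #S + (Real.sqrt x + 1) := by
      have h3 : (#((range (x + 1)).filter (· ∈ A)) : ℝ) ≤ #S + ((Nat.sqrt x : ℕ) + 1) := by
        exact_mod_cast (card_le_card h1).trans ((card_union_le _ _).trans (by rw [card_range]))
      linarith [Real.nat_sqrt_le_real_sqrt (a := x)]
    have h4 : δ' * x / Real.log x ≤ δ * Nat.primeCounting x := by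
      refine le_of_eq_of_le ?_ (mul_le_mul_of_nonneg_left hπ hδ.le)
      rw [hδ']; ring
    have h5 : δ' * x / Real.log x = δ' / 2 * x / Real.log x + δ' / 2 * x / Real.log x := by ring
    linarith
  have h := hmain x hx S (filter_subset _ _) (fun n hn i p hp hd => ?_)
    (by rwa [pow_one])
  · rw [mul_one] at h
    refine h.trans (Nat.cast_le.2 (card_le_card fun p hp => ?_))
    simp only [progressionPairs, mem_filter] at hp ⊢
    refine ⟨hp.1, fun j hj => ?_⟩
    have h1 := hp.2 j hj
    simp only [hS, mem_filter, mem_Icc] at h1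
    exact ⟨h1.1.2, h1.2.1⟩
  · simp only [hS, mem_filter] at hn
    rw [(Nat.prime_dvd_prime_iff_eq hp (hA n hn.2.1)).1 (by simpa using hd)]
    exact hn.2.2

open scoped Classical in
/-- **The Green–Tao theorem**, relative form. -/
theorem exists_progression_primes (A : Set ℕ) (hA : ∀ a ∈ A, a.Prime) {δ : ℝ} (hδ : 0 < δ)
    (h : ∀ x₀ : ℕ, ∃ x, x₀ ≤ x ∧
      δ * Nat.primeCounting x ≤ #((range (x + 1)).filter (· ∈ A)))
    {k : ℕ} (hk : 2 ≤ k) : ∃ a d : ℕ, 0 < d ∧ ∀ j < k, a + j * d ∈ A := by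
  obtain ⟨c, hc, hev⟩ := exists_many_progressions_of_dense hk hδ
  obtain ⟨x₁, hx₁⟩ := eventually_atTop.1 hev
  obtain ⟨x, hx, hdens⟩ := h (max x₁ 2)
  have hpos : (0 : ℝ) < c * (x : ℝ) ^ 2 / Real.log x ^ k := by
    have h1 : 1 < x := lt_of_lt_of_le one_lt_two (le_of_max_le_right hx)
    have h2 : 0 < Real.log x := Real.log_pos (by exact_mod_cast h1)
    have h3 : (0 : ℝ) < x := by exact_mod_cast (show 0 < x by omega)
    positivity
  obtain ⟨p, hp⟩ := card_pos.1 (Nat.cast_pos.1
    (hpos.trans_le (hx₁ x (le_of_max_le_left hx) A hA hdens)))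
  simp only [mem_filter, mem_product, mem_Icc] at hp
  exact ⟨p.1, p.2, hp.1.2.1, fun j hj => (hp.2 j hj).2⟩

end FA.GreenTao
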