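import Mathlib.Algebra.BigOperators.Ring.Finset
import Mathlib.Algebra.Order.BigOperators.Ring.Finset
import Mathlib.Data.Finset.Powerset
import Mathlib.Data.Fintype.Powerset
import Mathlib.Data.Fintype.Pi
import Mathlib.Data.Real.Basic
import Mathlib.Algebra.Order.Field.Basic
import Mathlib.Algebra.BigOperators.Field
import Mathlib.Data.Nat.Choose.Sum
import Mathlib.Order.Interval.Finset.Defs
import Mathlib.Tactic.FieldSimp
import Mathlib.Tactic.Positivity
import Mathlib.Tactic.Linarith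
import Mathlib.Tactic.LinearCombination
import Mathlib.Tactic.Ring

/-!
# Selberg weights and their correlations

Squarefree numbers are sets of primes: `𝒟` is a downward closed family of subsets of `P` and
`v p` is the value of `p`. The weights `sieveWeight` have absolute value at most one, and the
correlation of any number of squares of divisor sums with almost independent local densities is
`sieveSum ^ (-m)` up to a factor `∏ p ∈ P, (1 + C / v p ^ 2)`.
-/

set_option autoImplicit false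

namespace FA.GreenTao

open Finset

variable {ι : Type*} [DecidableEq ι]

/-- The reciprocal of the totient of a set of primes. -/
noncomputable def invPhi (v : ι → ℝ) (A : Finset ι) : ℝ := ∏ p ∈ A, (v p - 1)⁻¹

/-- The normalising sum of the Selberg sieve. -/
noncomputable def sieveSum (𝒟 : Finset (Finset ι)) (v : ι → ℝ) : ℝ := ∑ M ∈ 𝒟, invPhi v M

/-- The Selberg weight of a set of primes. -/
noncomputable def sieveWeight (𝒟 : Finset (Finset ι)) (v : ι → ℝ) (A : Finset ι) : ℝ :=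
  (-1) ^ #A * (∏ p ∈ A, v p) * (∑ M ∈ 𝒟.filter (A ⊆ ·), invPhi v M) / sieveSum 𝒟 v

/-- A downward closed family of subsets of `P`, with values at least two. -/
structure IsSieveFamily (P : Finset ι) (𝒟 : Finset (Finset ι)) (v : ι → ℝ) : Prop where
  empty_mem : ∅ ∈ 𝒟
  subset_mem : ∀ A ∈ 𝒟, ∀ B, B ⊆ A → B ∈ 𝒟
  le_support : ∀ A ∈ 𝒟, A ⊆ P
  two_le : ∀ p ∈ P, 2 ≤ v p

lemma sum_powerset_ite_subset (U A : Finset ι) :
    ∑ L ∈ U.powerset, (if L ⊆ A then ((-1 : ℝ)) ^ #L else 0) = if Disjoint A U then 1 else 0 := by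
  have e : U.powerset.filter (· ⊆ A) = (U ∩ A).powerset := by
    ext L
    simp only [mem_filter, mem_powerset, subset_inter_iff]
  rw [← sum_filter, e]
  have h := prod_add (fun _ : ι => (-1 : ℝ)) (fun _ => 1) (U ∩ A)
  simp only [neg_add_cancel, prod_const, one_pow, mul_one] at h
  rw [← h]
  rcases (U ∩ A).eq_empty_or_nonempty with he | he
  · rw [he, card_empty, pow_zero, if_pos]
    rwa [disjoint_comm, disjoint_iff_inter_eq_empty]
  · rw [zero_pow (card_pos.2 he).ne', if_neg]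
    rw [disjoint_comm, disjoint_iff_inter_eq_empty]
    exact he.ne_empty

variable {P : Finset ι} {𝒟 : Finset (Finset ι)} {v : ι → ℝ}

lemma IsSieveFamily.pos (hS : IsSieveFamily P 𝒟 v) {A : Finset ι} (hA : A ⊆ P) {p : ι}
    (hp : p ∈ A) : 0 < v p - 1 := by linarith [hS.two_le p (hA hp)]

lemma IsSieveFamily.invPhi_pos (hS : IsSieveFamily P 𝒟 v) {A : Finset ι} (hA : A ⊆ P) :
    0 < invPhi v A := prod_pos fun _ hp => inv_pos.2 (hS.pos hA hp)

lemma IsSieveFamily.prod_pos' (hS : IsSieveFamily P 𝒟 v) {A : Finset ι} (hA : A ⊆ P) :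
    0 < ∏ p ∈ A, v p := prod_pos fun _ hp => by linarith [hS.two_le _ (hA hp)]

lemma IsSieveFamily.sieveSum_pos (hS : IsSieveFamily P 𝒟 v) : 0 < sieveSum 𝒟 v :=
  sum_pos (fun M hM => hS.invPhi_pos (hS.le_support M hM)) ⟨∅, hS.empty_mem⟩

lemma IsSieveFamily.sieveWeight_empty (hS : IsSieveFamily P 𝒟 v) :
    sieveWeight 𝒟 v ∅ = 1 := by
  simp only [sieveWeight, card_empty, pow_zero, prod_empty, one_mul, empty_subset, filter_true]
  exact div_self hS.sieveSum_pos.ne'

lemma IsSieveFamily.abs_sieveWeight_le (hS : IsSieveFamily P 𝒟 v) {A : Finset ι} (hA : A ∈ 𝒟) :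
    |sieveWeight 𝒟 v A| ≤ 1 := by
  have hAP := hS.le_support A hA
  set Y := ∑ M ∈ 𝒟.filter (A ⊆ ·), invPhi v M with hY
  have hY0 : 0 ≤ Y := sum_nonneg fun M hM =>
    (hS.invPhi_pos (hS.le_support M (mem_filter.1 hM).1)).le
  rw [sieveWeight, abs_div, abs_mul, abs_mul, abs_pow, abs_neg, abs_one, one_pow, one_mul,
    abs_of_pos (hS.prod_pos' hAP), abs_of_nonneg hY0, abs_of_pos hS.sieveSum_pos,
    div_le_one hS.sieveSum_pos]
  have e1 : ∏ p ∈ A, v p = (∑ L ∈ A.powerset, invPhi v L) * ∏ p ∈ A, (v p - 1) := by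
    simp only [invPhi, ← prod_one_add, ← prod_mul_distrib]
    refine prod_congr rfl fun p hp => ?_
    have := hS.pos hAP hp
    field_simp
    ring
  rw [e1, mul_assoc, hY, mul_sum (a := ∏ p ∈ A, (v p - 1)), sum_mul_sum, ← sum_product']
  have e2 : ∀ x ∈ A.powerset ×ˢ 𝒟.filter (A ⊆ ·),
      invPhi v x.1 * ((∏ p ∈ A, (v p - 1)) * invPhi v x.2) = invPhi v (x.1 ∪ (x.2 \ A)) := by
    rintro ⟨L, M⟩ hx
    simp only [mem_product, mem_powerset, mem_filter] at hx
    have hd : Disjoint L (M \ A) := disjoint_of_subset_left hx.1 disjoint_sdiff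
    simp only [invPhi]
    rw [prod_union hd, ← prod_sdiff hx.2.2, prod_inv_distrib (s := A)]
    have : ∏ p ∈ A, (v p - 1) ≠ 0 := (prod_pos fun p hp => hS.pos hAP hp).ne'
    field_simp
  rw [sum_congr rfl e2]
  refine le_of_eq_of_le
    (sum_image (f := invPhi v) (g := fun x : Finset ι × Finset ι => x.1 ∪ (x.2 \ A)) ?_).symm ?_
  swap
  · refine sum_le_sum_of_subset_of_nonneg (fun Q hQ => ?_) fun M hM _ =>
      (hS.invPhi_pos (hS.le_support M hM)).le
    obtain ⟨⟨L, M⟩, hx, rfl⟩ := mem_image.1 hQ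
    simp only [mem_product, mem_powerset, mem_filter] at hx
    exact hS.subset_mem M hx.2.1 _ (union_subset (hx.1.trans hx.2.2) sdiff_subset)
  · rintro ⟨L, M⟩ hx ⟨L', M'⟩ hy he
    simp only [mem_coe, mem_product, mem_powerset, mem_filter] at hx hy
    simp only at he
    refine Prod.ext (Finset.ext fun p => ?_) (Finset.ext fun p => ?_) <;>
      have := Finset.ext_iff.1 he p <;> simp only [mem_union, mem_sdiff] at this <;>
      have := @hx.1 p <;> have := @hy.1 p <;> have := @hx.2.2 p <;> have := @hy.2.2 p <;>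
      by_cases hp : p ∈ A <;> simp_all

/-- The sums of the weights over multiples. -/
lemma IsSieveFamily.sum_sieveWeight_div (hS : IsSieveFamily P 𝒟 v) (Q : Finset ι) :
    ∑ A ∈ 𝒟.filter (Q ⊆ ·), sieveWeight 𝒟 v A / ∏ p ∈ A, v p =
      if Q ∈ 𝒟 then (-1) ^ #Q * invPhi v Q / sieveSum 𝒟 v else 0 := by
  by_cases hQ : Q ∈ 𝒟
  swap
  · rw [if_neg hQ]
    refine sum_eq_zero fun A hA => absurd ?_ hQ
    exact hS.subset_mem A (mem_filter.1 hA).1 Q (mem_filter.1 hA).2
  rw [if_pos hQ]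
  have e : ∀ A ∈ 𝒟.filter (Q ⊆ ·), sieveWeight 𝒟 v A / ∏ p ∈ A, v p =
      ∑ M ∈ 𝒟, (if A ⊆ M then (-1 : ℝ) ^ #A * invPhi v M else 0) / sieveSum 𝒟 v := by
    intro A hA
    have := (hS.prod_pos' (hS.le_support A (mem_filter.1 hA).1)).ne'
    rw [← sum_div, ← sum_filter, sieveWeight, ← mul_sum]
    field_simp
  rw [sum_congr rfl e, sum_comm]
  rw [sum_eq_single_of_mem Q hQ]
  · rw [sum_eq_single_of_mem Q (mem_filter.2 ⟨hQ, Subset.rfl⟩)]
    · rw [if_pos Subset.rfl]
    · intro A hA hne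
      rw [if_neg fun h => hne (subset_antisymm h (mem_filter.1 hA).2), zero_div]
  · intro M hM hne
    rw [← sum_div, ← sum_filter, filter_filter]
    by_cases hQM : Q ⊆ M
    swap
    · rw [sum_eq_zero, zero_div]
      intro A hA
      exact absurd ((mem_filter.1 hA).2.1.trans (mem_filter.1 hA).2.2) hQM
    have e3 : ∑ A ∈ 𝒟.filter (fun A => Q ⊆ A ∧ A ⊆ M), (-1 : ℝ) ^ #A * invPhi v M =
        (∑ L ∈ (M \ Q).powerset, (-1 : ℝ) ^ #L) * ((-1) ^ #Q * invPhi v M) := by
      rw [sum_mul]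
      refine (sum_nbij' (fun L => Q ∪ L) (fun A => A \ Q) ?_ ?_ ?_ ?_ ?_).symm
      · intro L hL
        rw [mem_powerset] at hL
        refine mem_filter.2 ⟨hS.subset_mem M hM _ ?_, subset_union_left, ?_⟩ <;>
          exact union_subset hQM (hL.trans sdiff_subset)
      · intro A hA
        exact mem_powerset.2 (sdiff_subset_sdiff (mem_filter.1 hA).2.2 Subset.rfl)
      · intro L hL
        rw [mem_powerset] at hL
        exact union_sdiff_cancel_left (disjoint_of_subset_right hL disjoint_sdiff)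
      · intro A hA
        exact union_sdiff_of_subset (mem_filter.1 hA).2.1
      · intro L hL
        rw [mem_powerset] at hL
        rw [card_union_of_disjoint (disjoint_of_subset_right hL disjoint_sdiff), pow_add]
        ring
    rw [e3]
    have h0 := sum_powerset_ite_subset (M \ Q) (M \ Q)
    rw [sum_congr rfl fun L hL => if_pos (mem_powerset.1 hL), if_neg] at h0
    · rw [h0, zero_mul, zero_div]
    · rw [disjoint_self_iff_empty, sdiff_eq_empty_iff_subset]
      exact fun h => hne (subset_antisymm h hQM)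

/-- The local sum attached to a pattern `H` inside `T`. -/
noncomputable def locSum (𝒟 : Finset (Finset ι)) (v : ι → ℝ) (T H : Finset ι) : ℝ :=
  ∑ A ∈ 𝒟, ∑ B ∈ 𝒟, sieveWeight 𝒟 v A * sieveWeight 𝒟 v B *
    ((if (A ∪ B) ∩ T = H then 1 else 0) * ∏ p ∈ (A ∪ B) \ T, (v p)⁻¹)

/-- The part of a divisor sum with a given trace on `T`. -/
noncomputable def tracedSum (𝒟 : Finset (Finset ι)) (v : ι → ℝ) (T X F : Finset ι) : ℝ :=
  ∑ A ∈ 𝒟, if A ∩ T = X ∧ F ⊆ A then sieveWeight 𝒟 v A / ∏ p ∈ A \ T, v p else 0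

lemma IsSieveFamily.locSum_eq (hS : IsSieveFamily P 𝒟 v) (T H : Finset ι) :
    locSum 𝒟 v T H = ∑ X ∈ T.powerset, ∑ Y ∈ T.powerset, if X ∪ Y = H then
      ∑ F ∈ 𝒟.filter (fun F => Disjoint F T), (∏ p ∈ F, (v p - 1)) *
        (tracedSum 𝒟 v T X F * tracedSum 𝒟 v T Y F) else 0 := by
  set wt := sieveWeight 𝒟 v with hwt
  set den : Finset ι → ℝ := fun A => ∏ p ∈ A \ T, v p with hden
  set num : Finset ι → ℝ := fun F => ∏ p ∈ F, (v p - 1) with hnum
  set 𝒟' := 𝒟.filter (fun F => Disjoint F T) with hD'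
  -- the product over the union through the totient
  have hprod : ∀ A ∈ 𝒟, ∀ B ∈ 𝒟, wt A * wt B * ∏ p ∈ (A ∪ B) \ T, (v p)⁻¹ =
      ∑ F ∈ 𝒟', (if F ⊆ A then 1 else 0) * (if F ⊆ B then 1 else 0) *
        (num F * (wt A / den A * (wt B / den B))) := by
    intro A hA B hB
    have hA' := hS.le_support A hA
    have hB' := hS.le_support B hB
    have hdA : den A ≠ 0 := (hS.prod_pos' (sdiff_subset.trans hA')).ne'
    have hdB : den B ≠ 0 := (hS.prod_pos' (sdiff_subset.trans hB')).ne'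
    have hdU : ∏ p ∈ (A \ T) ∪ (B \ T), v p ≠ 0 :=
      (hS.prod_pos' (union_subset (sdiff_subset.trans hA') (sdiff_subset.trans hB'))).ne'
    have hu := prod_union_inter (f := v) (s₁ := A \ T) (s₂ := B \ T)
    have hI : ∏ p ∈ (A \ T) ∩ (B \ T), v p =
        ∑ F ∈ 𝒟', (if F ⊆ A then 1 else 0) * (if F ⊆ B then 1 else 0) * num F := by
      have hp := prod_one_add (f := fun p => v p - 1) ((A \ T) ∩ (B \ T))
      simp only [add_sub_cancel] at hp
      rw [hp]
      simp only [ite_zero_mul_ite_zero, mul_one, ite_mul, one_mul, zero_mul, ← sum_filter]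
      refine sum_congr (Finset.ext fun F => ?_) fun _ _ => rfl
      simp only [hD', mem_powerset, subset_inter_iff, subset_sdiff, mem_filter]
      exact ⟨fun h => ⟨⟨⟨hS.subset_mem A hA F h.1.1, h.1.2⟩, h.1.1⟩, h.2.1⟩,
        fun h => ⟨⟨h.1.2, h.1.1.2⟩, h.2, h.1.1.2⟩⟩
    calc wt A * wt B * ∏ p ∈ (A ∪ B) \ T, (v p)⁻¹
        = (∏ p ∈ (A \ T) ∩ (B \ T), v p) * (wt A / den A * (wt B / den B)) := by
          rw [union_sdiff_distrib, prod_inv_distrib]
          simp only [hden] at hdA hdB ⊢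
          field_simp
          linear_combination (-(wt A * wt B)) * hu
      _ = _ := by
          rw [hI, sum_mul]
          exact sum_congr rfl fun F _ => by ring
  calc locSum 𝒟 v T H
      = ∑ A ∈ 𝒟, ∑ B ∈ 𝒟, ∑ X ∈ T.powerset, ∑ Y ∈ T.powerset, ∑ F ∈ 𝒟',
          (if X ∪ Y = H then 1 else 0) * (num F *
            ((if A ∩ T = X ∧ F ⊆ A then wt A / den A else 0) *
              (if B ∩ T = Y ∧ F ⊆ B then wt B / den B else 0))) := by
        refine sum_congr rfl fun A hA => sum_congr rfl fun B hB => ?_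
        rw [mul_left_comm, hprod A hA B hB, mul_sum,
          sum_eq_single_of_mem (A ∩ T) (mem_powerset.2 inter_subset_right),
          sum_eq_single_of_mem (B ∩ T) (mem_powerset.2 inter_subset_right)]
        · rw [union_inter_distrib_right]
          refine sum_congr rfl fun F _ => ?_
          simp only [true_and]
          split_ifs <;> ring
        · intro Y _ hY
          simp [Ne.symm hY]
        · intro X _ hX
          simp [Ne.symm hX]
    _ = _ := by
        rw [sum_congr rfl fun A _ => sum_comm, sum_comm]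
        refine sum_congr rfl fun X _ => ?_
        rw [sum_congr rfl fun A _ => sum_comm, sum_comm]
        refine sum_congr rfl fun Y _ => ?_
        rw [sum_congr rfl fun A _ => sum_comm, sum_comm]
        by_cases hXY : X ∪ Y = H
        · simp only [hXY, if_true, one_mul]
          refine sum_congr rfl fun F _ => ?_
          simp only [tracedSum, ← hwt]
          rw [sum_mul_sum, mul_sum]
          refine sum_congr rfl fun A _ => ?_
          rw [mul_sum]
        · simp [hXY]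

lemma IsSieveFamily.abs_tracedSum_le (hS : IsSieveFamily P 𝒟 v) {T X F : Finset ι}
    (hT : T ⊆ P) (hF : F ∈ 𝒟) (hFT : Disjoint F T) (hX : X ⊆ T) :
    |tracedSum 𝒟 v T X F| ≤ 2 ^ #T * invPhi v F / sieveSum 𝒟 v := by
  have hX' := hX.trans hT
  have hvX := hS.prod_pos' hX'
  have hU' : T \ X ⊆ P := sdiff_subset.trans hT
  have hF' := hS.le_support F hF
  have hG := hS.sieveSum_pos
  have e : tracedSum 𝒟 v T X F = (∏ p ∈ X, v p) * ∑ L ∈ (T \ X).powerset, (-1) ^ #L *
      ∑ A ∈ 𝒟.filter ((X ∪ L) ∪ F ⊆ ·), sieveWeight 𝒟 v A / ∏ p ∈ A, v p := by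
    simp only [mul_sum, sum_filter]
    rw [sum_comm, tracedSum]
    refine sum_congr rfl fun A hA => ?_
    have hA' := hS.le_support A hA
    have e2 : ∀ L : Finset ι, (-1 : ℝ) ^ #L *
        (if (X ∪ L) ∪ F ⊆ A then sieveWeight 𝒟 v A / ∏ p ∈ A, v p else 0) =
        (if L ⊆ A then (-1 : ℝ) ^ #L else 0) *
          (if X ⊆ A ∧ F ⊆ A then sieveWeight 𝒟 v A / ∏ p ∈ A, v p else 0) := fun L => by
      by_cases hL : L ⊆ A
      · simp [union_subset_iff, hL]
      · simp [union_subset_iff, hL]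
    simp only [e2]
    rw [← mul_sum, ← sum_mul, sum_powerset_ite_subset]
    have hiff : A ∩ T = X ↔ X ⊆ A ∧ Disjoint A (T \ X) := by
      constructor
      · intro h
        refine ⟨h ▸ inter_subset_left, disjoint_left.2 fun p hp hpT => ?_⟩
        rw [mem_sdiff] at hpT
        exact hpT.2 (h ▸ mem_inter.2 ⟨hp, hpT.1⟩)
      · rintro ⟨h1, h2⟩
        refine subset_antisymm (fun p hp => ?_) (subset_inter h1 hX)
        rw [mem_inter] at hp
        by_contra hpX
        exact disjoint_left.1 h2 hp.1 (mem_sdiff.2 ⟨hp.2, hpX⟩)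
    by_cases h : A ∩ T = X
    · rw [if_pos (hiff.1 h).2, one_mul]
      by_cases hFA : F ⊆ A
      · rw [if_pos ⟨h, hFA⟩, if_pos ⟨(hiff.1 h).1, hFA⟩]
        have hsd : (∏ p ∈ A \ T, v p) * ∏ p ∈ X, v p = ∏ p ∈ A, v p := by
          rw [← h, mul_comm, prod_inter_mul_prod_diff]
        have := (hS.prod_pos' (sdiff_subset.trans hA' : A \ T ⊆ P)).ne'
        rw [← hsd]
        field_simp
      · rw [if_neg fun hh => hFA hh.2, if_neg fun hh => hFA hh.2, mul_zero]
    · rw [if_neg fun hh => h hh.1]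
      by_cases hXA : X ⊆ A
      · rw [if_neg fun hh => h (hiff.2 ⟨hXA, hh⟩), zero_mul, mul_zero]
      · rw [if_neg fun hh : X ⊆ A ∧ F ⊆ A => hXA hh.1, mul_zero, mul_zero]
  rw [e, abs_mul, abs_of_pos hvX]
  refine (mul_le_mul_of_nonneg_left (abs_sum_le_sum_abs _ _) hvX.le).trans ?_
  have hb : ∀ L ∈ (T \ X).powerset, |(-1 : ℝ) ^ #L *
      ∑ A ∈ 𝒟.filter ((X ∪ L) ∪ F ⊆ ·), sieveWeight 𝒟 v A / ∏ p ∈ A, v p| ≤
      invPhi v X * invPhi v L * invPhi v F / sieveSum 𝒟 v := by
    intro L hL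
    rw [mem_powerset] at hL
    have hpos : 0 < invPhi v X * invPhi v L * invPhi v F :=
      mul_pos (mul_pos (hS.invPhi_pos hX') (hS.invPhi_pos (hL.trans hU'))) (hS.invPhi_pos hF')
    rw [abs_mul, abs_pow, abs_neg, abs_one, one_pow, one_mul, hS.sum_sieveWeight_div]
    split_ifs with hQ
    · have hd1 : Disjoint X L := disjoint_of_subset_right hL disjoint_sdiff
      have hd2 : Disjoint (X ∪ L) F :=
        disjoint_of_subset_left (union_subset hX (hL.trans sdiff_subset)) hFT.symm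
      have ei : invPhi v ((X ∪ L) ∪ F) = invPhi v X * invPhi v L * invPhi v F := by
        simp only [invPhi, prod_union hd2, prod_union hd1]
      rw [abs_div, abs_mul, abs_pow, abs_neg, abs_one, one_pow, one_mul, ei, abs_of_pos hpos,
        abs_of_pos hG]
    · rw [abs_zero]
      exact (div_pos hpos hG).le
  refine (mul_le_mul_of_nonneg_left (sum_le_sum hb) hvX.le).trans ?_
  rw [← sum_div, ← sum_mul, ← mul_sum, ← mul_div_assoc]
  refine div_le_div_of_nonneg_right ?_ hG.le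
  rw [← mul_assoc, ← mul_assoc]
  refine mul_le_mul_of_nonneg_right ?_ (hS.invPhi_pos hF').le
  have h2 : ∀ {A : Finset ι}, A ⊆ P → ∏ p ∈ A, v p * (v p - 1)⁻¹ ≤ 2 ^ #A := fun {A} hA => by
    rw [← prod_const]
    refine prod_le_prod (fun p hp => mul_nonneg ?_ (inv_nonneg.2 (hS.pos hA hp).le)) fun p hp => ?_
    · linarith [hS.two_le p (hA hp)]
    · rw [← div_eq_mul_inv, div_le_iff₀ (hS.pos hA hp)]
      linarith [hS.two_le p (hA hp)]
  have e3 : ∑ L ∈ (T \ X).powerset, invPhi v L = ∏ p ∈ T \ X, v p * (v p - 1)⁻¹ := by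
    simp only [invPhi, ← prod_one_add]
    refine prod_congr rfl fun p hp => ?_
    have := (hS.pos hU' hp).ne'
    field_simp
    ring
  rw [e3, invPhi, ← prod_mul_distrib, mul_comm, prod_sdiff hX]
  exact h2 hT

lemma IsSieveFamily.abs_locSum_le (hS : IsSieveFamily P 𝒟 v) {T : Finset ι} (hT : T ⊆ P)
    (H : Finset ι) : |locSum 𝒟 v T H| ≤ 16 ^ #T / sieveSum 𝒟 v := by
  have hG := hS.sieveSum_pos
  rw [hS.locSum_eq]
  refine (abs_sum_le_sum_abs _ _).trans ?_
  have hX : ∀ X ∈ T.powerset, |∑ Y ∈ T.powerset, if X ∪ Y = H then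
      ∑ F ∈ 𝒟.filter (fun F => Disjoint F T), (∏ p ∈ F, (v p - 1)) *
        (tracedSum 𝒟 v T X F * tracedSum 𝒟 v T Y F) else 0| ≤
      2 ^ #T * (4 ^ #T / sieveSum 𝒟 v) := by
    intro X hX
    refine (abs_sum_le_sum_abs _ _).trans ((sum_le_card_nsmul _ _ _ fun Y hY => ?_).trans_eq
      (by rw [card_powerset, nsmul_eq_mul, Nat.cast_pow, Nat.cast_ofNat]))
    split_ifs
    swap
    · rw [abs_zero]; positivity
    refine (abs_sum_le_sum_abs _ _).trans ?_
    calc ∑ F ∈ 𝒟.filter (fun F => Disjoint F T), |(∏ p ∈ F, (v p - 1)) *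
          (tracedSum 𝒟 v T X F * tracedSum 𝒟 v T Y F)|
        ≤ ∑ F ∈ 𝒟.filter (fun F => Disjoint F T),
            4 ^ #T / sieveSum 𝒟 v ^ 2 * invPhi v F := by
          refine sum_le_sum fun F hF => ?_
          rw [mem_filter] at hF
          have hFP := hS.le_support F hF.1
          have hp := prod_pos fun p hp => hS.pos hFP hp
          rw [abs_mul, abs_mul, abs_of_pos hp]
          refine (mul_le_mul_of_nonneg_left (mul_le_mul
            (hS.abs_tracedSum_le hT hF.1 hF.2 (mem_powerset.1 hX))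
            (hS.abs_tracedSum_le hT hF.1 hF.2 (mem_powerset.1 hY)) (abs_nonneg _) ?_)
            hp.le).trans_eq ?_
          · have := hS.invPhi_pos hFP
            positivity
          · rw [show (4 : ℝ) ^ #T = 2 ^ #T * 2 ^ #T by rw [← mul_pow]; norm_num]
            simp only [invPhi, prod_inv_distrib]
            field_simp
      _ ≤ 4 ^ #T / sieveSum 𝒟 v ^ 2 * sieveSum 𝒟 v := by
          rw [← mul_sum]
          refine mul_le_mul_of_nonneg_left ?_ (by positivity)
          exact sum_le_sum_of_subset_of_nonneg (filter_subset _ _) fun M hM _ =>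
            (hS.invPhi_pos (hS.le_support M hM)).le
      _ = 4 ^ #T / sieveSum 𝒟 v := by field_simp
  refine (sum_le_card_nsmul _ _ _ hX).trans_eq ?_
  rw [card_powerset, nsmul_eq_mul, Nat.cast_pow, Nat.cast_ofNat,
    show (16 : ℝ) ^ #T = 2 ^ #T * (2 ^ #T * 4 ^ #T) by rw [← mul_pow, ← mul_pow]; norm_num]
  ring

lemma IsSieveFamily.locSum_empty (hS : IsSieveFamily P 𝒟 v) :
    locSum 𝒟 v ∅ ∅ = (sieveSum 𝒟 v)⁻¹ := by
  have hG := hS.sieveSum_pos
  rw [hS.locSum_eq, powerset_empty, sum_singleton, sum_singleton, if_pos (union_self _)]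
  simp only [disjoint_empty_right, filter_true]
  have e : ∀ F ∈ 𝒟, (∏ p ∈ F, (v p - 1)) *
      (tracedSum 𝒟 v ∅ ∅ F * tracedSum 𝒟 v ∅ ∅ F) = invPhi v F / sieveSum 𝒟 v ^ 2 := by
    intro F hF
    have ht : tracedSum 𝒟 v ∅ ∅ F = (-1) ^ #F * invPhi v F / sieveSum 𝒟 v := by
      have := hS.sum_sieveWeight_div F
      rw [if_pos hF, sum_filter] at this
      simpa [tracedSum] using this
    have h1 : ((-1 : ℝ) ^ #F) * (-1) ^ #F = 1 := by rw [← mul_pow]; norm_num
    have h2 : (∏ p ∈ F, (v p - 1)) * invPhi v F = 1 := by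
      rw [invPhi, prod_inv_distrib]
      exact mul_inv_cancel₀ (prod_pos fun p hp => hS.pos (hS.le_support F hF) hp).ne'
    rw [ht]
    calc (∏ p ∈ F, (v p - 1)) * ((-1) ^ #F * invPhi v F / sieveSum 𝒟 v *
          ((-1) ^ #F * invPhi v F / sieveSum 𝒟 v))
        = ((-1) ^ #F * (-1) ^ #F) * ((∏ p ∈ F, (v p - 1)) * invPhi v F) *
            (invPhi v F / sieveSum 𝒟 v ^ 2) := by ring
      _ = _ := by rw [h1, h2, one_mul, one_mul]
  rw [sum_congr rfl e, ← sum_div]
  show sieveSum 𝒟 v / sieveSum 𝒟 v ^ 2 = _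
  field_simp

lemma sum_sum_sum_sum_comm {α β γ δ : Type*} (s : Finset α) (s' : Finset β) (t : Finset γ)
    (t' : γ → Finset δ) (f : α → β → γ → δ → ℝ) :
    ∑ a ∈ s, ∑ b ∈ s', ∑ c ∈ t, ∑ d ∈ t' c, f a b c d =
      ∑ c ∈ t, ∑ d ∈ t' c, ∑ a ∈ s, ∑ b ∈ s', f a b c d := by
  rw [sum_congr rfl fun a _ => sum_comm, sum_comm]
  refine sum_congr rfl fun c _ => ?_
  rw [sum_congr rfl fun a _ => sum_comm, sum_comm]

variable {J : Type*} [Fintype J] [DecidableEq J]

/-- The correlation of the squares of the divisor sums with local densities `ρ`. -/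
noncomputable def sieveCorr (P : Finset ι) (𝒟 : Finset (Finset ι)) (v : ι → ℝ)
    (ρ : ι → Finset J → ℝ) : ℝ :=
  ∑ A ∈ Fintype.piFinset (fun _ : J => 𝒟), ∑ B ∈ Fintype.piFinset (fun _ : J => 𝒟),
    (∏ j, sieveWeight 𝒟 v (A j) * sieveWeight 𝒟 v (B j)) *
      ∏ p ∈ P, ρ p (univ.filter fun j => p ∈ A j ∪ B j)

/-- The weight of a pattern inside `T`. -/
noncomputable def patternWeight (v : ι → ℝ) (ρ : ι → Finset J → ℝ) (T : Finset ι)
    (H : J → Finset ι) : ℝ :=
  ∏ p ∈ T, (ρ p (univ.filter fun j => p ∈ H j) - (v p)⁻¹ ^ #(univ.filter fun j => p ∈ H j))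

lemma IsSieveFamily.sieveCorr_eq (hS : IsSieveFamily P 𝒟 v) (ρ : ι → Finset J → ℝ) :
    sieveCorr P 𝒟 v ρ = ∑ T ∈ P.powerset, ∑ H ∈ Fintype.piFinset (fun _ : J => T.powerset),
      patternWeight v ρ T H * ∏ j, locSum 𝒟 v T (H j) := by
  simp only [locSum, prod_univ_sum, sieveCorr]
  conv_rhs => enter [2, T, 2, H]; simp only [mul_sum]
  refine Eq.trans ?_ (sum_sum_sum_sum_comm (Fintype.piFinset fun _ : J => 𝒟)
    (Fintype.piFinset fun _ : J => 𝒟) P.powerset
    (fun T => Fintype.piFinset fun _ : J => T.powerset) fun A B T H => patternWeight v ρ T H *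
      ∏ j, sieveWeight 𝒟 v (A j) * sieveWeight 𝒟 v (B j) *
        ((if (A j ∪ B j) ∩ T = H j then 1 else 0) * ∏ p ∈ (A j ∪ B j) \ T, (v p)⁻¹))
  refine sum_congr rfl fun A hA => sum_congr rfl fun B hB => ?_
  simp only [Fintype.mem_piFinset] at hA hB
  set u : ι → Finset J := fun p => univ.filter fun j => p ∈ A j ∪ B j with hu
  have hsplit : ∏ p ∈ P, ρ p (u p) = ∑ T ∈ P.powerset,
      (∏ p ∈ T, (ρ p (u p) - (v p)⁻¹ ^ #(u p))) * ∏ p ∈ P \ T, (v p)⁻¹ ^ #(u p) := by
    rw [← prod_add]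
    exact prod_congr rfl fun p _ => by ring
  rw [show (∏ p ∈ P, ρ p (univ.filter fun j => p ∈ A j ∪ B j)) = ∏ p ∈ P, ρ p (u p) from rfl,
    hsplit, mul_sum]
  refine sum_congr rfl fun T hT => ?_
  rw [sum_eq_single_of_mem (fun j => (A j ∪ B j) ∩ T)
    (Fintype.mem_piFinset.2 fun j => mem_powerset.2 inter_subset_right)]
  swap
  · intro H _ hH
    obtain ⟨j, hj⟩ := Function.ne_iff.1 hH
    rw [prod_eq_zero (mem_univ j), mul_zero]
    rw [if_neg (Ne.symm hj), zero_mul, mul_zero]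
  have e1 : patternWeight v ρ T (fun j => (A j ∪ B j) ∩ T) =
      ∏ p ∈ T, (ρ p (u p) - (v p)⁻¹ ^ #(u p)) := by
    refine prod_congr rfl fun p hp => ?_
    have : (univ.filter fun j => p ∈ (A j ∪ B j) ∩ T) = u p :=
      filter_congr fun j _ => by simp [hp]
    rw [this]
  have e2 : ∏ p ∈ P \ T, (v p)⁻¹ ^ #(u p) = ∏ j, ∏ p ∈ (A j ∪ B j) \ T, (v p)⁻¹ := by
    simp only [hu, ← prod_const]
    rw [prod_comm' (t' := univ) (s' := fun j => (A j ∪ B j) \ T)]
    intro p j
    simp only [mem_sdiff, mem_filter, mem_univ, true_and, and_true]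
    have h1 := @hS.le_support _ (hA j) p
    have h2 := @hS.le_support _ (hB j) p
    rw [mem_union]
    tauto
  rw [e1, e2]
  simp only [if_true, one_mul, prod_mul_distrib]
  ring

/-- **The correlation of Selberg weights.** -/
theorem IsSieveFamily.abs_sieveCorr_sub_one_le (hS : IsSieveFamily P 𝒟 v)
    {ρ : ι → Finset J → ℝ} (hρ : ∀ p ∈ P, ∀ u, |ρ p u - (v p)⁻¹ ^ #u| ≤ 1 / v p ^ 2) :
    |sieveSum 𝒟 v ^ Fintype.card J * sieveCorr P 𝒟 v ρ - 1| ≤
      ∏ p ∈ P, (1 + 32 ^ Fintype.card J / v p ^ 2) - 1 := by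
  have hG := hS.sieveSum_pos
  set m := Fintype.card J with hm
  set F : Finset ι → ℝ := fun T => ∑ H ∈ Fintype.piFinset (fun _ : J => T.powerset),
    sieveSum 𝒟 v ^ m * (patternWeight v ρ T H * ∏ j, locSum 𝒟 v T (H j)) with hF
  have hF0 : F ∅ = 1 := by
    simp only [hF, powerset_empty]
    rw [show Fintype.piFinset (fun _ : J => ({∅} : Finset (Finset ι))) = {fun _ => ∅} from
      Fintype.piFinset_singleton _, sum_singleton]
    simp only [patternWeight, prod_empty, one_mul, hS.locSum_empty, prod_const, card_univ, ← hm]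
    rw [← mul_pow, mul_inv_cancel₀ hG.ne', one_pow]
  have hbound : ∀ T ∈ P.powerset, |F T| ≤ ∏ p ∈ T, 32 ^ m / v p ^ 2 := by
    intro T hT
    rw [mem_powerset] at hT
    refine (abs_sum_le_sum_abs _ _).trans ?_
    refine (sum_le_card_nsmul _ _ ((∏ p ∈ T, 1 / v p ^ 2) * (16 ^ #T) ^ m) fun H _ => ?_).trans ?_
    · rw [abs_mul, abs_mul, abs_pow, abs_of_pos hG, patternWeight, Finset.abs_prod,
        Finset.abs_prod]
      calc sieveSum 𝒟 v ^ m * ((∏ p ∈ T, |ρ p (univ.filter fun j => p ∈ H j) -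
            (v p)⁻¹ ^ #(univ.filter fun j => p ∈ H j)|) * ∏ j, |locSum 𝒟 v T (H j)|)
          ≤ sieveSum 𝒟 v ^ m * ((∏ p ∈ T, 1 / v p ^ 2) * ∏ _j : J, 16 ^ #T / sieveSum 𝒟 v) := by
            refine mul_le_mul_of_nonneg_left (mul_le_mul
              (prod_le_prod (fun _ _ => abs_nonneg _) fun p hp => hρ p (hT hp) _)
              (prod_le_prod (fun _ _ => abs_nonneg _) fun j _ => hS.abs_locSum_le hT _)
              (prod_nonneg fun _ _ => abs_nonneg _) (prod_nonneg fun p _ => ?_)) (by positivity)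
            positivity
        _ = _ := by
            rw [prod_const, card_univ, ← hm, div_pow]
            field_simp
    · rw [Fintype.card_piFinset, prod_const, card_univ, card_powerset, nsmul_eq_mul, ← hm,
        Nat.cast_pow,
        Nat.cast_pow, Nat.cast_ofNat, ← pow_mul, ← pow_mul, prod_div_distrib, prod_div_distrib,
        prod_const, prod_const, one_pow, ← pow_mul, show (32 : ℝ) = 2 * 16 by norm_num, mul_pow,
        mul_comm m #T]
      refine le_of_eq ?_
      ring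
  have e : sieveSum 𝒟 v ^ m * sieveCorr P 𝒟 v ρ = ∑ T ∈ P.powerset, F T := by
    rw [hS.sieveCorr_eq, mul_sum]
    exact sum_congr rfl fun T _ => mul_sum _ _ _
  rw [e, prod_one_add, ← add_sum_erase _ _ (empty_mem_powerset P),
    ← add_sum_erase _ _ (empty_mem_powerset P), hF0, prod_empty, add_sub_cancel_left,
    add_sub_cancel_left]
  exact (abs_sum_le_sum_abs _ _).trans (sum_le_sum fun T hT => hbound T (mem_of_mem_erase hT))

end FA.GreenTao
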